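import Fermat.Agent.Lifting.Eigen.NotNew
import Fermat.Agent.Lifting.Module.Parabolic
import Fermat.Agent.Lifting.Degeneracy.Equiv

/-!
# The corestriction of one raising step is injective on old systems

A class of the localised part at level `M q` which is an eigenclass of `W_q` with sign `eps`, has
the twisted system of a form of level dividing `M` and is killed by `stepCor` is zero: over `ℂ` it
has trivial diamonds, and then it is killed by both degeneracy maps.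
-/

set_option autoImplicit false
set_option linter.overlappingInstances false

noncomputable section

namespace Fermat.Agent.Lifting.Eigen

open IsLocalRing MvPolynomial CongruenceSubgroup ModularFormClass
open ModularCurve.Period
open Fermat.Agent.RT.GammaH
open Fermat.Agent.RT.Lift (corDeg starDeg liftSub qUnit lowerOp)
open Fermat.Agent.Lifting.Degeneracy
open Fermat.Agent.Lifting.Module (systemChar coe_systemChar systemChar_of_mem systemVal
  systemVal_eq mem_parabolicHoms_of_localizer)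

/-- The quotient by a split subgroup has odd order. -/
theorem odd_card_of_twistSub {N e : ℕ} [NeZero N] {K : Subgroup (ZMod N)ˣ} (hK : TwistSub N K e) :
    Odd (Nat.card ((ZMod N)ˣ ⧸ K)) := by
  by_contra hodd
  obtain ⟨x, hx⟩ := exists_prime_orderOf_dvd_card' (G := (ZMod N)ˣ ⧸ K) 2
    (even_iff_two_dvd.1 (Nat.not_odd_iff_even.1 hodd))
  obtain ⟨u, rfl⟩ := QuotientGroup.mk_surjective x
  have h2 : ((u : (ZMod N)ˣ ⧸ K)) ^ (2 * e + 1) = 1 := by
    rw [← QuotientGroup.mk_pow, QuotientGroup.eq_one_iff]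
    exact hK.pow u
  have h3 := orderOf_dvd_of_pow_eq_one h2
  rw [hx] at h3
  omega

variable {O : Type} [CommRing O] [Algebra O ℂ] {S : Finset ℕ}

/-- Extending the coefficients commutes with the operators given by representatives. -/
theorem opOf_toHomC {L M : ℕ} {K' : Subgroup (ZMod L)ˣ} {K : Subgroup (ZMod M)ˣ} {ι : Type*}
    [Fintype ι] {rep : ι → GLR} (h : Admissible (gammaH L K') (gammaH M K) rep)
    (x : HomMod O S K' O) :
    opOf h ℂ (toHomC (S := S) x) =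
      (Algebra.linearMap O ℂ).toAddMonoidHom.comp (opOf h O (toHomMod.symm x)) :=
  opOf_comp_coeff (R := O) (S := ℂ) h (Algebra.linearMap O ℂ).toAddMonoidHom _

variable (O S) in
/-- The symbol of `⟨ℓ⟩ ^ e T_ℓ`. -/
abbrev twSym (e : ℕ) {L : ℕ} (ℓ : {ℓ : ℕ // ℓ.Prime ∧ ℓ ∉ S}) (hℓ : ℓ.1.Coprime L) :
    OpRing O L S :=
  X (Sum.inl (ZMod.unitOfCoprime ℓ.1 hℓ ^ e)) * X (Sum.inr ℓ)

variable [IsLocalRing O] [IsDomain O] [IsPrincipalIdealRing O]

/-- Parabolic classes with the twisted system of a form have trivial diamonds. -/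
theorem diamond_eq_self_of_twistedSystem {L e : ℕ} [NeZero L] (hL : Squarefree L)
    {K : Subgroup (ZMod L)ˣ} (hK : TwistSub L K e) (hS : ∀ v : ℕ, v.Prime → v ∣ L → v ∈ S)
    {a : ℕ → ℂ} {φ : HomC K} (hφ : φ ∈ parabolicHoms ℂ (gammaH L K) ℂ)
    (hsys : ∀ (ℓ : {ℓ : ℕ // ℓ.Prime ∧ ℓ ∉ S}) (hℓ : ℓ.1.Coprime L),
      opC O S K (twSym O S e (L := L) ℓ hℓ) φ = a ℓ.1 • φ)
    {L₀ : ℕ} (hL₀ : L₀ ∣ L) {g : CuspForm (Gamma0 L₀) 2} (hg : g.IsNormalizedEigenform)
    (hga : ∀ ℓ : ℕ, ℓ.Prime → ℓ ∉ S → qCoeff g ℓ = a ℓ) (u : (ZMod L)ˣ) :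
    diamond L K ℂ u φ = φ := by
  classical
  have hneg := hK.neg_one_mem
  have hodd := odd_card_of_twistSub hK
  let E : Submodule ℂ (parabolicHoms ℂ (gammaH L K) ℂ) :=
    { carrier := {v | ∀ (ℓ : {ℓ : ℕ // ℓ.Prime ∧ ℓ ∉ S}) (hℓ : ℓ.1.Coprime L),
        opC O S K (twSym O S e (L := L) ℓ hℓ) v.1 = a ℓ.1 • v.1}
      zero_mem' := fun ℓ hℓ => by rw [ZeroMemClass.coe_zero, map_zero, smul_zero]
      add_mem' := fun {x y} hx hy ℓ hℓ => by
        rw [Submodule.coe_add, map_add, hx ℓ hℓ, hy ℓ hℓ, smul_add]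
      smul_mem' := fun c x hx ℓ hℓ => by
        rw [Submodule.coe_smul, map_smul, hx ℓ hℓ, smul_comm] }
  let ρ : OpRing O L S →+* Module.End ℂ (parabolicHoms ℂ (gammaH L K) ℂ) :=
    { toFun := opPar hneg
      map_one' := LinearMap.ext fun v => Subtype.ext (by rw [coe_opPar, map_one]; rfl)
      map_mul' := fun a b => LinearMap.ext fun v => Subtype.ext (by
        rw [coe_opPar, map_mul]; rfl)
      map_zero' := LinearMap.ext fun v => Subtype.ext (by rw [coe_opPar, map_zero]; rfl)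
      map_add' := fun a b => LinearMap.ext fun v => Subtype.ext (by
        rw [coe_opPar, map_add]; rfl) }
  have hE : ∀ (b : OpRing O L S), ∀ v ∈ E, ρ b v ∈ E := fun b v hv ℓ hℓ => by
    show opC O S K (twSym O S e (L := L) ℓ hℓ) (opC O S K b v.1) = a ℓ.1 • opC O S K b v.1
    rw [← Module.End.mul_apply, ← map_mul, mul_comm, map_mul, Module.End.mul_apply, hv ℓ hℓ,
      map_smul]
  have := finiteDimensional_parabolicHoms (M := L) hneg
  -- the operator killing the image of `⟨u⟩ - 1`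
  set n := orderOf u
  let t : OpRing O L S := ∑ i ∈ Finset.range n, X (Sum.inl (u ^ i))
  let W : Submodule ℂ (parabolicHoms ℂ (gammaH L K) ℂ) := E ⊓ LinearMap.ker (ρ t)
  by_contra hne
  let ψ : parabolicHoms ℂ (gammaH L K) ℂ := ρ (X (Sum.inl u)) ⟨φ, hφ⟩ - ⟨φ, hφ⟩
  have hψW : ψ ∈ W := by
    refine ⟨sub_mem (hE _ _ hsys) hsys, LinearMap.mem_ker.2 (Subtype.ext ?_)⟩
    show opC O S K t (opC O S K (X (Sum.inl u)) φ - φ) = 0
    simp only [t, map_sum, LinearMap.sum_apply, map_sub, opC_inl, ← diamond_mul, ← pow_succ]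
    rw [← Finset.sum_sub_distrib, Finset.sum_range_sub (fun i => diamond L K ℂ (u ^ i) φ), pow_orderOf_eq_one, pow_zero,
      sub_self]
  have hψ0 : ψ ≠ 0 := fun h0 => hne (by
    rw [← opC_inl (O := O) (S := S)]
    exact sub_eq_zero.1 (congrArg Subtype.val h0))
  have hW : W ≠ ⊥ := fun hbot => hψ0 ((Submodule.mem_bot ℂ).1 (hbot ▸ hψW))
  obtain ⟨θ', v, hv, hv0, hveig⟩ := HeckeDuality.exists_eigenCharacter ρ W hW fun c w hw =>
    ⟨hE c w hw.1, LinearMap.mem_ker.2 (by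
      rw [← Module.End.mul_apply, ← map_mul, mul_comm, map_mul, Module.End.mul_apply,
        LinearMap.mem_ker.1 hw.2, map_zero])⟩
  have hφ0 : v.1 ≠ 0 := fun h0 => hv0 (Subtype.ext h0)
  have heig' : ∀ c, opC O S K c v.1 = θ' c • v.1 := fun c => congrArg Subtype.val (hveig c)
  have hC : ∀ c : O, θ' (C c) = algebraMap O ℂ c := fun c =>
    smul_left_injective ℂ hφ0 ((heig' (C c)).symm.trans (by
      rw [opC_C, Module.algebraMap_end_apply]))
  let θ : OpRing O L S →ₐ[O] ℂ := { θ' with commutes' := hC }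
  set χ := systemChar S θ hφ0 heig'
  have hχ : ∀ w ∈ K, χ w = 1 := fun w hw => systemChar_of_mem S θ hφ0 heig' hw
  have hdia : ∀ w, diamond L K ℂ w v.1 = (χ w : ℂ) • v.1 := fun w => by
    rw [coe_systemChar, ← opC_inl (O := O) (S := S)]
    exact heig' _
  have hT : ∀ (ℓ : ℕ) [Fact ℓ.Prime], ℓ ∉ S →
      hecke L K ℓ ℂ v.1 = systemVal S θ ℓ • v.1 := fun ℓ hℓ hℓS => by
    rw [systemVal_eq S θ ⟨ℓ, hℓ.out, hℓS⟩, ← opC_inr (O := O) (S := S) ⟨ℓ, hℓ.out, hℓS⟩]
    exact heig' _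
  have hodd' := toDir_pow_eq_one hχ hodd
  have hsys' : IsTwistedSystem K χ (systemVal S θ) S g := fun ℓ hℓ hℓS w hw => by
    have hn : ℓ.Coprime L := hℓ.coprime_iff_not_dvd.2 fun hd => hℓS (hS ℓ hℓ hd)
    have hwu : w = ZMod.unitOfCoprime ℓ hn := Units.ext (by rw [hw, ZMod.coe_unitOfCoprime])
    have hpow : χ w ^ e = χ w ^ twistExp K := by
      refine pow_eq_pow_of_pow_eq_one ?_ ?_
      · rw [← map_pow]
        exact hχ _ (hK.pow w)
      · have h2 := congrArg (fun f => f ((w : ZMod L))) hodd'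
        simp only [MulChar.pow_apply_coe, toDir_coe, MulChar.one_apply_coe] at h2
        exact Units.ext (by simpa [twistExp] using h2)
    have h1 := hv.1 ⟨ℓ, hℓ, hℓS⟩ hn
    rw [heig' (twSym O S e (L := L) ⟨ℓ, hℓ, hℓS⟩ hn)] at h1
    have h2 : θ (twSym O S e (L := L) ⟨ℓ, hℓ, hℓS⟩ hn) = a ℓ := smul_left_injective ℂ hφ0 h1
    rw [hga ℓ hℓ hℓS, ← h2, twSym, map_mul, ← systemVal_eq S θ ⟨ℓ, hℓ, hℓS⟩,
      ← coe_systemChar S θ hφ0 heig', map_pow, ← hwu, ← Units.val_pow_eq_pow_val, ← hpow,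
      Units.val_pow_eq_pow_val]
  have hone : χ = 1 := chi_eq_one_of_twistedSystem hL hneg hodd hS hχ v.2 hφ0 hdia hT hL₀ hg hsys'
  have h0 : θ t = 0 := smul_left_injective ℂ hφ0 (((heig' t).symm.trans
    (congrArg Subtype.val (LinearMap.mem_ker.1 hv.2))).trans (zero_smul ℂ v.1).symm)
  simp only [t, map_sum, ← coe_systemChar S θ hφ0 heig', (show systemChar S θ hφ0 heig' = 1 from hone), MonoidHom.one_apply, Units.val_one,
    Finset.sum_const, Finset.card_range, nsmul_one, Nat.cast_eq_zero] at h0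
  exact (orderOf_pos u).ne' h0

variable [IsDiscreteValuationRing O] [IsAdicComplete (maximalIdeal O) O]
  {abar : ℕ → ResidueField O}

/-- **One step of the corestriction is injective on old systems.** -/
theorem eq_zero_of_stepCorH_eq_zero (hinj : Function.Injective (algebraMap O ℂ))
    {M q e : ℕ} [NeZero M] [NeZero (M * q)] (h : ALLevel (M * q) q M)
    {K : Subgroup (ZMod (M * q))ˣ} (hK : TwistSub (M * q) K e) (hsq : Squarefree (M * q))
    (hS : ∀ v : ℕ, v.Prime → v ∣ M * q → v ∈ S)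
    (hEis : ∃ ℓ : ℕ, ℓ.Prime ∧ ℓ ∉ S ∧ abar ℓ ≠ 1 + (ℓ : ResidueField O))
    {eps : O} (heps : eps * eps = 1) {y : HomMod O S K O} (hy : y ∈ locSub O S abar K)
    (hW : wOpH O S h hK y = eps • y) {a : ℕ → O}
    (hsys : ∀ (ℓ : {ℓ : ℕ // ℓ.Prime ∧ ℓ ∉ S}) (hℓ : ℓ.1.Coprime (M * q)),
      twSym O S e (L := (M * q)) ℓ hℓ • y = a ℓ.1 • y)
    (hcor : stepCorH O S h y = 0) {L₀ : ℕ} (hL₀ : L₀ ∣ M) {g : CuspForm (Gamma0 L₀) 2}
    (hg : g.IsNormalizedEigenform)
    (hga : ∀ ℓ : ℕ, ℓ.Prime → ℓ ∉ S → qCoeff g ℓ = algebraMap O ℂ (a ℓ)) : y = 0 := by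
  classical
  have : Fact q.Prime := ⟨h.prime⟩
  have : NeZero L₀ := ⟨fun h0 => NeZero.ne M (Nat.eq_zero_of_zero_dvd (h0 ▸ hL₀))⟩
  let := quotientFintype (K.subgroupOf (pullSub h K))
  have hneg := hK.neg_one_mem
  set φ : HomC K := toHomC y with hφdef
  set z : ℂ := algebraMap O ℂ eps
  have hz : z * z = 1 := by rw [← map_mul, heps, map_one]
  have hφe : opC O S K (locElt O S abar K) φ = φ := by
    rw [← toHomC_smul, (show locElt O S abar K • y = y from hy)]
  have hφ : φ ∈ parabolicHoms ℂ (gammaH (M * q) K) ℂ :=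
    mem_parabolicHoms_of_localizer hsq hneg hS hEis (isLocalizer_locElt O S abar K) hφe
  have hφW : wOp ℂ h hK φ = z • φ := by
    refine (opOf_toHomC _ y).trans ?_
    rw [← smul_homC, ← map_smul, ← hW]
    rfl
  have hφsys : ∀ (ℓ : {ℓ : ℕ // ℓ.Prime ∧ ℓ ∉ S}) (hℓ : ℓ.1.Coprime (M * q)),
      opC O S K (twSym O S e (L := (M * q)) ℓ hℓ) φ = algebraMap O ℂ (a ℓ.1) • φ := fun ℓ hℓ => by
    rw [← toHomC_smul, hsys ℓ hℓ, map_smul, smul_homC]
  have hdia : ∀ u, diamond (M * q) K ℂ u φ = φ := fun u =>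
    diamond_eq_self_of_twistedSystem (O := O) hsq hK hS (a := fun ℓ => algebraMap O ℂ (a ℓ)) hφ
      hφsys (hL₀.trans (dvd_mul_right M q)) hg hga u
  have hT : ∀ (ℓ : ℕ) [Fact ℓ.Prime], ℓ ∉ S →
      hecke (M * q) K ℓ ℂ φ = algebraMap O ℂ (a ℓ) • φ := fun ℓ hℓ hℓS => by
    have hn : ℓ.Coprime (M * q) := hℓ.out.coprime_iff_not_dvd.2 fun hd => hℓS (hS ℓ hℓ.out hd)
    rw [← hφsys ⟨ℓ, hℓ.out, hℓS⟩ hn, twSym, mul_comm (X (Sum.inl _) : OpRing O (M * q) S), map_mul, Module.End.mul_apply, opC_inl, hdia,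
      opC_inr (O := O) (S := S) ⟨ℓ, hℓ.out, hℓS⟩]
  set ψ := coresMid ℂ (le_pullSub h) φ with hψdef
  have hcor' : corDeg h.raise ℂ (lowSub h K) ψ = 0 := by
    have h1 : stepCor h O (toHomMod.symm y) = 0 := hcor
    have h2 := congrArg ((Algebra.linearMap O ℂ).toAddMonoidHom.comp ·) h1
    simp only [AddMonoidHom.comp_zero] at h2
    refine Eq.trans ?_ h2
    rw [hψdef, hφdef]
    show corDeg h.raise ℂ (lowSub h K) (coresMid ℂ (le_pullSub h) (toHomC y)) =
      AddMonoidHom.comp _ (corDeg h.raise O (lowSub h K) (coresMid O (le_pullSub h) (toHomMod.symm y)))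
    unfold corDeg coresMid IsCoreps.cores
    rw [opOf_toHomC]
    exact opOf_comp_coeff (R := O) (S := ℂ) _ (Algebra.linearMap O ℂ).toAddMonoidHom _
  have hK' : TwistSub M (lowSub h K) e := hK.map_toM h
  have hψW : wOp ℂ h (hK'.liftSub h) ψ = z • ψ := by
    rw [hψdef, ← coresMid_wOp ℂ (le_pullSub h) h hK (hK'.liftSub h), hφW, map_smul]
  have hstar : starDeg h.raise ℂ (lowSub h K) ψ = 0 := by
    have h1 := corDeg_wOp ℂ h hK' ψ
    rw [hψW, map_smul, hcor', smul_zero] at h1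
    have h2 := congrArg (diamond M (lowSub h K) ℂ (qUnit h.raise ^ e)⁻¹) h1
    rwa [map_zero, ← diamond_mul, inv_mul_cancel, diamond_of_mem ℂ (one_mem _), eq_comm] at h2
  have hψpar : ψ ∈ parabolicHoms ℂ (gammaH (M * q) (pullSub h K)) ℂ :=
    opOf_mem_parabolicHoms hneg (isCoreps_midRep (le_pullSub h)).admissible (fun i =>
      ⟨_, isIntMat_mapGL (midRep K (pullSub h K) i),
      by simp⟩) hφ
  have hψ0 : ψ = 0 := by
    refine eq_zero_of_not_new (χ := 1) (a := fun ℓ => algebraMap O ℂ (a ℓ)) (g := g) h hsq hK'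
      (odd_card_of_twistSub hK') hS (fun _ _ => rfl) hψpar (fun u => ?_)
      (fun ℓ _ hℓ => ?_) hg (fun hd => h.not_dvd (hd.trans hL₀)) (fun ℓ hℓ hℓS u _ => ?_) hcor'
      hstar
    · rw [MonoidHom.one_apply, Units.val_one, one_smul, hψdef, ← coresMid_diamond, hdia]
    · rw [hψdef, ← coresMid_hecke, hT ℓ hℓ, map_smul]
    · rw [MonoidHom.one_apply, Units.val_one, one_pow, one_mul, hga ℓ hℓ hℓS]
  have hsum := resMid_coresMid ℂ (le_pullSub h) φ
  rw [← hψdef, hψ0, map_zero, Finset.sum_congr rfl (fun p _ => hdia _), Finset.sum_const,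
    ← Nat.cast_smul_eq_nsmul ℂ, eq_comm, smul_eq_zero] at hsum
  refine toHomC_injective hinj ?_
  rw [map_zero]
  exact hsum.resolve_left (Nat.cast_ne_zero.2 (Finset.card_ne_zero.2 Finset.univ_nonempty))

end Fermat.Agent.Lifting.Eigen
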