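import Fermat.Agent.RT.Assembly.Forms
import Fermat.Agent.NewformLocal.Assembly
import Fermat.Agent.NewformLocal.NotEisenstein
import Fermat.Agent.NewformLocal.Oldness

/-!
# A residual representation at a prime exactly dividing the level of a congruent newform
-/

set_option autoImplicit false

noncomputable section

open Polynomial CongruenceSubgroup ModularFormClass
open Fermat.Agent.NewformLocal (UnipotentAt ToricSquareAt toricOp)

namespace Fermat.Agent.Lifting.Eigen

open Fermat.Agent.RT (IsCongruentForm)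
open Fermat.Agent.RT.Assembly (charpoly_eq_of_frobenius)

local notation "GQ" => AlgebraicClosure ℚ ≃ₐ[ℚ] AlgebraicClosure ℚ
local notation "Q̄" => AlgebraicClosure ℚ

variable {p : ℕ} [hp : Fact p.Prime] {k : Type} [Field k] [CharP k p] {abar : ℕ → k}

set_option maxHeartbeats 800000 in
/-- At a prime `q ∥ M` of the level of a congruent newform the squared trace of a Frobenius
element of the residual representation is `(q + 1) ^ 2`. -/
theorem trace_sq_of_congruent (ρbar : ResidualGaloisRep k) {S : Finset ℕ}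
    (hbar : ∀ ℓ : ℕ, ℓ.Prime → ℓ ∉ S → ∀ A : ValuationSubring Q̄, A.LiesOverPrime ℓ →
      ∀ s : GQ, A.IsFrobeniusAt s ℓ →
        LinearMap.charpoly (ρbar.ρ s) = X ^ 2 - C (abar ℓ) * X + C (ℓ : k))
    {M : ℕ} [NeZero M] {g : CuspForm (Gamma0 M) 2}
    (hg : g.IsNewform) (hcongr : IsCongruentForm S abar g) {q : ℕ} (hq : q.Prime)
    (hqp : q ≠ p) (hqM : q ∣ M) (D : GaloisReps.HeckeGaloisModel M p) (hU : UnipotentAt D q)
    (hT : ToricSquareAt D q) {A : ValuationSubring Q̄} (hA : A.LiesOverPrime q) {σ : GQ}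
    (hσ : A.IsFrobeniusAt σ q) :
    LinearMap.trace k _ (ρbar.ρ σ) ^ 2 = ((q : k) + 1) ^ 2 := by
  classical
  have : CharP (AlgebraicClosure k) p :=
    charP_of_injective_algebraMap (algebraMap k (AlgebraicClosure k)).injective p
  obtain ⟨-, φ, hφ⟩ := hcongr
  -- the eigen character with values in the algebraic integers
  obtain ⟨θ₀, hθ₀⟩ := GaloisReps.exists_eigenform_character hg.1
  have hint : ∀ t, ConductorLevel.eigenChar hg.1 (∅ : Set ℕ) t ∈ integralClosure ℤ ℂ := fun t =>
    ConductorLevel.eigenChar_range_le hg.1 (integralClosure ℤ ℂ)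
      (fun ℓ hℓ _ => hθ₀ ℓ hℓ ▸ (θ₀ (HeckeDuality.heckeOp M 2 ℓ hℓ)).2) ⟨t, rfl⟩
  let θI : GaloisReps.FullHecke M →+* integralClosure ℤ ℂ :=
    (ConductorLevel.eigenChar hg.1 (∅ : Set ℕ)).codRestrict (integralClosure ℤ ℂ) hint
  have : Module.Finite ℤ (GaloisReps.FullHecke M) := IntegralStructure.heckeAlgebra_finite M 2 ∅
  have : Module.Finite ℤ θI.range :=
    Module.Finite.of_surjective θI.rangeRestrict.toIntAlgHom.toLinearMap
      θI.rangeRestrict_surjective
  obtain ⟨O', i1, i2, i3, i4, i5, hpO, θA, ψ, hψ⟩ :=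
    GaloisReps.exists_lift_char (p := p) (A := θI.range) (φ.comp θI.range.subtype)
  have hθA : Function.Injective θA := by
    rw [RingHom.injective_iff_ker_eq_bot]
    have := RingHom.ker_isPrime θA
    refine Ideal.eq_bot_of_comap_eq_bot (R := ℤ) ?_
    rw [eq_bot_iff]
    intro n hn
    rw [Ideal.mem_comap, RingHom.mem_ker, eq_intCast, map_intCast, Int.cast_eq_zero] at hn
    exact hn
  let θ : GaloisReps.FullHecke M →+* O' := θA.comp θI.rangeRestrict
  obtain ⟨ι⟩ := GaloisReps.exists_padicHom O' hpO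
  -- the residual representation of the newform
  let : Algebra (IsLocalRing.ResidueField O') (AlgebraicClosure k) := ψ.toAlgebra
  let ρO := D.rep ι θ hpO
  let ρ' := ρO.residual.baseChange (AlgebraicClosure k)
  have hch : ∀ τ : GQ, LinearMap.charpoly (ρ'.ρ τ) =
      (LinearMap.charpoly (ρO.ρ τ)).map (ψ.comp (IsLocalRing.residue O')) := fun τ => by
    show LinearMap.charpoly (((ρO.ρ τ).baseChange (IsLocalRing.ResidueField O')).baseChange
      (AlgebraicClosure k)) = _
    rw [LinearMap.charpoly_baseChange, LinearMap.charpoly_baseChange, Polynomial.map_map]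
    rfl
  have hall := charpoly_eq_of_frobenius ρ' (ρbar.baseChange (AlgebraicClosure k))
    (S ∪ insert p M.primeFactors)
    (fun ℓ hℓ hℓT B hB τ hτ => by
      simp only [Finset.mem_union, Finset.mem_insert, not_or] at hℓT
      have hℓM : ¬ ℓ ∣ M := fun h =>
        hℓT.2.2 (Nat.mem_primeFactors.mpr ⟨hℓ, h, NeZero.ne M⟩)
      have hNp : ¬ ℓ ∣ M * p := fun h => (hℓ.dvd_mul.mp h).elim hℓM fun h' =>
        hℓT.2.1 ((Nat.prime_dvd_prime_iff_eq hℓ hp.out).mp h')
      rw [hch, show LinearMap.charpoly (ρO.ρ τ) = _ from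
        D.charpoly_eigenAction_frobenius ι θ GaloisReps.frobeniusDensity hpO hℓ hNp hB hτ]
      show _ = LinearMap.charpoly ((ρbar.ρ τ).baseChange (AlgebraicClosure k))
      rw [LinearMap.charpoly_baseChange, hbar ℓ hℓ hℓT.1 B hB τ hτ]
      have ha : ((θI (HeckeDuality.heckeOp M 2 ℓ hℓ) : integralClosure ℤ ℂ) : ℂ) = qCoeff g ℓ := by
        show ConductorLevel.eigenChar hg.1 (∅ : Set ℕ) _ = _
        rw [HeckeDuality.heckeOp, dif_neg hℓM]
        exact ConductorLevel.eigenChar_T hg.1 hℓ hℓM _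
      have e : ψ (IsLocalRing.residue O' (θ (HeckeDuality.heckeOp M 2 ℓ hℓ))) =
          algebraMap k _ (abar ℓ) := by
        rw [← hφ ℓ hℓ hℓT.1 _ ha]
        exact RingHom.congr_fun hψ _
      simp [e]) σ
  -- the special Frobenius element
  have hR : M / q ∣ M := Nat.div_dvd_of_dvd hqM
  have hRq : M / q * q = M := Nat.div_mul_cancel hqM
  have : NeZero (M / q) := ⟨fun h => NeZero.ne M (by rw [← hRq, h, zero_mul])⟩
  obtain ⟨t, ht, htg⟩ := NewformLocal.exists_killsOld_ne_zero hg hR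
    (Nat.div_lt_self (Nat.pos_of_ne_zero (NeZero.ne M)) hq.one_lt).ne
  obtain ⟨ℓ, hℓ, hℓT, hne⟩ := NewformLocal.exists_coeff_ne_succ hg.1 (M * p).primeFactors
  have hℓN : ¬ ℓ ∣ M * p := fun h => hℓT (Nat.mem_primeFactors.mpr
    ⟨hℓ, h, mul_ne_zero (NeZero.ne M) hp.out.ne_zero⟩)
  have hθt : θ (toricOp t hℓ) ≠ 0 := fun h0 => by
    have h1 : θI.rangeRestrict (toricOp t hℓ) = 0 := hθA (by rw [map_zero]; exact h0)
    have h2 : ConductorLevel.eigenChar hg.1 (∅ : Set ℕ) (toricOp t hℓ) = 0 :=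
      congrArg (fun x : θI.range => ((x : integralClosure ℤ ℂ) : ℂ)) h1
    rw [toricOp, map_mul, map_sub, map_natCast, NewformLocal.eigenChar_toFull, mul_eq_zero] at h2
    have hℓM : ¬ ℓ ∣ M := fun h => hℓN (dvd_mul_of_dvd_left h p)
    have h3 : ConductorLevel.eigenChar hg.1 ∅ (HeckeDuality.heckeOp M 2 ℓ hℓ) = qCoeff g ℓ := by
      rw [HeckeDuality.heckeOp, dif_neg hℓM]
      exact ConductorLevel.eigenChar_T hg.1 hℓ hℓM _
    rw [h3, sub_eq_zero, Nat.cast_add, Nat.cast_one] at h2
    exact h2.elim htg hne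
  have key := NewformLocal.charpoly_frobenius_bad D ι θ hpO hq hqp hR hRq hU hT t ht hℓ hℓN hθt
    hA hσ
  have h4 : LinearMap.charpoly (ρ'.ρ σ) =
      LinearMap.charpoly ((ρbar.ρ σ).baseChange (AlgebraicClosure k)) := hall
  rw [hch, LinearMap.charpoly_baseChange,
    EC.FrobTrace.charpoly_of_finrank_eq_two ρbar.finrank_eq] at h4
  have h5 := congrArg (fun f => Polynomial.coeff f 1) h4
  refine (algebraMap k (AlgebraicClosure k)).injective ?_
  rw [map_pow, map_pow, map_add, map_natCast, map_one]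
  rcases key with h | h
  · rw [show LinearMap.charpoly (ρO.ρ σ) = _ from h] at h5
    simp [coeff_X_pow] at h5
    linear_combination ((algebraMap k (AlgebraicClosure k)
      (LinearMap.trace k ρbar.V (ρbar.ρ σ))) + ((q : AlgebraicClosure k) + 1)) * h5
  · rw [show LinearMap.charpoly (ρO.ρ σ) = _ from h] at h5
    simp [coeff_X_pow] at h5
    linear_combination ((algebraMap k (AlgebraicClosure k)
      (LinearMap.trace k ρbar.V (ρbar.ρ σ))) - ((q : AlgebraicClosure k) + 1)) * h5

end Fermat.Agent.Lifting.Eigen
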