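import Fermat.Agent.Lifting.Eigen.Twisted
import Fermat.Agent.RT.Lift.Ihara
import Fermat.Agent.RT.GammaH.Complex

/-!
# Eigenclasses and the degeneracy maps

The degeneracy maps preserve parabolic classes. A parabolic class on `Γ₀(M q)` with the system of a
form of level prime to `q` which both of them kill vanishes, and on `Γ₀(M)` that system determines
the eigenvalue of `T_q`.
-/

set_option autoImplicit false

noncomputable section

open CongruenceSubgroup ModularFormClass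
open ModularCurve.Period
open scoped MatrixGroups ModularForm

namespace Fermat.Agent.Lifting.Eigen

open Fermat.Agent.RT.GammaH
open Fermat.Agent.RT.Lift (resDeg conjDeg corDeg starDeg liftSub toTop toLift)
open Fermat.Agent.LevelRaising (RaiseData)
open Fermat.Agent.Periods.Congruence (per)

section Parabolic

variable {L M : ℕ} [NeZero L] [NeZero M] {K' : Subgroup (ZMod L)ˣ} {K : Subgroup (ZMod M)ˣ}

/-- An operator given by integral matrices of positive determinant preserves parabolic classes. -/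
theorem opOf_mem_parabolicHoms (hneg : -1 ∈ K') {ι : Type*} [Fintype ι] {rep : ι → GLR}
    (h : Admissible (gammaH L K') (gammaH M K) rep)
    (hint : ∀ i, ∃ A, IsIntMat (rep i) A ∧ 0 < A.det)
    {φ : Additive (gammaH L K') →+ ℂ} (hφ : φ ∈ parabolicHoms ℂ (gammaH L K') ℂ) :
    opOf h ℂ φ ∈ parabolicHoms ℂ (gammaH M K) ℂ := by
  obtain ⟨f, g, rfl⟩ := exists_per_add_conjHom hneg hφ
  have hper : ∀ f : FormH L K', ∃ f' : FormH M K, per f' = opOf h ℂ (per f) := fun f => by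
    refine ⟨mkFormH (slashSum rep f)
      (fun _ hγ => slashSum_inv h (fun _ hh => cuspForm_slash_eq_self f hh) hγ)
      (Finset.sum_induction _ (Newforms.IsCuspFn 2) (fun _ _ => Newforms.IsCuspFn.add)
        Newforms.IsCuspFn.zero fun i _ => ?_), ?_⟩
    · obtain ⟨A, hA, hd⟩ := hint i
      exact isCuspFn_slash (isCuspFn_formH f) hA hd.ne'
    · exact Periods.Congruence.per_opOf _ (fun i => by
        obtain ⟨A, hA, hd⟩ := hint i
        exact det_pos_of_isIntMat hA hd) Gamma_le_gammaH f _ rfl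
  obtain ⟨f', hf'⟩ := hper f
  obtain ⟨g', hg'⟩ := hper g
  have hconj : opOf h ℂ (conjHom (per g)) = conjHom (opOf h ℂ (per g)) :=
    opOf_comp_coeff (R := ℂ) (S := ℂ) h (starRingEnd ℂ).toAddMonoidHom (per g)
  rw [map_add, hconj, ← hf', ← hg']
  exact add_mem (per_mem_parabolicHoms _) (conjHom_mem_parabolicHoms (per_mem_parabolicHoms _))

variable {q : ℕ} [NeZero (M * q)]

theorem resDeg_mem_parabolicHoms (hneg : -1 ∈ K) {φ : Additive (gammaH M K) →+ ℂ}
    (hφ : φ ∈ parabolicHoms ℂ (gammaH M K) ℂ) :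
    resDeg ℂ q K φ ∈ parabolicHoms ℂ (gammaH (M * q) (liftSub q K)) ℂ :=
  opOf_mem_parabolicHoms hneg _ (fun _ => ⟨1, by simp [IsIntMat], by simp⟩) hφ

theorem conjDeg_mem_parabolicHoms (h : RaiseData q M) (hneg : -1 ∈ K)
    {φ : Additive (gammaH M K) →+ ℂ} (hφ : φ ∈ parabolicHoms ℂ (gammaH M K) ℂ) :
    conjDeg h ℂ K φ ∈ parabolicHoms ℂ (gammaH (M * q) (liftSub q K)) ℂ :=
  opOf_mem_parabolicHoms hneg _ (fun _ => ⟨_, RT.Lift.isIntMat_aRep h, by
    simp [Matrix.det_fin_two_of, h.prime.pos]⟩) hφ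

theorem corDeg_mem_parabolicHoms (h : RaiseData q M) (hneg : -1 ∈ liftSub q K)
    {φ : Additive (gammaH (M * q) (liftSub q K)) →+ ℂ}
    (hφ : φ ∈ parabolicHoms ℂ (gammaH (M * q) (liftSub q K)) ℂ) :
    corDeg h ℂ K φ ∈ parabolicHoms ℂ (gammaH M K) ℂ :=
  opOf_mem_parabolicHoms hneg _ (fun i => ⟨_, isIntMat_mapGL (RT.Lift.cSL h i), by simp⟩) hφ

theorem starDeg_mem_parabolicHoms (h : RaiseData q M) (hneg : -1 ∈ liftSub q K)
    {φ : Additive (gammaH (M * q) (liftSub q K)) →+ ℂ}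
    (hφ : φ ∈ parabolicHoms ℂ (gammaH (M * q) (liftSub q K)) ℂ) :
    starDeg h ℂ K φ ∈ parabolicHoms ℂ (gammaH M K) ℂ :=
  opOf_mem_parabolicHoms hneg _ (fun i => by
    obtain ⟨⟨A, hA, hd, -⟩, -⟩ := RT.Lift.sRep_mem (K := K) h i
    exact ⟨A, hA, by rw [hd]; simp [h.prime.pos]⟩) hφ

end Parabolic

/-- A semisimple endomorphism with only one eigenvalue is a scalar. -/
theorem apply_eq_smul_of_eigenvalues {V : Type*} [AddCommGroup V] [Module ℂ V]
    [FiniteDimensional ℂ V] (f : Module.End ℂ V) (hf : f.IsSemisimple) {a : ℂ}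
    (h : ∀ b : ℂ, f.HasEigenvalue b → b = a) (v : V) : f v = a • v := by
  have htop : f.eigenspace a = ⊤ := by
    refine eq_top_iff.2 ?_
    rw [← hf.isFinitelySemisimple.maxGenEigenspace_eq_eigenspace a,
      ← Module.End.iSup_maxGenEigenspace_eq_top f]
    refine iSup_le fun b => ?_
    by_cases hb : f.HasEigenvalue b
    · rw [h b hb]
    · rw [hf.isFinitelySemisimple.maxGenEigenspace_eq_eigenspace b,
        not_not.1 (Module.End.hasEigenvalue_iff.not.1 hb)]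
      exact bot_le
  exact Module.End.mem_eigenspace_iff.1 (htop ▸ Submodule.mem_top)

/-- The eigenvalue of `T_q`, `q ∤ M`, of a system is the coefficient of the form. -/
theorem hecke_eq_of_system {M : ℕ} [NeZero M] (hM : Squarefree M) {S : Finset ℕ}
    (hS : ∀ v : ℕ, v.Prime → v ∣ M → v ∈ S) {L₀ : ℕ} [NeZero L₀]
    {g₀ : CuspForm (Gamma0 L₀) 2} (hg₀ : g₀.IsNormalizedEigenform) {q : ℕ} [Fact q.Prime]
    (hqM : ¬ q ∣ M) (hqL₀ : ¬ q ∣ L₀)
    {φ : Additive (gammaH M (⊤ : Subgroup (ZMod M)ˣ)) →+ ℂ}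
    (hφ : φ ∈ parabolicHoms ℂ (gammaH M ⊤) ℂ)
    (hT : ∀ (ℓ : ℕ) [Fact ℓ.Prime], ℓ ∉ S → hecke M ⊤ ℓ ℂ φ = qCoeff g₀ ℓ • φ) :
    hecke M ⊤ q ℂ φ = qCoeff g₀ q • φ := by
  classical
  have hneg : (-1 : (ZMod M)ˣ) ∈ (⊤ : Subgroup (ZMod M)ˣ) := Subgroup.mem_top _
  have hodd : Odd (Nat.card ((ZMod M)ˣ ⧸ (⊤ : Subgroup (ZMod M)ˣ))) := by
    have : Subsingleton ((ZMod M)ˣ ⧸ (⊤ : Subgroup (ZMod M)ˣ)) :=
      QuotientGroup.subsingleton_quotient_top
    rw [Nat.card_unique]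
    exact odd_one
  set a := qCoeff g₀ q
  let E : Submodule ℂ (parabolicHoms ℂ (gammaH M (⊤ : Subgroup (ZMod M)ˣ)) ℂ) :=
    { carrier := {x | ∀ (ℓ : ℕ) [Fact ℓ.Prime], ℓ ∉ S →
        hecke M ⊤ ℓ ℂ x.1 = qCoeff g₀ ℓ • x.1}
      zero_mem' := fun ℓ _ _ => by simp
      add_mem' := fun {x y} hx hy ℓ _ hℓ => by
        rw [Submodule.coe_add, map_add, hx ℓ hℓ, hy ℓ hℓ, smul_add]
      smul_mem' := fun c x hx ℓ _ hℓ => by
        rw [Submodule.coe_smul, map_smul, hx ℓ hℓ, smul_comm] }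
  let T : Module.End ℂ (parabolicHoms ℂ (gammaH M (⊤ : Subgroup (ZMod M)ˣ)) ℂ) :=
    (hecke M ⊤ q ℂ).restrict fun _ => hecke_mem_parabolicHoms hneg q
  have hTE : ∀ x ∈ E, T x ∈ E := fun x hx ℓ _ hℓ => by
    show hecke M ⊤ ℓ ℂ (hecke M ⊤ q ℂ x.1) = qCoeff g₀ ℓ • hecke M ⊤ q ℂ x.1
    rw [hecke_comm, hx ℓ hℓ, map_smul]
  have := finiteDimensional_parabolicHoms (M := M) hneg
  let TE : Module.End ℂ E := T.restrict hTE
  have hss : TE.IsSemisimple := isSemisimple_of_sq _ fun c x hx =>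
    Subtype.ext (Subtype.ext (hecke_semisimple hM hneg hodd hqM c x.1.2
      (congrArg (fun y : E => y.1.1) hx)))
  -- every eigenvalue is `a`
  have heig : ∀ b : ℂ, Module.End.HasEigenvalue (M := E) TE b → b = a := by
    intro b hb
    obtain ⟨x, hx, hx0⟩ := hb.exists_hasEigenvector
    set ψ := x.1.1 with hψ
    have hψ0 : ψ ≠ 0 := fun h => hx0 (Subtype.ext (Subtype.ext h))
    have hqψ : hecke M ⊤ q ℂ ψ = b • ψ :=
      congrArg (fun y : E => y.1.1) (Module.End.mem_eigenspace_iff.1 hx)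
    set a' : ℕ → ℂ := Function.update (qCoeff g₀) q b with ha'
    have hdia : ∀ u : (ZMod M)ˣ, diamond M ⊤ ℂ u ψ = ((1 : (ZMod M)ˣ →* ℂˣ) u : ℂ) • ψ := fun u => by
      rw [MonoidHom.one_apply, Units.val_one, one_smul, diamond_top]
    have hT' : ∀ (ℓ : ℕ) [Fact ℓ.Prime], ℓ ∉ S.erase q → hecke M ⊤ ℓ ℂ ψ = a' ℓ • ψ := by
      intro ℓ _ hℓ
      rcases eq_or_ne ℓ q with rfl | hne'
      · rw [ha', Function.update_self, hqψ]
      · rw [ha', Function.update_of_ne hne']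
        exact x.2 ℓ fun h => hℓ (Finset.mem_erase.2 ⟨hne', h⟩)
    obtain ⟨f, G, -, hG, -, hsys⟩ := exists_twisted_eigenform hM hneg hodd
      (fun v hv hvM => Finset.mem_erase.2 ⟨fun h : v = q => hqM (h ▸ hvM), hS v hv hvM⟩)
      (fun _ _ => rfl) x.1.2 hψ0 hdia hT'
    have := neZero_twistLevel (χ := toDir (1 : (ZMod M)ˣ →* ℂˣ))
    have hval : ∀ ℓ, ℓ.Prime → ℓ ∉ S.erase q → qCoeff G ℓ = a' ℓ := fun ℓ hℓ hℓS => by
      have hℓM : ¬ ℓ ∣ M := fun h => hℓS (Finset.mem_erase.2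
        ⟨fun h' => hqM (h' ▸ h), hS ℓ hℓ h⟩)
      have hu := ((ZMod.isUnit_iff_coprime ℓ M).2 (hℓ.coprime_iff_not_dvd.2 hℓM))
      rw [hsys ℓ hℓ hℓS hu.unit hu.unit_spec, MonoidHom.one_apply, Units.val_one, one_pow, one_mul]
    have hsame : SameSystem G g₀ (insert q S) := fun ℓ hℓ hℓS => by
      rw [Finset.mem_insert, not_or] at hℓS
      rw [hval ℓ hℓ fun h => hℓS.2 (Finset.mem_of_mem_erase h), ha', Function.update_of_ne hℓS.1]
    have hq : q.Prime := Fact.out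
    have h := hsame.qCoeff_prime hG hg₀ hq (fun h => hqM ((prime_dvd_twistLevel_iff hq).1 h)) hqL₀
    rwa [hval q hq (Finset.notMem_erase q S), ha', Function.update_self] at h
  exact congrArg (fun y : E => y.1.1)
    (apply_eq_smul_of_eigenvalues (V := E) TE hss heig ⟨⟨φ, hφ⟩, hT⟩)

end Fermat.Agent.Lifting.Eigen
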