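import Fermat.Agent.Mazur.Eisenstein.Connected
import Fermat.Agent.Mazur.Eisenstein.CycInertia
import Fermat.Agent.Mazur.Eisenstein.Inputs
import Fermat.Agent.EichlerShimura.Specialization
import Fermat.Agent.GaloisReps.Results
import Fermat.Agent.NewformLocal.Assembly

/-!
# Frobenius at `p` on an ordinary eigen-lattice of level prime to `p`

If the eigen-lattice of a system `θ` of level `N`, `p ∤ N`, is ordinary at `p`, the value `z` of
a Frobenius element on the unramified quotient satisfies `z ^ 2 - θ(T_p) z + p = 0`: the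
Eichler–Shimura polynomial of Frobenius maps the torsion to the kernel of the reduction, on whose
admissible part inertia acts through the cyclotomic character.
-/

set_option autoImplicit false
set_option linter.style.haveILetI false
set_option linter.unusedSectionVars false

noncomputable section

namespace Fermat.Agent.Lifting.Eigen

open ModularCurve IsLocalRing
open Fermat.Agent.Arith (QBar GQ)
open GaloisReps (AbsGal FullHecke HeckeGaloisModel matIn CongruenceProperty modelOfCongruence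
  eigenspace torsionIso torsionGalois conjProperty)
open Mazur.Eisenstein (OrderProperty IsAdmissible pieceOp)
open scoped Pointwise

variable (p : ℕ) [Fact p.Prime]

/-- The `p`-adic cyclotomic character of the absolute Galois group of `ℚ`. -/
def cycl : GQ →* ℤ_[p]ˣ :=
  (cyclotomicCharacter QBar p).comp (MulSemiringAction.toRingAut GQ QBar)

variable {p}

theorem cycl_spec (g : GQ) {n : ℕ} {μ : QBar} (hμ : μ ^ p ^ n = 1) :
    g μ = μ ^ (PadicInt.toZModPow n (cycl p g : ℤ_[p])).val := by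
  haveI : ∀ i, HasEnoughRootsOfUnity QBar (p ^ i) := fun i => by
    haveI : NeZero (p ^ i) := ⟨pow_ne_zero _ (Fact.out : p.Prime).ne_zero⟩
    infer_instance
  exact cyclotomicCharacter.spec p (MulSemiringAction.toRingAut GQ QBar g) μ hμ

theorem sub_natCast_val_mem (z : ℤ_[p]) (n : ℕ) :
    z - ((PadicInt.toZModPow n z).val : ℤ_[p]) ∈ Ideal.span {(p : ℤ_[p]) ^ n} := by
  haveI : NeZero (p ^ n) := ⟨pow_ne_zero _ (Fact.out : p.Prime).ne_zero⟩
  rw [← PadicInt.ker_toZModPow, RingHom.mem_ker, map_sub, map_natCast, ZMod.natCast_zmod_val,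
    sub_self]

theorem padicHom_injective {R : Type} [CommRing R] [IsDomain R] [CharZero R] (ι : ℤ_[p] →+* R) :
    Function.Injective ι := by
  refine (injective_iff_map_eq_zero _).2 fun a ha => by_contra fun h0 => ?_
  rw [PadicInt.unitCoeff_spec h0, map_mul, map_pow, map_natCast] at ha
  rcases mul_eq_zero.1 ha with h | h
  · exact ((PadicInt.unitCoeff h0).isUnit.map ι).ne_zero h
  · exact pow_ne_zero _ (Nat.cast_ne_zero.2 (Fact.out : p.Prime).ne_zero) h

/-- Some inertia element at `p` has cyclotomic value different from one. -/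
theorem exists_cycl_ne_one {A : ValuationSubring QBar} (hA : A.LiesOverPrime p) :
    ∃ τ ∈ A.inertiaSubgroupIn ℚ, (cycl p τ : ℤ_[p]) ≠ 1 := by
  have hp : p.Prime := Fact.out
  haveI : NeZero (p ^ 2) := ⟨pow_ne_zero _ hp.ne_zero⟩
  obtain ⟨ζ, hζ⟩ := HasEnoughRootsOfUnity.exists_primitiveRoot QBar (p ^ 2)
  obtain ⟨τ, hτ, e⟩ := Mazur.Eisenstein.exists_inertia_apply (m := 1) hA hp hζ hζ.inv
  refine ⟨τ, hτ, fun h1 => ?_⟩
  have h4 : 4 ≤ p ^ 2 := by nlinarith [hp.two_le]
  have := cycl_spec τ hζ.pow_eq_one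
  rw [e, h1, map_one, ZMod.val_one_eq_one_mod, Nat.mod_eq_of_lt (by omega), pow_one] at this
  have h2 := Nat.le_of_dvd two_pos (hζ.dvd_of_pow_eq_one 2 (by
    rw [pow_two]
    nth_rewrite 2 [← this]
    exact mul_inv_cancel₀ (hζ.ne_zero (by omega))))
  omega

theorem nsmul_congr {G : Type*} [AddMonoid G] {m a c : ℕ} {x : G} (hx : m • x = 0)
    (h : a ≡ c [MOD m]) : a • x = c • x := by
  rw [← Nat.div_add_mod a m, ← Nat.div_add_mod c m, add_nsmul, add_nsmul, mul_comm m,
    mul_comm m, mul_nsmul', mul_nsmul', hx, nsmul_zero, nsmul_zero, h]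

variable {N : ℕ} [NeZero N]

theorem gal_zero (g : GQ) : g • (0 : JZero N) = 0 :=
  map_zero (DistribSMul.toAddMonoidHom (JZero N) g)

theorem gal_add (g : GQ) (x y : JZero N) : g • (x + y) = g • x + g • y :=
  map_add (DistribSMul.toAddMonoidHom (JZero N) g) x y

theorem gal_sub (g : GQ) (x y : JZero N) : g • (x - y) = g • x - g • y :=
  map_sub (DistribSMul.toAddMonoidHom (JZero N) g) x y

theorem gal_neg (g : GQ) (x : JZero N) : g • (-x) = -(g • x) :=
  map_neg (DistribSMul.toAddMonoidHom (JZero N) g) x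

/-- The classes killed by `p ^ n` and by `(g - a)(g - 1)` for inertia elements `g` acting by `a`
on the `p ^ n`-th roots of unity. -/
def ordPart (A : ValuationSubring QBar) (n : ℕ) : AddSubgroup (JZero N) where
  carrier := {x | p ^ n • x = 0 ∧ ∀ g ∈ A.inertiaSubgroupIn ℚ, ∀ a : ℕ,
    (∀ μ : QBar, μ ^ p ^ n = 1 → g μ = μ ^ a) → g • g • x - g • x - a • (g • x) + a • x = 0}
  zero_mem' := ⟨nsmul_zero _, fun g _ a _ => by
    rw [gal_zero, gal_zero, nsmul_zero]; abel⟩
  add_mem' := fun {x y} hx hy => ⟨by rw [nsmul_add, hx.1, hy.1, add_zero], fun g hg a ha => by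
    rw [gal_add, gal_add, nsmul_add, nsmul_add]
    linear_combination (norm := abel) hx.2 g hg a ha + hy.2 g hg a ha⟩
  neg_mem' := fun {x} hx => ⟨by rw [neg_nsmul, hx.1, neg_zero], fun g hg a ha => by
    rw [gal_neg, gal_neg, neg_nsmul, neg_nsmul]
    linear_combination (norm := abel) -(hx.2 g hg a ha)⟩

theorem nsmul_gal (g : GQ) (a : ℕ) (x : JZero N) : g • (a • x) = a • (g • x) :=
  map_nsmul (DistribSMul.toAddMonoidHom (JZero N) g) a x

set_option maxHeartbeats 1000000 in
theorem ordPart_smul {A : ValuationSubring QBar} {n : ℕ} {d : GQ}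
    (hd : d ∈ A.decompositionSubgroup ℚ) {x : JZero N} (hx : x ∈ ordPart (p := p) A n) :
    d • x ∈ ordPart (p := p) A n := by
  refine ⟨by rw [← nsmul_gal, hx.1, gal_zero], fun g hg a ha => ?_⟩
  obtain ⟨⟨g₀, hg₀⟩, hker, rfl⟩ := hg
  have hmem : d⁻¹ * g₀ * d ∈ A.inertiaSubgroupIn ℚ :=
    ⟨(⟨d, hd⟩ : A.decompositionSubgroup ℚ)⁻¹ * ⟨g₀, hg₀⟩ * ⟨d, hd⟩,
      (by
        have h := (MonoidHom.normal_ker _).conj_mem _ hker (⟨d, hd⟩ : A.decompositionSubgroup ℚ)⁻¹
        rw [inv_inv] at h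
        exact h),
      rfl⟩
  have hμ : ∀ μ : QBar, μ ^ p ^ n = 1 → (d⁻¹ * g₀ * d) μ = μ ^ a := fun μ hμ => by
    rw [AlgEquiv.mul_apply, AlgEquiv.mul_apply]
    show d⁻¹ (((A.decompositionSubgroup ℚ).subtype ⟨g₀, hg₀⟩) (d μ)) = _
    rw [ha _ (by rw [← map_pow, hμ, map_one]), map_pow, ← AlgEquiv.mul_apply, inv_mul_cancel,
      AlgEquiv.one_apply]
  have key := congrArg (d • ·) (hx.2 _ hmem a hμ)
  simp only [gal_add, gal_sub, gal_zero, nsmul_gal] at key
  have e : ∀ u : JZero N, d • ((d⁻¹ * g₀ * d) • u) = g₀ • d • u := fun u => by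
    rw [← mul_smul, ← mul_smul, mul_assoc, mul_inv_cancel_left]
  rw [e, e] at key
  exact key

theorem ordPart_hecke {A : ValuationSubring QBar} {n : ℕ} (ℓ : Nat.Primes) {x : JZero N}
    (hx : x ∈ ordPart (p := p) A n) : heckeOperatorBar N ℓ x ∈ ordPart (p := p) A n := by
  refine ⟨by rw [← map_nsmul, hx.1, map_zero], fun g hg a ha => ?_⟩
  simp only [GaloisReps.galois_heckeOperatorBar N ℓ, ← map_nsmul, ← map_sub, ← map_add, hx.2 g hg a ha,
    map_zero]

/-- **Inertia on the Frobenius polynomial of the ordinary torsion.** -/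
theorem inertia_smul_quadratic (hpN : ¬ p ∣ N) (hO : OrderProperty N)
    {A : ValuationSubring QBar} (hA : A.LiesOverPrime p) {σ : GQ} (hσ : A.IsFrobeniusAt σ p)
    {τ : GQ} (hτ : τ ∈ A.inertiaSubgroupIn ℚ) {n : ℕ} {x : JZero N}
    (hx : x ∈ ordPart (p := p) A n) :
    τ • (σ • σ • x - heckeOperatorBar N ⟨p, Fact.out⟩ (σ • x) + p • x) =
      (PadicInt.toZModPow n (cycl p τ : ℤ_[p])).val •
        (σ • σ • x - heckeOperatorBar N ⟨p, Fact.out⟩ (σ • x) + p • x) := by
  have hp : p.Prime := Fact.out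
  haveI := Arith.residueField_isAlgClosed A
  haveI := Arith.residueField_charP hA hp
  have hNA := EichlerShimura.natCast_ne_zero hp hpN hA
  set w := σ • σ • x - heckeOperatorBar N ⟨p, Fact.out⟩ (σ • x) + p • x with hw
  have hwS : w ∈ ordPart (p := p) A n :=
    add_mem (sub_mem (ordPart_smul hσ.mem_decompositionSubgroup
        (ordPart_smul hσ.mem_decompositionSubgroup hx))
      (ordPart_hecke _ (ordPart_smul hσ.mem_decompositionSubgroup hx))) (nsmul_mem hx p)
  have hw0 : reductionModL A N w = 0 := EichlerShimura.reductionModL_quadratic hp hpN hA hσ x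
  obtain ⟨M, _, _, _, i, O, hinj, heq, hrange, hcong⟩ := hO p hp hpN A hA n
  obtain ⟨w', hw'⟩ := hrange w hwS.1
  let S₀ : AddSubgroup M :=
    (ordPart (p := p) A n ⊓ AddMonoidHom.ker (reductionModL A N)).comap i
  have hstab : ∀ g : A.inertiaSubgroupIn ℚ, ∀ y ∈ S₀, g • y ∈ S₀ := fun g y hy => by
    have hgd : (g : GQ) ∈ A.decompositionSubgroup ℚ := by
      obtain ⟨⟨g', hg'⟩, -, e⟩ := g.2
      exact e ▸ hg'
    rw [AddSubgroup.mem_comap, Subgroup.smul_def, heq]
    exact ⟨ordPart_smul hgd hy.1, (EichlerShimura.reductionModL_inertia hNA g.2 _).trans hy.2⟩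
  let χ : A.inertiaSubgroupIn ℚ →* (ZMod p)ˣ :=
    (Units.map (PadicInt.toZMod : ℤ_[p] →+* ZMod p).toMonoidHom).comp
      ((cycl p).comp (A.inertiaSubgroupIn ℚ).subtype)
  letI := Mazur.Eisenstein.subAction S₀ hstab
  have hzero : ∀ b : S₀, p ^ n • b = 0 := fun b => Subtype.ext (hinj (by
    rw [AddSubgroup.coe_nsmul, map_nsmul, b.2.1.1, ZeroMemClass.coe_zero, map_zero]))
  have hadm : IsAdmissible S₀ p χ := by
    refine ⟨fun b => ⟨n, hzero b⟩, fun g b => ⟨n, ?_⟩⟩
    rcases Nat.eq_zero_or_pos n with rfl | hn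
    · simpa using hzero b
    set c : ℤ := ((χ g : ZMod p).val : ℤ) with hc
    set a : ℕ := (PadicInt.toZModPow n (cycl p (g : GQ) : ℤ_[p])).val with ha
    obtain ⟨k, hk⟩ : (p : ℤ) ∣ (a : ℤ) - c := by
      rw [← ZMod.intCast_zmod_eq_zero_iff_dvd, Int.cast_sub, hc, Int.cast_natCast, Int.cast_natCast,
        ZMod.natCast_zmod_val, sub_eq_zero]
      have h := Ideal.span_singleton_le_span_singleton.2 (dvd_pow_self (p : ℤ_[p]) hn.ne')
        (sub_natCast_val_mem (cycl p (g : GQ) : ℤ_[p]) n)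
      rw [← PadicInt.maximalIdeal_eq_span_p, ← PadicInt.ker_toZMod, RingHom.mem_ker, map_sub,
        map_natCast, sub_eq_zero] at h
      exact h.symm
    have hop : ∀ y : S₀, pieceOp S₀ g c y = p • (k • (g • y - y)) := fun y => by
      refine Subtype.ext (hinj ?_)
      have h := y.2.1.2 g g.2 a fun μ hμ => cycl_spec (g : GQ) hμ
      show i ((g : GQ) • (g : GQ) • (y : M) - (g : GQ) • (y : M) - c • ((g : GQ) • (y : M)) +
          c • (y : M)) = i (p • (k • ((g : GQ) • (y : M) - (y : M))))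
      simp only [map_add, map_sub, map_zsmul, map_nsmul, heq]
      rw [← natCast_zsmul (k • _) p, ← mul_smul (p : ℤ) k, ← hk, sub_smul, zsmul_sub, zsmul_sub,
        natCast_zsmul, natCast_zsmul, ← sub_eq_zero, ← h]
      abel
    suffices h : ∀ j, ∃ y, (⇑(pieceOp S₀ g c))^[j] b = p ^ j • y by
      obtain ⟨y, hy⟩ := h n
      rw [hy, hzero]
    intro j
    induction j with
    | zero => exact ⟨b, (by simp)⟩
    | succ j ih =>
      obtain ⟨y, hy⟩ := ih
      exact ⟨k • (g • y - y), by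
        rw [Function.iterate_succ_apply', hy, map_nsmul, hop, smul_smul, pow_succ]⟩
  haveI : NeZero (Monoid.exponent (Multiplicative M) * p ^ n) :=
    ⟨mul_ne_zero Monoid.exponent_ne_zero_of_finite (pow_ne_zero _ hp.ne_zero)⟩
  haveI : NeZero (p ^ n) := ⟨pow_ne_zero _ hp.ne_zero⟩
  obtain ⟨ζ, hζ⟩ :=
    HasEnoughRootsOfUnity.exists_primitiveRoot QBar (Monoid.exponent (Multiplicative M) * p ^ n)
  obtain ⟨c, -, hc⟩ := hζ.eq_pow_of_pow_eq_one
    (show τ ζ ^ (Monoid.exponent (Multiplicative M) * p ^ n) = 1 by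
      rw [← map_pow, hζ.pow_eq_one, map_one])
  have hall : ∀ μ : QBar, μ ^ (Monoid.exponent (Multiplicative M) * p ^ n) = 1 → τ μ = μ ^ c :=
    fun μ hμ => by
      obtain ⟨j, -, rfl⟩ := hζ.eq_pow_of_pow_eq_one hμ
      rw [map_pow, ← hc, ← pow_mul, ← pow_mul, mul_comm]
  have key := Mazur.Eisenstein.inertia_smul_of_congruent hA hp O χ S₀ hstab hadm
    (fun f hf y hy => hcong f hf y hy.2) hτ (c := c)
    (fun μ hμ => hall μ (by rw [pow_mul, hμ, one_pow]))
    (x := w') (by
      show i w' ∈ ordPart (p := p) A n ⊓ AddMonoidHom.ker (reductionModL A N)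
      rw [hw']
      exact ⟨hwS, hw0⟩)
  have e := congrArg i key
  rw [heq, map_nsmul, hw'] at e
  rw [e]
  obtain ⟨μ, hμ⟩ := HasEnoughRootsOfUnity.exists_primitiveRoot QBar (p ^ n)
  have h2 := (hall μ (by rw [mul_comm, pow_mul, hμ.pow_eq_one, one_pow])).symm.trans
    (cycl_spec τ hμ.pow_eq_one)
  have h3 := (hμ.isOfFinOrder (NeZero.ne _)).pow_eq_pow_iff_modEq.mp h2
  rw [← hμ.eq_orderOf] at h3
  exact nsmul_congr hwS.1 h3

/-! ### The model -/

variable (hES : CongruenceProperty N p)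

/-- The identifications of the `p`-power torsion used by the model. -/
abbrev torIso (N p : ℕ) [NeZero N] [Fact p.Prime] : GaloisReps.TorsionIso N p :=
  torsionIso N p (conjProperty N)

/-- The torsion class of a vector of the completed lattice at level `n`. -/
def levelClass (n : ℕ) : (Fin (2 * Gamma0.genus N) → ℤ_[p]) →+ JZero N :=
  (GaloisReps.JTors N p n).subtype.comp (((torIso N p).psi n).symm.toAddMonoidHom.comp
    (AddMonoidHom.mk' (fun v i => PadicInt.toZModPow n (v i))
      fun v w => funext fun i => map_add (PadicInt.toZModPow n) (v i) (w i)))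

theorem levelClass_gal (n : ℕ) (g : AbsGal) (v : Fin (2 * Gamma0.genus N) → ℤ_[p]) :
    levelClass (N := N) n (((torIso N p).gal g).mulVec v) = g • levelClass (N := N) n v := by
  refine congrArg Subtype.val (?_ : _ = GaloisReps.galTors n g _)
  refine ((torIso N p).psi n).injective ?_
  rw [← (torIso N p).galLvl_mulVec, ← (torIso N p).map_gal]
  simp only [AddMonoidHom.coe_comp, AddEquiv.coe_toAddMonoidHom, Function.comp_apply, AddMonoidHom.mk'_apply, AddEquiv.apply_symm_apply]
  funext i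
  exact RingHom.map_mulVec _ _ _ i

theorem levelClass_hecke (n : ℕ) {ℓ : ℕ} (hℓ : ℓ.Prime)
    (v : Fin (2 * Gamma0.genus N) → ℤ_[p]) :
    levelClass (N := N) n
        ((matIn (GaloisReps.latticeMat N) ℤ_[p] (HeckeDuality.heckeOp N 2 ℓ hℓ)).mulVec v) =
      heckeOperatorBar N ⟨ℓ, hℓ⟩ (levelClass (N := N) n v) := by
  refine congrArg Subtype.val (?_ : _ = GaloisReps.heckeTors n ⟨ℓ, hℓ⟩ _)
  refine ((torIso N p).psi n).injective ?_
  rw [← (torIso N p).mat_mulVec, (torIso N p).mat_heckeTors]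
  simp only [AddMonoidHom.coe_comp, AddEquiv.coe_toAddMonoidHom, Function.comp_apply, AddMonoidHom.mk'_apply, AddEquiv.apply_symm_apply]
  funext i
  rw [GaloisReps.matIn_apply, GaloisReps.latticeMat_heckeOp, RingHom.map_mulVec,
    GaloisReps.map_intCast_toZModPow]
  rfl

theorem levelClass_smul (n : ℕ) (z : ℤ_[p]) (v : Fin (2 * Gamma0.genus N) → ℤ_[p]) :
    levelClass (N := N) n (z • v) = (PadicInt.toZModPow n z).val • levelClass (N := N) n v := by
  haveI : NeZero (p ^ n) := ⟨pow_ne_zero _ (Fact.out : p.Prime).ne_zero⟩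
  rw [← map_nsmul]
  refine congrArg (fun u => (((torIso N p).psi n).symm u : JZero N)) (funext fun i => ?_)
  simp only [AddMonoidHom.mk'_apply, Pi.smul_apply, smul_eq_mul, Pi.mul_apply, Pi.natCast_apply,
    nsmul_eq_mul, map_mul, map_natCast, ZMod.natCast_zmod_val]

theorem eq_zero_of_levelClass {v : Fin (2 * Gamma0.genus N) → ℤ_[p]}
    (h : ∀ n, levelClass (N := N) n v = 0) : v = 0 :=
  funext fun i => PadicInt.ext_of_toZModPow.mp fun n => by
    have h0 : ((torIso N p).psi n).symm (fun i => PadicInt.toZModPow n (v i)) = 0 := Subtype.ext (h n)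
    rw [← ((torIso N p).psi n).symm.map_zero, ((torIso N p).psi n).symm.injective.eq_iff] at h0
    rw [Pi.zero_apply, map_zero]
    exact congrFun h0 i

/-- `(gal g - χ g) (gal g - 1)`. -/
def ordMat (D : HeckeGaloisModel N p) (g : AbsGal) : Matrix (Fin D.d) (Fin D.d) ℤ_[p] :=
  (D.gal g - (cycl p g : ℤ_[p]) • 1) * (D.gal g - 1)

/-- `F ^ 2 - T_p F + p`. -/
def frobPoly (D : HeckeGaloisModel N p) (σ : AbsGal) : Matrix (Fin D.d) (Fin D.d) ℤ_[p] :=
  D.gal σ * D.gal σ - matIn D.hecke ℤ_[p] (HeckeDuality.heckeOp N 2 p Fact.out) * D.gal σ +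
    (p : ℤ_[p]) • 1

theorem inertia_frobPoly_torIso (hpN : ¬ p ∣ N) (hO : OrderProperty N)
    {A : ValuationSubring QBar} (hA : A.LiesOverPrime p) {σ : GQ} (hσ : A.IsFrobeniusAt σ p)
    {τ : GQ} (hτ : τ ∈ A.inertiaSubgroupIn ℚ) {w : Fin (2 * Gamma0.genus N) → ℤ_[p]}
    (hw : ∀ g ∈ A.inertiaSubgroupIn ℚ, (((torIso N p).gal g - (cycl p g : ℤ_[p]) • 1) *
      ((torIso N p).gal g - 1)).mulVec w = 0) :
    (((torIso N p).gal τ - (cycl p τ : ℤ_[p]) • 1) * ((torIso N p).gal σ * (torIso N p).gal σ -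
      matIn (GaloisReps.latticeMat N) ℤ_[p] (HeckeDuality.heckeOp N 2 p Fact.out) *
        (torIso N p).gal σ + (p : ℤ_[p]) • 1)).mulVec w = 0 := by
  refine eq_zero_of_levelClass fun n => ?_
  have hx : levelClass (N := N) n w ∈ ordPart (p := p) A n := by
    refine ⟨?_, fun g hg a ha => ?_⟩
    · have := Subtype.prop (((torIso N p).psi n).symm fun i => PadicInt.toZModPow n (w i))
      rwa [AlgebraicCurve.Pic0.mem_torsion, natCast_zsmul] at this
    · haveI : NeZero (p ^ n) := ⟨pow_ne_zero _ (Fact.out : p.Prime).ne_zero⟩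
      obtain ⟨μ, hμ⟩ := HasEnoughRootsOfUnity.exists_primitiveRoot QBar (p ^ n)
      have h3 := (hμ.isOfFinOrder (NeZero.ne _)).pow_eq_pow_iff_modEq.mp
        ((ha μ hμ.pow_eq_one).symm.trans (cycl_spec g hμ.pow_eq_one))
      rw [← hμ.eq_orderOf] at h3
      have h := congrArg (levelClass (N := N) n)
        (hw g hg)
      simp only [← Matrix.mulVec_mulVec, Matrix.sub_mulVec, Matrix.smul_mulVec, Matrix.one_mulVec,
        Matrix.mulVec_sub, map_sub, map_zero, levelClass_smul, levelClass_gal] at h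
      have htors : ∀ y : JZero N, p ^ n • y = 0 →
          (PadicInt.toZModPow n (cycl p g : ℤ_[p])).val • y = a • y := fun y hy => by
        exact nsmul_congr hy h3.symm
      have hw0 : p ^ n • levelClass (N := N) n w = 0 := by
        have := Subtype.prop (((torIso N p).psi n).symm fun i => PadicInt.toZModPow n (w i))
        rwa [AlgebraicCurve.Pic0.mem_torsion, natCast_zsmul] at this
      rw [htors _ (by rw [← nsmul_gal, hw0, gal_zero]), htors _ hw0] at h
      rw [← h]
      abel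
  have hkey := inertia_smul_quadratic hpN hO hA hσ hτ hx
  simp only [← Matrix.mulVec_mulVec, Matrix.sub_mulVec, Matrix.add_mulVec, Matrix.smul_mulVec,
    Matrix.one_mulVec, map_sub, map_add, Nat.cast_smul_eq_nsmul, map_nsmul, levelClass_smul,
    levelClass_gal, levelClass_hecke]
  rw [sub_eq_zero]
  exact hkey

theorem inertia_frobPoly (hpN : ¬ p ∣ N) (hO : OrderProperty N)
    {A : ValuationSubring QBar} (hA : A.LiesOverPrime p) {σ : GQ} (hσ : A.IsFrobeniusAt σ p)
    {τ : GQ} (hτ : τ ∈ A.inertiaSubgroupIn ℚ) {w : Fin (modelOfCongruence hES).d → ℤ_[p]}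
    (hw : ∀ g ∈ A.inertiaSubgroupIn ℚ, (ordMat (modelOfCongruence hES) g).mulVec w = 0) :
    (((modelOfCongruence hES).gal τ - (cycl p τ : ℤ_[p]) • 1) *
      frobPoly (modelOfCongruence hES) σ).mulVec w = 0 :=
  inertia_frobPoly_torIso hpN hO hA hσ hτ hw

/-! ### The eigen-lattice -/

section Lattice

variable {O : Type} [CommRing O] [IsDomain O] [IsDiscreteValuationRing O] [CharZero O]
  (ι : ℤ_[p] →+* O) (θ : FullHecke N →+* O)

theorem det_eigenAction_eq_cycl (D : HeckeGaloisModel N p) (hp : (p : O) ∈ maximalIdeal O)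
    (g : AbsGal) : LinearMap.det (D.eigenAction ι θ g) = ι (cycl p g : ℤ_[p]) := by
  refine sub_eq_zero.mp (HeckeGaloisModel.eq_zero_of_forall_pow_dvd hp fun n => ?_)
  have h1 := D.det_eigenAction_congr ι θ hp (s := g) (n := n) fun μ hμ => cycl_spec g hμ
  obtain ⟨y, hy⟩ := Ideal.mem_span_singleton.mp (sub_natCast_val_mem (cycl p g : ℤ_[p]) n)
  have h2 := congrArg ι hy
  rw [map_sub, map_natCast, map_mul, map_pow, map_natCast] at h2
  rw [← sub_sub_sub_cancel_right _ _
    (((PadicInt.toZModPow n (cycl p g : ℤ_[p])).val : O)), h2]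
  exact dvd_sub h1 ⟨_, rfl⟩

variable {θ}

/-- The value of Frobenius on the quotient, given the relation on the model. -/
theorem quot_quadratic_of_kills (D : HeckeGaloisModel N p) {A : ValuationSubring QBar}
    (hA : A.LiesOverPrime p) (hp : (p : O) ∈ maximalIdeal O) {σ : AbsGal}
    (hkill : ∀ τ ∈ A.inertiaSubgroupIn ℚ, ∀ w : Fin D.d → ℤ_[p],
      (∀ g ∈ A.inertiaSubgroupIn ℚ, (ordMat D g).mulVec w = 0) →
        ((D.gal τ - (cycl p τ : ℤ_[p]) • 1) * frobPoly D σ).mulVec w = 0)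
    (b : Module.Basis (Fin 2) O (eigenspace D.hecke θ))
    (hI : ∀ g ∈ A.inertiaSubgroupIn ℚ,
      D.eigenAction ι θ g (b 0) ∈ Submodule.span O {b 0} ∧
      ∀ v, D.eigenAction ι θ g v - v ∈ Submodule.span O {b 0})
    (hσ0 : D.eigenAction ι θ σ (b 0) ∈ Submodule.span O {b 0}) {z : O}
    (hz : D.eigenAction ι θ σ (b 1) - z • b 1 ∈ Submodule.span O {b 0}) :
    z ^ 2 - θ (HeckeDuality.heckeOp N 2 p Fact.out) * z + (p : O) = 0 := by
  classical
  set L := Submodule.span O {b 0}
  set Eg := D.eigenAction ι θ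
  have hquad : ∀ g ∈ A.inertiaSubgroupIn ℚ, ∀ v ∈ L,
      Eg g v = LinearMap.det (Eg g) • v := fun g hg v hv => by
    obtain ⟨h0, h1⟩ := hI g hg
    obtain ⟨α, hα⟩ := Submodule.mem_span_singleton.mp h0
    obtain ⟨β, hβ⟩ := Submodule.mem_span_singleton.mp (h1 (b 1))
    have h1' : Eg g (b 1) = β • b 0 + b 1 := by rw [hβ]; abel
    have hdet : LinearMap.det (Eg g) = α := by
      rw [← LinearMap.det_toMatrix b, Matrix.det_fin_two]
      simp [LinearMap.toMatrix_apply, ← hα, h1']
    obtain ⟨r, rfl⟩ := Submodule.mem_span_singleton.mp hv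
    rw [map_smul, ← hα, hdet, smul_smul, smul_smul, mul_comm]
  obtain ⟨τ, hτ, hne⟩ := exists_cycl_ne_one (p := p) hA
  set t := θ (HeckeDuality.heckeOp N 2 p Fact.out)
  set y := Eg σ (Eg σ (b 1)) - t • Eg σ (b 1) + (p : O) • b 1 with hy
  have hτy : Eg τ y = LinearMap.det (Eg τ) • y := by
    refine Subtype.ext ?_
    have h := NewformLocal.mulVec_eq_zero_of_fixed ι
      {m | ∃ g ∈ A.inertiaSubgroupIn ℚ, m = ordMat D g + 1}
      ((D.gal τ - (cycl p τ : ℤ_[p]) • 1) * frobPoly D σ)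
      (fun w hw => hkill τ hτ w fun g hg => by
        have := hw _ ⟨g, hg, rfl⟩
        rwa [Matrix.add_mulVec, Matrix.one_mulVec, add_eq_right] at this)
      (v := (b 1).1) (by
        rintro _ ⟨g, hg, rfl⟩
        have hzero : Eg g (Eg g (b 1) - b 1) -
            LinearMap.det (Eg g) • (Eg g (b 1) - b 1) = 0 :=
          sub_eq_zero.2 (hquad g hg _ ((hI g hg).2 (b 1)))
        have hz' := congrArg Subtype.val hzero
        simp only [AddSubgroupClass.coe_sub, SetLike.val_smul, ZeroMemClass.coe_zero, Eg,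
          D.coe_eigenAction, det_eigenAction_eq_cycl ι θ D hp] at hz'
        rw [← RingHom.mapMatrix_apply, map_add, map_one, Matrix.add_mulVec, Matrix.one_mulVec,
          add_eq_right, ← hz', ordMat]
        simp only [map_mul, map_sub, map_one, RingHom.mapMatrix_apply,
          Matrix.map_smul' ι _ _ (map_mul ι), Matrix.map_one ι (map_zero ι) (map_one ι),
          ← Matrix.mulVec_mulVec, Matrix.sub_mulVec, Matrix.smul_mulVec, Matrix.one_mulVec])
    rw [← RingHom.mapMatrix_apply, frobPoly] at h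
    simp only [map_mul, map_sub, map_add, RingHom.mapMatrix_apply,
      Matrix.map_smul' ι _ _ (map_mul ι), Matrix.map_one ι (map_zero ι) (map_one ι),
      D.matIn_map, map_natCast, ← Matrix.mulVec_mulVec, Matrix.sub_mulVec, Matrix.add_mulVec,
      Matrix.smul_mulVec, Matrix.one_mulVec, ← D.coe_eigenAction] at h
    rw [SetLike.val_smul, det_eigenAction_eq_cycl ι θ D hp]
    rw [← sub_eq_zero]
    have hT := (GaloisReps.mem_eigenspace D.hecke θ _).1 (Eg σ (b 1)).2
      (HeckeDuality.heckeOp N 2 p Fact.out)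
    rw [hT] at h
    simpa only [hy, Eg, AddSubgroupClass.coe_sub, Submodule.coe_add, SetLike.val_smul,
      D.coe_eigenAction] using h
  set P := z ^ 2 - t * z + (p : O) with hP
  have hσL : ∀ v ∈ L, Eg σ v ∈ L := fun v hv => by
    obtain ⟨r, rfl⟩ := Submodule.mem_span_singleton.mp hv
    rw [map_smul]
    exact L.smul_mem r hσ0
  have h2 : Eg σ (Eg σ (b 1)) - z ^ 2 • b 1 ∈ L := by
    have := L.add_mem (hσL _ hz) (L.smul_mem z hz)
    convert this using 1
    simp only [map_sub, map_smul, smul_sub, smul_smul, pow_two]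
    abel
  have hyP : y - P • b 1 ∈ L := by
    have := L.sub_mem h2 (L.smul_mem t hz)
    convert this using 1
    simp only [hy, hP, add_smul, sub_smul, smul_sub, smul_smul]
    abel
  set α := LinearMap.det (Eg τ) with hα
  have hfin : (α * P - P) • b 1 ∈ L := by
    have h1 : (α - 1) • y ∈ L := by
      have e : (α - 1) • y = Eg τ y - y :=
        (sub_smul α 1 y).trans (congrArg₂ (· - ·) hτy.symm (one_smul O y))
      rw [e]
      exact (hI τ hτ).2 y
    have := L.sub_mem h1 (L.smul_mem (α - 1) hyP)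
    rwa [smul_sub, sub_sub_cancel, smul_smul, sub_mul, one_mul] at this
  obtain ⟨r, hr⟩ := Submodule.mem_span_singleton.mp hfin
  have hc := congrArg (fun v => b.repr v 1) hr
  simp at hc
  have hα1 : α ≠ 1 := fun h => hne (padicHom_injective ι (by
    rw [← det_eigenAction_eq_cycl ι θ D hp, map_one]; exact h))
  have : (α - 1) * P = 0 := by rw [sub_mul, one_mul]; exact hc.symm ▸ rfl
  exact (mul_eq_zero.1 this).resolve_left (sub_ne_zero.2 hα1)

/-- **The value of Frobenius on the unramified quotient at good `p`.** -/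
theorem quot_frobenius_quadratic (hpN : ¬ p ∣ N) (hO : OrderProperty N)
    (hp : (p : O) ∈ maximalIdeal O) {A : ValuationSubring QBar} (hA : A.LiesOverPrime p)
    (b : Module.Basis (Fin 2) O (eigenspace (modelOfCongruence hES).hecke θ))
    (hI : ∀ g ∈ A.inertiaSubgroupIn ℚ,
      (modelOfCongruence hES).eigenAction ι θ g (b 0) ∈ Submodule.span O {b 0} ∧
      ∀ v, (modelOfCongruence hES).eigenAction ι θ g v - v ∈ Submodule.span O {b 0})
    {σ : AbsGal} (hσ : A.IsFrobeniusAt σ p)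
    (hσ0 : (modelOfCongruence hES).eigenAction ι θ σ (b 0) ∈ Submodule.span O {b 0}) {z : O}
    (hz : (modelOfCongruence hES).eigenAction ι θ σ (b 1) - z • b 1 ∈ Submodule.span O {b 0}) :
    z ^ 2 - θ (HeckeDuality.heckeOp N 2 p Fact.out) * z + (p : O) = 0 := by
  exact quot_quadratic_of_kills ι _ hA hp
    (fun _ hτ _ hw => inertia_frobPoly hES hpN hO hA hσ hτ hw) b hI hσ0 hz

/-- The same for an ordinary eigen-lattice: every line of ordinarity has such a value. -/
theorem exists_quot_frobenius_of_isOrdinaryAt (hpN : ¬ p ∣ N) (hO : OrderProperty N)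
    (hp : (p : O) ∈ maximalIdeal O)
    (hord : ((modelOfCongruence hES).rep ι θ hp).IsOrdinaryAt p)
    {A : ValuationSubring QBar} (hA : A.LiesOverPrime p) {σ : AbsGal}
    (hσ : A.IsFrobeniusAt σ p) :
    ∃ (b : Module.Basis (Fin 2) O (eigenspace (modelOfCongruence hES).hecke θ)) (z : O),
      (∀ g ∈ A.decompositionSubgroup ℚ,
        (modelOfCongruence hES).eigenAction ι θ g (b 0) ∈ Submodule.span O {b 0}) ∧
      (∀ g ∈ A.inertiaSubgroupIn ℚ, ∀ v,
        (modelOfCongruence hES).eigenAction ι θ g v - v ∈ Submodule.span O {b 0}) ∧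
      (modelOfCongruence hES).eigenAction ι θ σ (b 1) - z • b 1 ∈ Submodule.span O {b 0} ∧
      z ^ 2 - θ (HeckeDuality.heckeOp N 2 p Fact.out) * z + (p : O) = 0 := by
  obtain ⟨L, ⟨b₀, rfl⟩, hD, hI⟩ := hord A hA
  let b : Module.Basis (Fin 2) O (eigenspace (modelOfCongruence hES).hecke θ) := b₀
  have hI' : ∀ g ∈ A.inertiaSubgroupIn ℚ, g ∈ A.decompositionSubgroup ℚ := fun g hg => by
    obtain ⟨⟨g', hg'⟩, -, rfl⟩ := hg
    exact hg'
  have hD' := fun g hg => hD g hg (b 0) (Submodule.mem_span_singleton_self _)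
  have hz : (modelOfCongruence hES).eigenAction ι θ σ (b 1) -
      b.repr ((modelOfCongruence hES).eigenAction ι θ σ (b 1)) 1 • b 1 ∈
        Submodule.span O {b 0} := by
    refine Submodule.mem_span_singleton.mpr
      ⟨b.repr ((modelOfCongruence hES).eigenAction ι θ σ (b 1)) 0, ?_⟩
    refine eq_sub_of_add_eq ?_
    rw [← Fin.sum_univ_two (f := fun i => b.repr _ i • b i), b.sum_repr]
  exact ⟨b, _, hD', hI, hz, quot_frobenius_quadratic hES ι hpN hO hp hA b
    (fun g hg => ⟨hD' g (hI' g hg), hI g hg⟩) hσ (hD' σ hσ.mem_decompositionSubgroup) hz⟩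

end Lattice

end Fermat.Agent.Lifting.Eigen

end
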