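import Fermat.Agent.Lifting.Eigen.NotNew
import Fermat.Agent.Lifting.Eigen.ResidualSpecial
import Fermat.Agent.Lifting.Module.Parabolic
import Fermat.Agent.RT.Lift.Local

/-!
# The new kernel of the degeneracy maps on a localised module

A nonzero class of the localised module of `Γ₀(M q)` killed by both degeneracy maps gives a
congruent newform with `q` in its level. So this kernel is zero when the squared trace of the
residual representation at `q` differs from `(q + 1) ^ 2`.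
-/

set_option autoImplicit false
set_option linter.overlappingInstances false

noncomputable section

namespace Fermat.Agent.Lifting.Eigen

open IsLocalRing MvPolynomial CongruenceSubgroup ModularFormClass
open ModularCurve.Period
open Fermat.Agent.RT.GammaH
open Fermat.Agent.RT (IsCongruentForm)
open Fermat.Agent.RT.Lift (corDeg starDeg liftSub liftSub_top)
open Fermat.Agent.LevelRaising (RaiseData)
open Fermat.Agent.Lifting.Module (systemChar coe_systemChar systemChar_of_mem systemVal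
  systemVal_eq opC_eq_of_smul_eq mem_parabolicHoms_of_localizer)
open Fermat.Agent.Lifting.Degeneracy

variable {O : Type} [CommRing O] [IsDomain O] [IsDiscreteValuationRing O] [Algebra O ℂ]
  {M q : ℕ} [NeZero M] [NeZero (M * q)] {S : Finset ℕ} {abar : ℕ → ResidueField O}

omit [IsDomain O] [IsDiscreteValuationRing O] [NeZero M] [NeZero (M * q)] in
/-- A coefficient map commutes with a degeneracy map. -/
theorem toHomC_deg {K : Subgroup (ZMod M)ˣ} {ι : Type*} [Fintype ι] {rep : ι → GLR}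
    (h : Admissible (gammaH (M * q) (liftSub q K)) (gammaH M K) rep)
    (x : HomMod O S (liftSub q K) O) :
    opOf h ℂ (toHomC (S := S) x) = (Algebra.linearMap O ℂ).toAddMonoidHom.comp
      (opOf h O (toHomMod.symm x)) :=
  opOf_comp_coeff (R := O) (S := ℂ) h (Algebra.linearMap O ℂ).toAddMonoidHom _

/-- **A kernel class gives a congruent form new at `q`.** -/
theorem exists_newform_of_kernel (hinj : Function.Injective (algebraMap O ℂ))
    (h : ALLevel (M * q) q M) (hsq : Squarefree (M * q))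
    (hS : ∀ v : ℕ, v.Prime → v ∣ M * q → v ∈ S)
    (hEis : ∃ ℓ : ℕ, ℓ.Prime ∧ ℓ ∉ S ∧ abar ℓ ≠ 1 + (ℓ : ResidueField O))
    {e : OpRing O (M * q) S}
    (he : IsLocalizer (resIdeal S abar (M * q))
      (HomMod O S (liftSub q (⊤ : Subgroup (ZMod M)ˣ)) O) e)
    {x : HomMod O S (liftSub q (⊤ : Subgroup (ZMod M)ˣ)) O}
    (hx : x ∈ localPart O e (HomMod O S (liftSub q (⊤ : Subgroup (ZMod M)ˣ)) O))
    (hcor : corDeg h.raise O ⊤ (toHomMod.symm x) = 0)
    (hstar : starDeg h.raise O ⊤ (toHomMod.symm x) = 0) (hne : x ≠ 0) :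
    ∃ (L' : ℕ) (g : CuspForm (Gamma0 L') 2), L' ∣ M * q ∧ q ∣ L' ∧ g.IsNewform ∧
      IsCongruentForm S abar g := by
  classical
  have : Fact q.Prime := ⟨h.prime⟩
  have htop : ∀ u : (ZMod (M * q))ˣ, u ∈ liftSub q (⊤ : Subgroup (ZMod M)ˣ) :=
    fun u => Subgroup.mem_top _
  have hK : TwistSub M (⊤ : Subgroup (ZMod M)ˣ) 0 := twistSub_top M 0
  have hodd : Odd (Nat.card ((ZMod M)ˣ ⧸ (⊤ : Subgroup (ZMod M)ˣ))) := by
    rw [← Subgroup.index_eq_card, Subgroup.index_top]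
    exact odd_one
  have hneg : (-1 : (ZMod (M * q))ˣ) ∈ (liftSub q (⊤ : Subgroup (ZMod M)ˣ)) := htop _
  -- the kernel inside the parabolic classes
  let W : Submodule ℂ (parabolicHoms ℂ (gammaH (M * q) (liftSub q (⊤ : Subgroup (ZMod M)ˣ))) ℂ) :=
    { carrier := {v | opC O S (liftSub q (⊤ : Subgroup (ZMod M)ˣ)) e v.1 = v.1 ∧ corDeg h.raise ℂ ⊤ v.1 = 0 ∧
        starDeg h.raise ℂ ⊤ v.1 = 0}
      zero_mem' := ⟨map_zero _, map_zero _, map_zero _⟩
      add_mem' := fun {a b} ha hb => ⟨by rw [Submodule.coe_add, map_add, ha.1, hb.1],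
        by rw [Submodule.coe_add, map_add, ha.2.1, hb.2.1, add_zero],
        by rw [Submodule.coe_add, map_add, ha.2.2, hb.2.2, add_zero]⟩
      smul_mem' := fun c a ha => ⟨by rw [Submodule.coe_smul, map_smul, ha.1],
        by rw [Submodule.coe_smul, map_smul, ha.2.1, smul_zero],
        by rw [Submodule.coe_smul, map_smul, ha.2.2, smul_zero]⟩ }
  let ρ : OpRing O (M * q) S →+* Module.End ℂ (parabolicHoms ℂ (gammaH (M * q) (liftSub q (⊤ : Subgroup (ZMod M)ˣ))) ℂ) :=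
    { toFun := opPar hneg
      map_one' := LinearMap.ext fun v => Subtype.ext (by rw [coe_opPar, map_one]; rfl)
      map_mul' := fun a b => LinearMap.ext fun v => Subtype.ext (by
        rw [coe_opPar, map_mul]; rfl)
      map_zero' := LinearMap.ext fun v => Subtype.ext (by rw [coe_opPar, map_zero]; rfl)
      map_add' := fun a b => LinearMap.ext fun v => Subtype.ext (by
        rw [coe_opPar, map_add]; rfl) }
  have hinv : ∀ (a : OpRing O (M * q) S), ∀ v ∈ W, ρ a v ∈ W := by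
    intro a v hv
    refine ⟨?_, ?_⟩
    · show opC O S (liftSub q (⊤ : Subgroup (ZMod M)ˣ)) e (opC O S (liftSub q (⊤ : Subgroup (ZMod M)ˣ)) a v.1) = opC O S (liftSub q (⊤ : Subgroup (ZMod M)ˣ)) a v.1
      rw [← Module.End.mul_apply, ← map_mul, mul_comm e, map_mul, Module.End.mul_apply, hv.1]
    · show corDeg h.raise ℂ ⊤ (opC O S (liftSub q (⊤ : Subgroup (ZMod M)ˣ)) a v.1) = 0 ∧ starDeg h.raise ℂ ⊤ (opC O S (liftSub q (⊤ : Subgroup (ZMod M)ˣ)) a v.1) = 0
      generalize v.1 = w, hv.2 = hw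
      induction a using MvPolynomial.induction_on generalizing w with
      | C c => simp [opC_C, hw.1, hw.2]
      | add a b ha hb =>
        simp [(ha w hw).1, (ha w hw).2, (hb w hw).1, (hb w hw).2]
      | mul_X a i ih =>
        rw [map_mul, Module.End.mul_apply]
        refine ih _ ?_
        rcases i with u | ℓ
        · rw [opC_inl, RT.Lift.corDeg_diamond, RT.Lift.starDeg_diamond, hw.1, hw.2, map_zero]
          exact ⟨rfl, rfl⟩
        · have : Fact ℓ.1.Prime := ⟨ℓ.2.1⟩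
          have hℓq : ℓ.1 ≠ q := fun hq => ℓ.2.2 (hq ▸ hS q h.prime (dvd_mul_left q M))
          rw [opC_inr, RT.Lift.corDeg_hecke _ _ hℓq, RT.Lift.starDeg_hecke _ _ hℓq, hw.1, hw.2,
            map_zero]
          exact ⟨rfl, rfl⟩
  have hxe : opC O S (liftSub q (⊤ : Subgroup (ZMod M)ˣ)) e (toHomC x) = toHomC x := by
    rw [← toHomC_smul, (show e • x = x from hx)]
  have hpar : toHomC x ∈ parabolicHoms ℂ (gammaH (M * q) (liftSub q (⊤ : Subgroup (ZMod M)ˣ))) ℂ :=
    mem_parabolicHoms_of_localizer hsq hneg hS hEis he hxe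
  have hxW : (⟨toHomC x, hpar⟩ :
      parabolicHoms ℂ (gammaH (M * q) (liftSub q (⊤ : Subgroup (ZMod M)ˣ))) ℂ) ∈ W := by
    refine ⟨hxe, ?_, ?_⟩
    · exact (toHomC_deg _ x).trans
        ((congrArg _ hcor).trans (AddMonoidHom.comp_zero _))
    · exact (toHomC_deg _ x).trans
        ((congrArg _ hstar).trans (AddMonoidHom.comp_zero _))
  have hW : W ≠ ⊥ := fun hbot => by
    rw [hbot, Submodule.mem_bot] at hxW
    exact hne (toHomC_injective hinj ((congrArg Subtype.val hxW).trans (map_zero _).symm))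
  have := finiteDimensional_parabolicHoms (M := M * q) hneg
  obtain ⟨θ', v, hv, hv0, heig⟩ := HeckeDuality.exists_eigenCharacter ρ W hW hinv
  have hφ0 : v.1 ≠ 0 := fun h0 => hv0 (Subtype.ext h0)
  have heig' : ∀ a, opC O S (liftSub q (⊤ : Subgroup (ZMod M)ˣ)) a v.1 = θ' a • v.1 := fun a => congrArg Subtype.val (heig a)
  have hC : ∀ c : O, θ' (C c) = algebraMap O ℂ c := fun c =>
    smul_left_injective ℂ hφ0 ((heig' (C c)).symm.trans (by
      rw [opC_C, Module.algebraMap_end_apply]))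
  let θ : OpRing O (M * q) S →ₐ[O] ℂ := { θ' with commutes' := hC }
  have hθ : ∀ a, localAct O e (HomMod O S (liftSub q (⊤ : Subgroup (ZMod M)ˣ)) O) a = 0 → θ a = 0 := fun a ha => by
    refine smul_left_injective ℂ hφ0 ((heig' a).symm.trans ?_)
    show opC O S (liftSub q (⊤ : Subgroup (ZMod M)ˣ)) a v.1 = (0 : ℂ) • v.1
    conv_lhs => rw [← hv.1]
    rw [← Module.End.mul_apply, ← map_mul, zero_smul,
      opC_eq_of_smul_eq (a := a * e) (b := 0) (fun y => ?_) v.1, map_zero, LinearMap.zero_apply]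
    rw [mul_smul, zero_smul]
    exact congrArg Subtype.val (LinearMap.congr_fun ha ⟨e • y, he.smul_self_mem y⟩)
  set χ := systemChar S θ hφ0 heig'
  have hχ : ∀ u ∈ (liftSub q (⊤ : Subgroup (ZMod M)ˣ)), χ u = 1 := fun u hu => systemChar_of_mem S θ hφ0 heig' hu
  have hdia : ∀ u, diamond (M * q) (liftSub q (⊤ : Subgroup (ZMod M)ˣ)) ℂ u v.1 = (χ u : ℂ) • v.1 := fun u => by
    rw [coe_systemChar, ← opC_inl (O := O) (S := S)]
    exact heig' _
  have hT : ∀ (ℓ : ℕ) [Fact ℓ.Prime], ℓ ∉ S →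
      hecke (M * q) (liftSub q (⊤ : Subgroup (ZMod M)ˣ)) ℓ ℂ v.1 = systemVal S θ ℓ • v.1 := fun ℓ hℓ hℓS => by
    rw [systemVal_eq S θ ⟨ℓ, hℓ.out, hℓS⟩, ← opC_inr (O := O) (S := S) ⟨ℓ, hℓ.out, hℓS⟩]
    exact heig' _
  obtain ⟨L', g, hg, hdvd, hcoef, hsq', -, -⟩ := exists_newform_of_eigen hsq hneg
    (by rwa [card_quotient_liftSub]) S hS χ hχ (systemVal S θ) v.2 hφ0 hdia hT
  have hL'0 : L' ≠ 0 := fun h0 =>
    pow_ne_zero 2 (NeZero.ne (M * q)) (Nat.eq_zero_of_zero_dvd (h0 ▸ hdvd))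
  have : NeZero L' := ⟨hL'0⟩
  have hL' : L' ∣ M * q := by
    rw [Nat.dvd_iff_prime_pow_dvd_dvd]
    intro r k hr hrk
    match k with
    | 0 => simp
    | 1 =>
      rw [pow_one] at hrk ⊢
      exact hr.dvd_of_dvd_pow (hrk.trans hdvd)
    | k + 2 =>
      have hrL : r ∣ M * q :=
        hr.dvd_of_dvd_pow (((dvd_pow_self r (by omega)).trans hrk).trans hdvd)
      obtain ⟨u, -, hu⟩ := (hsq' r hr hrL).1 ((pow_dvd_pow r (by omega)).trans hrk)
      exact absurd (hχ u (htop u)) hu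
  have hqL' : q ∣ L' := by
    by_contra hq
    exact hφ0 (eq_zero_of_not_new h hsq hK hodd hS hχ v.2 hdia hT hg.1 hq hcoef hv.2.1 hv.2.2)
  refine ⟨L', g, hL', hqL', hg, hg.1, ?_⟩
  obtain ⟨red, hred⟩ := exists_red O hinj
  let incl : integralClosure ℤ ℂ →+* integralClosure O ℂ :=
    (integralClosure ℤ ℂ).val.toRingHom.codRestrict (integralClosure O ℂ)
      fun z => z.2.tower_top
  refine ⟨red.comp incl, fun ℓ hℓ hℓS a ha => ?_⟩
  have hℓL : ¬ ℓ ∣ M * q := fun hd => hℓS (hS ℓ hℓ hd)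
  have hval : ((incl a : integralClosure O ℂ) : ℂ) = θ (X (Sum.inr ⟨ℓ, hℓ, hℓS⟩)) := by
    show (a : ℂ) = _
    rw [ha, hcoef ℓ hℓ hℓS (ZMod.unitOfCoprime ℓ ((hℓ.coprime_iff_not_dvd).2 hℓL)) rfl,
      hχ _ (htop _), ← systemVal_eq S θ ⟨ℓ, hℓ, hℓS⟩, Units.val_one, one_pow, one_mul]
  show red (incl a) = _
  rw [red_character he θ hθ hred _ hval, opRes_inr]

variable {p : ℕ} [Fact p.Prime] [CharP (ResidueField O) p]

open NewformLocal (UnipotentAt ToricSquareAt) in
/-- **No new kernel** where the squared trace at `q` is not `(q + 1) ^ 2`. -/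
theorem eq_zero_of_degStarH_eq_zero (hinj : Function.Injective (algebraMap O ℂ))
    (h : ALLevel (M * q) q M) (hsq : Squarefree (M * q))
    (hS : ∀ v : ℕ, v.Prime → v ∣ M * q → v ∈ S)
    (hEis : ∃ ℓ : ℕ, ℓ.Prime ∧ ℓ ∉ S ∧ abar ℓ ≠ 1 + (ℓ : ResidueField O))
    (hqp : q ≠ p) (ρbar : ResidualGaloisRep (ResidueField O))
    (hbar : ∀ ℓ : ℕ, ℓ.Prime → ℓ ∉ S → ∀ A : ValuationSubring (AlgebraicClosure ℚ),
      A.LiesOverPrime ℓ → ∀ s : AlgebraicClosure ℚ ≃ₐ[ℚ] AlgebraicClosure ℚ,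
        A.IsFrobeniusAt s ℓ → LinearMap.charpoly (ρbar.ρ s) =
          Polynomial.X ^ 2 - Polynomial.C (abar ℓ) * Polynomial.X +
            Polynomial.C (ℓ : ResidueField O))
    (hD : ∀ (L : ℕ) [NeZero L], L ∣ M * q → q ∣ L →
      ∃ D : GaloisReps.HeckeGaloisModel L p, UnipotentAt D q ∧ ToricSquareAt D q)
    {A : ValuationSubring (AlgebraicClosure ℚ)} (hA : A.LiesOverPrime q)
    {σ : AlgebraicClosure ℚ ≃ₐ[ℚ] AlgebraicClosure ℚ} (hσ : A.IsFrobeniusAt σ q)
    (htr : LinearMap.trace (ResidueField O) _ (ρbar.ρ σ) ^ 2 ≠ ((q : ResidueField O) + 1) ^ 2)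
    {e : OpRing O (M * q) S}
    (he : IsLocalizer (resIdeal S abar (M * q))
      (HomMod O S (liftSub q (⊤ : Subgroup (ZMod M)ˣ)) O) e) {k : ℕ}
    {x : HomMod O S (liftSub q (⊤ : Subgroup (ZMod M)ˣ)) O}
    (hx : x ∈ localPart O e (HomMod O S (liftSub q (⊤ : Subgroup (ZMod M)ˣ)) O))
    (h0 : RT.Lift.degStarH O S h.raise ⊤ k x = 0) : x = 0 := by
  by_contra hne
  have h1 : corDeg h.raise O ⊤ (toHomMod.symm x) = 0 := congrArg Prod.fst h0
  have h2 : starDeg h.raise O ⊤ (toHomMod.symm x) = 0 := by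
    rw [← diamond_top O (RT.Lift.qUnit h.raise ^ k) (starDeg h.raise O ⊤ (toHomMod.symm x))]
    exact congrArg Prod.snd h0
  obtain ⟨L', g, hL', hqL', hg, hc⟩ :=
    exists_newform_of_kernel hinj h hsq hS hEis he hx h1 h2 hne
  have : NeZero L' := ⟨fun h' => NeZero.ne (M * q) (Nat.eq_zero_of_zero_dvd (h' ▸ hL'))⟩
  obtain ⟨D, hU, hT⟩ := hD L' hL' hqL'
  exact htr (trace_sq_of_congruent ρbar hbar hg hc h.prime hqp hqL' D hU hT hA hσ)

end Fermat.Agent.Lifting.Eigen
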