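import Fermat.Agent.DeligneSerre.PeriodsEigvec
import Mathlib.LinearAlgebra.LinearIndependent.BaseChange
import Mathlib.LinearAlgebra.FreeModule.PID
import Mathlib.Analysis.Complex.Polynomial.Basic

/-!
# A complex eigenvector for a given character of an algebra of matrices

A commutative algebra of matrices over a principal ideal domain `O ⊆ ℂ` has, for every
`O`-algebra map to `ℂ`, a common complex eigenvector with these eigenvalues.
-/

set_option autoImplicit false

noncomputable section

namespace Fermat.Agent.Lifting.Eigen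

open Matrix

/-- **A common eigenvector with prescribed eigenvalues.** -/
theorem exists_eigvec_algHom {O A : Type} [CommRing O] [IsDomain O] [IsPrincipalIdealRing O]
    [Algebra O ℂ] (hinj : Function.Injective (algebraMap O ℂ)) [CommRing A] [Algebra O A]
    [Module.Finite O A] {n : Type*} [Fintype n] [DecidableEq n] (r : A →ₐ[O] Matrix n n O)
    (hr : Function.Injective r) (y : A →ₐ[O] ℂ) :
    ∃ x : n → ℂ, x ≠ 0 ∧ ∀ a, (r a).map (algebraMap O ℂ) *ᵥ x = y a • x := by
  classical
  have : FaithfulSMul O ℂ := (faithfulSMul_iff_algebraMap_injective O ℂ).2 hinj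
  have : Module.IsTorsionFree O A :=
    Function.Injective.moduleIsTorsionFree r hr (fun c a => map_smul r c a)
  have : Module.Free O A := Module.free_of_finite_type_torsion_free'
  let b := Module.Free.chooseBasis O A
  let ρ : A →+* Matrix n n ℂ := (algebraMap O ℂ).mapMatrix.comp r.toRingHom
  have hρs : ∀ (c : O) (a : A), ρ (c • a) = algebraMap O ℂ c • ρ a := fun c a => by
    ext i j
    show algebraMap O ℂ (r (c • a) i j) = _
    rw [map_smul, Matrix.smul_apply, smul_eq_mul, map_mul]
    rfl
  let Φ := Fintype.linearCombination ℂ (fun i => ρ (b i))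
  let Y := Fintype.linearCombination ℂ (fun i => y (b i))
  have hli : LinearIndependent ℂ (fun i => ρ (b i)) := by
    let flat : Matrix n n O →ₗ[O] (n × n → O) :=
      { toFun := fun m ij => m ij.1 ij.2
        map_add' := fun _ _ => rfl
        map_smul' := fun _ _ => rfl }
    let flatC : Matrix n n ℂ →ₗ[ℂ] (n × n → ℂ) :=
      { toFun := fun m ij => m ij.1 ij.2
        map_add' := fun _ _ => rfl
        map_smul' := fun _ _ => rfl }
    have h := (linearIndependent_algebraMap_comp_iff (S := ℂ)).2
      (b.linearIndependent.map' (flat.comp r.toLinearMap) (LinearMap.ker_eq_bot.2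
        fun u v huv => hr (Matrix.ext fun i j => congrFun huv (i, j))))
    exact LinearIndependent.of_comp flatC h
  have hΦinj : Function.Injective Φ := hli.fintypeLinearCombination_injective
  -- the coordinates of an element
  have hco : ∀ a : A, Φ (fun k => algebraMap O ℂ (b.repr a k)) = ρ a ∧
      Y (fun k => algebraMap O ℂ (b.repr a k)) = y a := fun a => by
    constructor
    · conv_rhs => rw [← b.sum_repr a, map_sum]
      simp only [Φ, Fintype.linearCombination_apply, hρs]
    · conv_rhs => rw [← b.sum_repr a, map_sum]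
      simp only [Y, Fintype.linearCombination_apply, Algebra.smul_def, map_mul, AlgHom.commutes,
        Algebra.algebraMap_self, RingHom.id_apply]
  let W := (LinearMap.ker Y).map Φ
  have hgen : ∀ i, ρ (b i) - y (b i) • 1 ∈ W := fun i =>
    ⟨(fun k => algebraMap O ℂ (b.repr (b i) k)) -
      y (b i) • (fun k => algebraMap O ℂ (b.repr 1 k)), by
      simp only [SetLike.mem_coe, LinearMap.mem_ker, map_sub, map_smul, (hco _).2, map_one,
        smul_eq_mul, mul_one, sub_self], by
      simp only [map_sub, map_smul, (hco _).1, map_one]⟩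
  have hmul : ∀ i, ∀ w ∈ W, ρ (b i) * w ∈ W := by
    rintro i _ ⟨c, hc, rfl⟩
    refine ⟨∑ j, c j • fun k => algebraMap O ℂ (b.repr (b i * b j) k), ?_, ?_⟩
    · simp only [SetLike.mem_coe, LinearMap.mem_ker] at hc ⊢
      simp only [map_sum, map_smul, (hco _).2, map_mul, smul_eq_mul, mul_left_comm (c _),
        ← Finset.mul_sum]
      simp only [Y, Fintype.linearCombination_apply, smul_eq_mul] at hc
      rw [hc, mul_zero]
    · simp only [map_sum, map_smul, (hco _).1, map_mul]
      simp only [Φ, Fintype.linearCombination_apply, Finset.mul_sum, mul_smul_comm]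
  rcases DeligneSerre.exists_eigvec_or_one_mem (fun i => ρ (b i))
      (fun i j => (Commute.all (b i) (b j)).map ρ) (fun i => y (b i)) W hgen hmul with
    ⟨x, hx0, hx⟩ | ⟨c, hc, hc1⟩
  · refine ⟨x, hx0, fun a => ?_⟩
    show ρ a *ᵥ x = y a • x
    rw [← (hco a).1, ← (hco a).2]
    simp only [Φ, Y, Fintype.linearCombination_apply, Matrix.sum_mulVec, Matrix.smul_mulVec, hx,
      smul_smul, Finset.sum_smul, smul_eq_mul]
  · have e : c = fun k => algebraMap O ℂ (b.repr 1 k) :=
      hΦinj (by rw [(hco 1).1, map_one]; exact hc1)
    rw [SetLike.mem_coe, LinearMap.mem_ker, e, (hco 1).2, map_one] at hc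
    exact absurd hc one_ne_zero

end Fermat.Agent.Lifting.Eigen
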