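import Fermat.Agent.Lifting.Eigen.Supported
import Fermat.Agent.RT.Lift.Bound

/-!
# Eigenforms with the same Hecke eigenvalues at almost all primes

Two normalised eigenforms agreeing outside a finite set of primes agree at every prime dividing
neither level. At a prime `q` exactly dividing the level of one and prime to that of the other the
coefficient `u` of the first is a root of `X ^ 2 - a_q X + q`; in particular `u ^ 2 ≠ 1`.
-/

set_option autoImplicit false

noncomputable section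

open CongruenceSubgroup ModularFormClass
open scoped ModularForm

namespace Fermat.Agent.Lifting.Eigen

open Fermat.Agent.Newforms (hOp levelRaise levelIncl)

/-- Equality of the coefficients at almost all primes. -/
def SameSystem {M M' : ℕ} (f : CuspForm (Gamma0 M) 2) (g : CuspForm (Gamma0 M') 2)
    (S : Finset ℕ) : Prop :=
  ∀ ℓ : ℕ, ℓ.Prime → ℓ ∉ S → qCoeff f ℓ = qCoeff g ℓ

theorem SameSystem.symm {M M' : ℕ} {f : CuspForm (Gamma0 M) 2} {g : CuspForm (Gamma0 M') 2}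
    {S : Finset ℕ} (h : SameSystem f g S) : SameSystem g f S :=
  fun ℓ hℓ hS => (h ℓ hℓ hS).symm

variable {M M' : ℕ} [NeZero M] [NeZero M'] {f : CuspForm (Gamma0 M) 2}
  {g : CuspForm (Gamma0 M') 2} {S : Finset ℕ}

/-- The coefficients prime to both levels agree. -/
theorem SameSystem.qCoeff_eq (hfg : SameSystem f g S) (hf : f.IsNormalizedEigenform)
    (hg : g.IsNormalizedEigenform) {N n : ℕ} [NeZero N] (hM : M ∣ N) (hM' : M' ∣ N)
    (hn : n.Coprime N) : qCoeff f n = qCoeff g n := by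
  classical
  set D := ∏ p ∈ S.filter Nat.Prime, p with hD
  have hD0 : D ≠ 0 := Finset.prod_ne_zero_iff.2 fun p hp => (Finset.mem_filter.1 hp).2.ne_zero
  have : NeZero (N * D) := ⟨mul_ne_zero (NeZero.ne N) hD0⟩
  obtain ⟨F, hF, hFf⟩ := Newforms.exists_eigenform_of_dvd (hM.trans (dvd_mul_right N D)) hf
  obtain ⟨G, hG, hGg⟩ := Newforms.exists_eigenform_of_dvd (hM'.trans (dvd_mul_right N D)) hg
  have hS : ∀ ℓ, ℓ.Prime → ¬ ℓ ∣ N * D → ℓ ∉ S := fun ℓ hℓ h hℓS =>
    h ((Finset.dvd_prod_of_mem (fun p => p) (Finset.mem_filter.2 ⟨hℓS, hℓ⟩)).trans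
      (dvd_mul_left D N))
  have hco : ∀ m : ℕ, m.Coprime (N * D) → qCoeff f m = qCoeff g m := fun m hm => by
    rw [← RT.GammaH.qCoeff_eq_of_coprime hF hf (hM.trans (dvd_mul_right N D))
      (fun ℓ hℓ h => (hFf ℓ hℓ (Or.inr h)).symm) hm,
      ← RT.GammaH.qCoeff_eq_of_coprime hG hg (hM'.trans (dvd_mul_right N D))
      (fun ℓ hℓ h => (hGg ℓ hℓ (Or.inr h)).symm) hm,
      RT.GammaH.qCoeff_eq_of_coprime hF hG dvd_rfl (fun ℓ hℓ h => by
        rw [hFf ℓ hℓ (Or.inr h), hGg ℓ hℓ (Or.inr h), hfg ℓ hℓ (hS ℓ hℓ h)]) hm]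
  have key := qCoeff_eq_zero_of_coprime_mul hD0
    (levelIncl hM f + (-1 : ℂ) • levelIncl hM' g) (fun m hm => by
      rw [Newforms.qCoeff_add, Newforms.qCoeff_smul, Newforms.qCoeff_levelIncl,
        Newforms.qCoeff_levelIncl, hco m hm]
      ring) hn
  rw [Newforms.qCoeff_add, Newforms.qCoeff_smul, Newforms.qCoeff_levelIncl,
    Newforms.qCoeff_levelIncl] at key
  linear_combination key

/-- The coefficients at a prime dividing neither level agree. -/
theorem SameSystem.qCoeff_prime (hfg : SameSystem f g S) (hf : f.IsNormalizedEigenform)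
    (hg : g.IsNormalizedEigenform) {q : ℕ} (hq : q.Prime) (hqM : ¬ q ∣ M) (hqM' : ¬ q ∣ M') :
    qCoeff f q = qCoeff g q := by
  have : NeZero (M * M') := ⟨mul_ne_zero (NeZero.ne M) (NeZero.ne M')⟩
  exact hfg.qCoeff_eq hf hg (dvd_mul_right M M') (dvd_mul_left M' M)
    (hq.coprime_iff_not_dvd.2 (hq.prime.not_dvd_mul hqM hqM'))

/-- Both forms, depleted away from `q`, differ by a raised form of level prime to `q`. -/
theorem SameSystem.exists_lower (hfg : SameSystem f g S) (hf : f.IsNormalizedEigenform)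
    (hg : g.IsNormalizedEigenform) {q R : ℕ} [NeZero R] [NeZero (q * R * R)] (hq : q.Prime)
    (hqR : ¬ q ∣ R)
    (hM : M ∣ q * R) (hM' : M' ∣ q * R) :
    ∃ h : CuspForm (Gamma0 (R * R)) 2, ∀ n, qCoeff h n =
      if n.Coprime R then qCoeff f (n * q) - qCoeff g (n * q) else 0 := by
  have : NeZero (q * R) := ⟨mul_ne_zero hq.ne_zero (NeZero.ne R)⟩
  obtain ⟨X, hX⟩ := exists_deplete_form (r := R) (dvd_mul_left R q)
    (levelIncl hM f + (-1 : ℂ) • levelIncl hM' g)
  have : NeZero (R * R) := ⟨mul_ne_zero (NeZero.ne R) (NeZero.ne R)⟩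
  have : NeZero (q * (R * R)) := ⟨mul_ne_zero hq.ne_zero (NeZero.ne _)⟩
  obtain ⟨h, hh, -⟩ := exists_form_of_supported (R := R * R) hq
    (levelIncl (mul_assoc q R R).dvd X) fun n hn => by
      rw [Newforms.qCoeff_levelIncl, hX]
      split_ifs with hc
      · rw [Newforms.qCoeff_add, Newforms.qCoeff_smul, Newforms.qCoeff_levelIncl,
          Newforms.qCoeff_levelIncl,
          hfg.qCoeff_eq hf hg hM hM' (((hq.coprime_iff_not_dvd.2 hn).symm).mul_right hc)]
        ring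
      · rfl
  refine ⟨h, fun n => ?_⟩
  rw [hh, Newforms.qCoeff_levelIncl, hX]
  have hcop : (n * q).Coprime R ↔ n.Coprime R := ⟨fun hc => hc.coprime_dvd_left (dvd_mul_right n q),
    fun hc => hc.mul_left (hq.coprime_iff_not_dvd.2 hqR)⟩
  simp only [hcop, Newforms.qCoeff_add, Newforms.qCoeff_smul, Newforms.qCoeff_levelIncl,
    neg_one_mul, ← sub_eq_add_neg]

/-- At a prime exactly dividing one level only, the coefficient is a root of the Euler factor. -/
theorem SameSystem.qCoeff_quadratic (hfg : SameSystem f g S) (hf : f.IsNormalizedEigenform)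
    (hg : g.IsNormalizedEigenform) {q : ℕ} (hq : q.Prime) (hqM : q ∣ M) (hq2 : ¬ q ^ 2 ∣ M)
    (hqM' : ¬ q ∣ M') :
    qCoeff f q ^ 2 - qCoeff g q * qCoeff f q + q = 0 := by
  obtain ⟨M₀, rfl⟩ := hqM
  have hqM₀ : ¬ q ∣ M₀ := fun h => hq2 (by rw [pow_two]; exact Nat.mul_dvd_mul_left q h)
  have hM₀ : M₀ ≠ 0 := fun h => NeZero.ne (q * M₀) (by rw [h, mul_zero])
  set R := M₀ * M' with hR
  have hqR : ¬ q ∣ R := hq.prime.not_dvd_mul hqM₀ hqM'
  have : NeZero R := ⟨mul_ne_zero hM₀ (NeZero.ne M')⟩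
  have : NeZero (q * R * R) :=
    ⟨mul_ne_zero (mul_ne_zero hq.ne_zero (NeZero.ne R)) (NeZero.ne R)⟩
  obtain ⟨h, hh⟩ := hfg.exists_lower hf hg hq hqR
    (Nat.mul_dvd_mul_left q (dvd_mul_right M₀ M'))
    ((dvd_mul_left M' M₀).trans (dvd_mul_left R q))
  have : NeZero (R * R) := ⟨mul_ne_zero (NeZero.ne R) (NeZero.ne R)⟩
  obtain ⟨G, hG⟩ := exists_deplete_form (r := R) dvd_rfl (levelIncl (dvd_mul_left M' M₀) g)
  set c := qCoeff f q - qCoeff g q with hc
  -- `h = c • G`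
  have hN : ∀ m : ℕ, ¬ q ∣ m → m.Coprime R → qCoeff f m = qCoeff g m := fun m hm hmR => by
    have : NeZero (q * R) := ⟨mul_ne_zero hq.ne_zero (NeZero.ne R)⟩
    exact hfg.qCoeff_eq hf hg (Nat.mul_dvd_mul_left q (dvd_mul_right M₀ M'))
      ((dvd_mul_left M' M₀).trans (dvd_mul_left R q))
      (((hq.coprime_iff_not_dvd.2 hm).symm).mul_right hmR)
  have hzero : h + (-c) • G = 0 := eq_zero_of_supported_prime hq (hq.prime.not_dvd_mul hqR hqR) _
    fun n hn => by
      rw [Newforms.qCoeff_add, Newforms.qCoeff_smul, hh, hG, Newforms.qCoeff_levelIncl]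
      split_ifs with hc'
      · have hnq : n.Coprime q := (hq.coprime_iff_not_dvd.2 hn).symm
        rw [hf.qCoeff_mul_of_coprime n q hnq, hg.qCoeff_mul_of_coprime n q hnq, hN n hn hc', hc]
        ring
      · ring
  have h1 : qCoeff ⇑(h + (-c) • G) q = 0 := by
    rw [hzero]; exact (Newforms.coeffLin (N := R * R) (k := 2) q).map_zero
  rw [Newforms.qCoeff_add, Newforms.qCoeff_smul, hh, hG, Newforms.qCoeff_levelIncl,
    if_pos (hq.coprime_iff_not_dvd.2 hqR), if_pos (hq.coprime_iff_not_dvd.2 hqR)] at h1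
  have ef := hf.qCoeff_prime_pow_of_dvd q 0 hq (dvd_mul_right q M₀)
  have eg := hg.qCoeff_prime_pow_of_not_dvd q 0 hq hqM'
  simp only [zero_add, pow_zero, pow_one, hg.qCoeff_one, show (1 : ℕ) + 1 = 2 from rfl, pow_two]
    at ef eg
  rw [ef, eg, hc] at h1
  linear_combination h1

/-- A form special at `q` shares its system with no form of level prime to `q`. -/
theorem SameSystem.qCoeff_sq_ne_one (hfg : SameSystem f g S) (hf : f.IsNormalizedEigenform)
    (hg : g.IsNormalizedEigenform) {q : ℕ} (hq : q.Prime) (hqM : q ∣ M) (hq2 : ¬ q ^ 2 ∣ M)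
    (hqM' : ¬ q ∣ M') : qCoeff f q ^ 2 ≠ 1 := fun h1 => by
  have h := hfg.qCoeff_quadratic hf hg hq hqM hq2 hqM'
  refine RT.Lift.qCoeff_sq_ne hq hqM' hg ?_
  linear_combination (qCoeff g q * qCoeff f q + q + 1 - qCoeff g q ^ 2) * h1 -
    (qCoeff g q * qCoeff f q + q + 1) * h

/-- Two forms special at `q` with the same system have the same coefficient at `q`. -/
theorem SameSystem.qCoeff_special (hfg : SameSystem f g S) (hf : f.IsNormalizedEigenform)
    (hg : g.IsNormalizedEigenform) {q : ℕ} (hq : q.Prime) (hqM : q ∣ M) (hq2 : ¬ q ^ 2 ∣ M)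
    (hqM' : q ∣ M') (hq2' : ¬ q ^ 2 ∣ M') (h1 : qCoeff f q ^ 2 = 1) :
    qCoeff f q = qCoeff g q := by
  by_contra hne
  obtain ⟨M₀, rfl⟩ := hqM
  obtain ⟨M₁, rfl⟩ := hqM'
  have hqM₀ : ¬ q ∣ M₀ := fun h => hq2 (by rw [pow_two]; exact Nat.mul_dvd_mul_left q h)
  have hqM₁ : ¬ q ∣ M₁ := fun h => hq2' (by rw [pow_two]; exact Nat.mul_dvd_mul_left q h)
  have hM₀ : M₀ ≠ 0 := fun h => NeZero.ne (q * M₀) (by rw [h, mul_zero])
  have hM₁ : M₁ ≠ 0 := fun h => NeZero.ne (q * M₁) (by rw [h, mul_zero])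
  set R := M₀ * M₁ with hR
  have hqR : ¬ q ∣ R := hq.prime.not_dvd_mul hqM₀ hqM₁
  have : NeZero R := ⟨mul_ne_zero hM₀ hM₁⟩
  have : NeZero (R * R) := ⟨mul_ne_zero (NeZero.ne R) (NeZero.ne R)⟩
  have : NeZero (q * R * R) :=
    ⟨mul_ne_zero (mul_ne_zero hq.ne_zero (NeZero.ne R)) (NeZero.ne R)⟩
  have : NeZero (q * R) := ⟨mul_ne_zero hq.ne_zero (NeZero.ne R)⟩
  have hMR : q * M₀ ∣ q * R := Nat.mul_dvd_mul_left q (dvd_mul_right M₀ M₁)
  have hMR' : q * M₁ ∣ q * R := Nat.mul_dvd_mul_left q (dvd_mul_left M₁ M₀)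
  obtain ⟨h, hh⟩ := hfg.exists_lower hf hg hq hqR hMR hMR'
  set c := qCoeff f q - qCoeff g q with hc
  have hc0 : c ≠ 0 := sub_ne_zero.2 hne
  have hN : ∀ m : ℕ, ¬ q ∣ m → m.Coprime R → qCoeff f m = qCoeff g m := fun m hm hmR =>
    hfg.qCoeff_eq hf hg hMR hMR' (((hq.coprime_iff_not_dvd.2 hm).symm).mul_right hmR)
  have hh' : ∀ m, ¬ q ∣ m → qCoeff h m = if m.Coprime R then c * qCoeff f m else 0 := by
    intro m hm
    rw [hh]
    split_ifs with hc'
    · have hnq : m.Coprime q := (hq.coprime_iff_not_dvd.2 hm).symm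
      rw [hf.qCoeff_mul_of_coprime m q hnq, hg.qCoeff_mul_of_coprime m q hnq, ← hN m hm hc', hc]
      ring
    · rfl
  have heig : ∀ ℓ (hℓ : ℓ.Prime), ¬ ℓ ∣ q * R →
      hOp (R * R) hℓ h = qCoeff f ℓ • h := by
    intro ℓ hℓ hℓqR
    have hℓq : ¬ ℓ ∣ q := fun h => hℓqR (h.mul_right R)
    have hℓR : ¬ ℓ ∣ R := fun h => hℓqR (h.mul_left q)
    have hqℓ : ¬ q ∣ ℓ := fun h => hℓq (by rw [(Nat.prime_dvd_prime_iff_eq hq hℓ).1 h])
    have hℓcop : ℓ.Coprime R := hℓ.coprime_iff_not_dvd.2 hℓR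
    have hz : hOp (R * R) hℓ h + (-qCoeff f ℓ) • h = 0 :=
      eq_zero_of_supported_prime hq (hq.prime.not_dvd_mul hqR hqR) _ fun n hn => by
        have hcop : (n * ℓ).Coprime R ↔ n.Coprime R :=
          ⟨fun hc => hc.coprime_dvd_left (dvd_mul_right n ℓ), fun hc => hc.mul_left hℓcop⟩
        rw [Newforms.qCoeff_add, Newforms.qCoeff_smul, HeckeDuality.coeff_heckeOp,
          hh' _ (hq.prime.not_dvd_mul hn hqℓ), hh' n hn, HeckeDuality.eulerWeight,
          if_neg (hℓ.prime.not_dvd_mul hℓR hℓR)]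
        by_cases hnR : n.Coprime R
        · have he := (Newforms.hOp_eq_smul_iff hℓ f _).1
            (Newforms.hOp_of_isNormalizedEigenform hf hℓ) n
          rw [HeckeDuality.eulerWeight,
            if_neg fun h' : ℓ ∣ q * M₀ => hℓqR (h'.trans hMR)] at he
          rw [if_pos (hcop.2 hnR), if_pos hnR]
          split_ifs with hℓn
          · have hdiv : n / ℓ ∣ n := Nat.div_dvd_of_dvd hℓn
            try rw [if_pos hℓn] at he
            rw [hh' _ (fun h => hn (h.trans hdiv)), if_pos (hnR.coprime_dvd_left hdiv)]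
            linear_combination c * he
          · try rw [if_neg hℓn] at he
            linear_combination c * he
        · rw [if_neg (mt hcop.1 hnR), if_neg hnR]
          split_ifs with hℓn
          · have hdiv : n / ℓ ∣ n := Nat.div_dvd_of_dvd hℓn
            have : ¬ (n / ℓ).Coprime R := fun hc =>
              hnR (by rw [← Nat.div_mul_cancel hℓn]; exact hc.mul_left hℓcop)
            rw [hh' _ (fun h => hn (h.trans hdiv)), if_neg this]
            ring
          · ring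
    rw [neg_smul, ← sub_eq_add_neg, sub_eq_zero] at hz
    exact hz
  have hh0 : h ≠ 0 := fun h0 => by
    have := hh' 1 hq.not_dvd_one
    rw [h0, if_pos (Nat.coprime_one_left R), hf.qCoeff_one, mul_one] at this
    exact hc0 (this.symm.trans (Newforms.coeffLin (N := R * R) (k := 2) 1).map_zero)
  obtain ⟨G, hG, hGe⟩ := Newforms.exists_eigenform_of_eigen hh0 (fun ℓ => ¬ ℓ ∣ q * R)
    (qCoeff f) heig
  have hsame : SameSystem f G (q * R).primeFactors := fun ℓ hℓ hℓS =>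
    (hGe ℓ hℓ fun h => hℓS (Nat.mem_primeFactors.2 ⟨hℓ, h, NeZero.ne _⟩)).symm
  exact hsame.qCoeff_sq_ne_one hf hG hq (dvd_mul_right q M₀) hq2
    (hq.prime.not_dvd_mul hqR hqR) h1

end Fermat.Agent.Lifting.Eigen
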