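import Fermat.Agent.Lifting.Eigen.Sign

/-!
# Eigenclasses of the Atkin–Lehner involution, and classes new at a prime

A parabolic eigenclass of level `M q`, character trivial at `q`, killed by both degeneracy maps and
with the system of a form of level prime to `q` is zero.
-/

set_option autoImplicit false

noncomputable section

open CongruenceSubgroup ModularFormClass
open ModularCurve.Period
open scoped MatrixGroups ModularForm

namespace Fermat.Agent.Lifting.Eigen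

open Fermat.Agent.RT.GammaH
open Fermat.Agent.RT.Lift (resDeg conjDeg corDeg starDeg liftSub qUnit)
open Fermat.Agent.Lifting.Degeneracy

variable {N M q e : ℕ} [NeZero N] {K : Subgroup (ZMod N)ˣ}

theorem wOp_mem_parabolicHoms (h : ALLevel N q M) (hK : TwistSub N K e)
    {φ : Additive (gammaH N K) →+ ℂ} (hφ : φ ∈ parabolicHoms ℂ (gammaH N K) ℂ) :
    wOp ℂ h hK φ ∈ parabolicHoms ℂ (gammaH N K) ℂ :=
  opOf_mem_parabolicHoms hK.neg_one_mem _ (fun _ => by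
    obtain ⟨x, y, z, w, hgA, hA, -⟩ := wElt_mem h K e
    exact ⟨_, hgA, by rw [det_alMat h hA]; exact_mod_cast h.prime.pos⟩) hφ

omit [NeZero N] in
/-- On a character invariant under `iota` the involution preserves the systems. -/
theorem wOp_eigen (h : ALLevel N q M) (hK : TwistSub N K e) {χ : (ZMod N)ˣ →* ℂˣ}
    (hχ : ∀ u, χ (h.iota u) = χ u) {S : Finset ℕ} (hS : ∀ v : ℕ, v.Prime → v ∣ N → v ∈ S)
    {a : ℕ → ℂ} {φ : Additive (gammaH N K) →+ ℂ}
    (hdia : ∀ u, diamond N K ℂ u φ = (χ u : ℂ) • φ)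
    (hT : ∀ (ℓ : ℕ) [Fact ℓ.Prime], ℓ ∉ S → hecke N K ℓ ℂ φ = a ℓ • φ) :
    (∀ u, diamond N K ℂ u (wOp ℂ h hK φ) = (χ u : ℂ) • wOp ℂ h hK φ) ∧
      ∀ (ℓ : ℕ) [Fact ℓ.Prime], ℓ ∉ S → hecke N K ℓ ℂ (wOp ℂ h hK φ) = a ℓ • wOp ℂ h hK φ := by
  have hd : ∀ u, diamond N K ℂ u (wOp ℂ h hK φ) = (χ u : ℂ) • wOp ℂ h hK φ := fun u => by
    rw [← h.iota_iota u, ← wOp_diamond, hdia, map_smul, hχ (h.iota u)]
  refine ⟨hd, fun ℓ _ hℓ => ?_⟩
  have hℓ' : ℓ.Prime := Fact.out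
  have hn : ℓ.Coprime N := hℓ'.coprime_iff_not_dvd.2 fun hdv => hℓ (hS ℓ hℓ' hdv)
  have h1 := wOp_twHecke ℂ h hK hn φ
  simp only [twHecke, Module.End.mul_apply, hT ℓ hℓ, map_smul, hdia] at h1
  have h2 := congrArg (diamond N K ℂ (ZMod.unitOfCoprime ℓ hn ^ e)⁻¹) h1
  rw [← diamond_mul, inv_mul_cancel, diamond_of_mem ℂ (one_mem _), map_smul, map_smul, hd,
    smul_smul, smul_smul, map_inv, Units.val_inv_eq_inv_val, map_pow, Units.val_pow_eq_pow_val,
    mul_assoc, mul_inv_cancel₀ (pow_ne_zero _ (Units.ne_zero _)), mul_one] at h2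
  exact h2.symm

end Fermat.Agent.Lifting.Eigen

namespace Fermat.Agent.Lifting.Eigen

open Fermat.Agent.RT.GammaH
open Fermat.Agent.RT.Lift (resDeg conjDeg corDeg starDeg liftSub qUnit)
open Fermat.Agent.Lifting.Degeneracy

variable {M q e : ℕ} {K : Subgroup (ZMod M)ˣ} [NeZero M] [NeZero (M * q)] {S : Finset ℕ}
  {χ : (ZMod (M * q))ˣ →* ℂˣ} {a : ℕ → ℂ} {φ : Additive (gammaH (M * q) (liftSub q K)) →+ ℂ}
  {N₀ : ℕ} [NeZero N₀] {g : CuspForm (Gamma0 N₀) 2}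

omit [NeZero M] [NeZero (M * q)] in
theorem chi_iota (h : ALLevel (M * q) q M) (hχ : ∀ u ∈ liftSub q K, χ u = 1)
    (u : (ZMod (M * q))ˣ) : χ (h.iota u) = χ u := by
  refine mul_inv_eq_one.1 ?_
  rw [← map_inv, ← map_mul]
  refine hχ _ ?_
  show h.toM (h.iota u * u⁻¹) ∈ K
  rw [map_mul, h.toM_iota, map_inv, mul_inv_cancel]
  exact one_mem K

/-- **Not new at `q`.** -/
theorem eq_zero_of_not_new [Fact q.Prime] (h : ALLevel (M * q) q M)
    (hsq : Squarefree (M * q)) (hK : TwistSub M K e)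
    (hodd : Odd (Nat.card ((ZMod M)ˣ ⧸ K)))
    (hS : ∀ v : ℕ, v.Prime → v ∣ M * q → v ∈ S) (hχ : ∀ u ∈ liftSub q K, χ u = 1)
    (hφ : φ ∈ parabolicHoms ℂ (gammaH (M * q) (liftSub q K)) ℂ)
    (hdia : ∀ u, diamond (M * q) (liftSub q K) ℂ u φ = (χ u : ℂ) • φ)
    (hT : ∀ (ℓ : ℕ) [Fact ℓ.Prime], ℓ ∉ S → hecke (M * q) (liftSub q K) ℓ ℂ φ = a ℓ • φ)
    (hg : g.IsNormalizedEigenform) (hqN : ¬ q ∣ N₀)
    (hsys : IsTwistedSystem (liftSub q K) χ a S g)
    (hcor : corDeg h.raise ℂ K φ = 0) (hstar : starDeg h.raise ℂ K φ = 0) : φ = 0 := by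
  set W := wOp (A := ℂ) ℂ h (hK.liftSub h) with hWdef
  obtain ⟨hWd, hWT⟩ := wOp_eigen h (hK.liftSub h) (chi_iota h hχ) hS hdia hT
  have hWW : W (W φ) = φ := wOp_wOp ℂ h (hK.liftSub h) φ
  have hWcor : corDeg h.raise ℂ K (W φ) = 0 := by
    rw [hWdef, corDeg_wOp ℂ h hK, hstar, map_zero]
  suffices key : ∀ eps : ℂ, eps * eps = 1 → φ + eps • W φ = 0 by
    have h1 := key 1 (one_mul 1)
    have h2 := key (-1) (by norm_num)
    rw [one_smul] at h1
    rw [neg_one_smul] at h2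
    have h3 : φ + φ = 0 := by
      have := congrArg₂ (· + ·) h1 h2
      simp only [add_zero] at this
      rw [← this]
      abel
    rw [← two_smul ℂ, smul_eq_zero] at h3
    exact h3.resolve_left two_ne_zero
  intro eps he
  by_contra hne
  obtain ⟨N, G, hN, hqG, hqG2, hG, hGsys, hGq⟩ := exists_eigenform_of_corDeg_eq_zero
    (φ := φ + eps • W φ) (a := a) (χ := χ) (S := S) h hsq hK hodd hS hχ
    (add_mem hφ (Submodule.smul_mem _ eps (wOp_mem_parabolicHoms h _ hφ))) hne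
    (fun u => by rw [map_add, map_smul, hdia, hWd, smul_add, smul_comm])
    (fun ℓ _ hℓ => by rw [map_add, map_smul, hT ℓ hℓ, hWT ℓ hℓ, smul_add, smul_comm])
    (by rw [map_add, map_smul, hcor, hWcor, smul_zero, add_zero]) he
    (by
      show W (φ + eps • W φ) = _
      rw [map_add, map_smul, hWW, smul_add, smul_smul, he, one_smul, add_comm])
  have : NeZero N := ⟨fun h0 => (pow_ne_zero 2 (NeZero.ne (M * q)))
    (Nat.eq_zero_of_zero_dvd (h0 ▸ hN))⟩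
  have hsame : SameSystem G g S := fun ℓ hℓ hℓS => by
    have hv := (ZMod.isUnit_iff_coprime ℓ (M * q)).2
      (hℓ.coprime_iff_not_dvd.2 fun hd => hℓS (hS ℓ hℓ hd))
    rw [hsys ℓ hℓ hℓS hv.unit hv.unit_spec, hGsys ℓ hℓ hℓS hv.unit hv.unit_spec]
  exact hsame.qCoeff_sq_ne_one hG hg h.prime hqG hqG2 hqN (by rw [hGq, neg_sq, pow_two, he])

end Fermat.Agent.Lifting.Eigen
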