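import Fermat.Agent.Lifting.Degeneracy.Deg

/-!
# `res ∘ cor = 1 + ⟨q⟩ ^ e U_q W_q`

On `Hom(Γ_H, A)` of level `M q` with the subgroup pulled back from level `M`, restriction after
corestriction is the identity plus the twisted `U_q` after the Atkin–Lehner involution.
-/

set_option autoImplicit false

noncomputable section

namespace Fermat.Agent.Lifting.Eigen

open CongruenceSubgroup Matrix.SpecialLinearGroup
open Fermat.Agent.RT.GammaH Fermat.Agent.RT.Lift
open Fermat.Agent.Lifting.Degeneracy
open scoped MatrixGroups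

variable {M q e : ℕ} {K : Subgroup (ZMod M)ˣ}

/-- The factor of `W_q (1 j; 0 q) / q`. -/
def alFactor {x y z w : ℤ} (hA : (q : ℤ) * x * w - M * z * y = 1) (j : ℤ) : SL(2, ℤ) :=
  ⟨!![x, x * j + y; (M : ℤ) * z, (M : ℤ) * z * j + (q : ℤ) * w], by
    rw [Matrix.det_fin_two_of]; linear_combination hA⟩

variable {A : Type*} [AddCommGroup A] (R : Type*) [Semiring R] [Module R A]

/-- **Restriction after corestriction.** -/
theorem resDeg_corDeg (h : ALLevel (M * q) q M) (hK : TwistSub M K e) [Fact q.Prime]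
    (u : (ZMod (M * q))ˣ) (hu : h.toM u = qUnit h.raise)
    (φ : Additive (gammaH (M * q) (liftSub q K)) →+ A) :
    resDeg R q K (corDeg h.raise R K φ) = φ + diamond (M * q) (liftSub q K) R (u ^ e)
      (hecke (M * q) (liftSub q K) q R (wOp R h (hK.liftSub h) φ)) := by
  classical
  obtain ⟨x, y, z, w, hgA, hA, ⟨v, hv, hxv⟩, -⟩ := wElt_mem h (liftSub q K) e
  set g := wElt h (liftSub q K) e
  set σ := gamma0Elt (M := M * q) (u ^ e)⁻¹ with hσ
  have hσ0 : σ ∈ Gamma0 (M * q) := gamma0Elt_mem _
  have hσM : σ ∈ Gamma0 M := Gamma0_mem.2 ((ZMod.intCast_zmod_eq_zero_iff_dvd _ _).2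
    ((Int.natCast_dvd_natCast.2 h.dvdM).trans
      ((ZMod.intCast_zmod_eq_zero_iff_dvd _ _).1 (Gamma0_mem.1 hσ0))))
  set zS : GLR := aRep q () * sRep h.raise (some ⟨0, h.prime.pos⟩) with hzS
  have hz : ∀ t : GLR, Commute zS t := RT.Lift.scalar_comm h.raise
  have hqz : ¬ (q : ℤ) ∣ (M : ℤ) * z := fun hd => h.raise.prime_int.not_dvd_one (by
    rw [← hA]
    exact dvd_sub ((dvd_mul_right _ _).mul_right _) (hd.mul_right _))
  let rep1 : Option (Fin q) → GLR
    | none => 1
    | some j => mapGL ℝ (alFactor hA (j : ℕ) * σ)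
  -- membership
  have hmem : ∀ j : Fin q, alFactor hA (j : ℕ) * σ ∈ gammaH M K := by
    intro j
    have hδ : alFactor hA (j : ℕ) ∈ Gamma0 M := Gamma0_mem.2 (by simp [alFactor])
    rw [← mul_one (alFactor hA (j : ℕ) * σ), ← inv_one]
    refine gamma0_mul_inv_mem (mul_mem hδ hσM) (one_mem _)
      (map_toM_liftSub_le h hv) ?_
    rw [gamma0_mul_apply_upperLeft _ _ hσM]
    have h1 : ((σ 0 0 : ℤ) : ZMod M) = (((qUnit h.raise) ^ e)⁻¹ : (ZMod M)ˣ) := by
      rw [h.intCast_toM (gamma0Elt_upperLeft (u ^ e)⁻¹), map_inv, map_pow, hu]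
    have h2 : (qUnit h.raise : ZMod M) * (x : ZMod M) =
        (qUnit h.raise ^ (e + 1) : (ZMod M)ˣ) * v := by
      rw [Units.val_pow_eq_pow_val, ← hxv, ← natCast_qUnit h]
      push_cast
      ring
    refine (qUnit h.raise).isUnit.mul_left_cancel ?_
    rw [h1]
    have h3 := Units.mul_inv (qUnit h.raise ^ e)
    simp only [alFactor, Matrix.of_apply, Matrix.cons_val', Matrix.cons_val_zero,
      Matrix.SpecialLinearGroup.coe_one, Matrix.one_apply_eq, Int.cast_one,
      mul_one, Units.val_pow_eq_pow_val] at h2 h3 ⊢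
    linear_combination (((qUnit h.raise ^ e)⁻¹ : (ZMod M)ˣ) : ZMod M) * h2 +
      (qUnit h.raise : ZMod M) * (v : ZMod M) * h3
  have hnot : ∀ j : Fin q, ¬ alFactor hA (j : ℕ) * σ ∈ gammaH (M * q) (liftSub q K) := by
    intro j hj
    have hd := dvd_of_mem_lift hj
    have hσc : (q : ℤ) ∣ σ 1 0 := (Int.natCast_dvd_natCast.2 h.dvdQ).trans
      ((ZMod.intCast_zmod_eq_zero_iff_dvd _ _).1 (Gamma0_mem.1 hσ0))
    have hσa : ¬ (q : ℤ) ∣ σ 0 0 := fun hd' => by
      have h1 := h.intCast_toQ (gamma0Elt_upperLeft (u ^ e)⁻¹)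
      rw [← hσ, (ZMod.intCast_zmod_eq_zero_iff_dvd _ _).2 hd'] at h1
      exact Units.ne_zero _ h1.symm
    have he : (alFactor hA (j : ℕ) * σ) 1 0 =
        (M : ℤ) * z * σ 0 0 + ((M : ℤ) * z * (j : ℕ) + (q : ℤ) * w) * σ 1 0 := by
      rw [Matrix.SpecialLinearGroup.coe_mul]
      simp [alFactor, Matrix.mul_apply, Fin.sum_univ_two]
    rw [he, dvd_add_left (hσc.mul_left _)] at hd
    exact (h.raise.prime_int.dvd_or_dvd hd).elim hqz hσa
  have hr1 : IsReps (gammaH (M * q) (liftSub q K)) (img (gammaH M K) : Set GLR) rep1 := by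
    refine (isReps_cRep h.raise).of_card (rep' := rep1) ?_ ?_ le_rfl
    · rintro (_ | j)
      · exact one_mem _
      · exact mapGL_mem_img.2 (hmem j)
    · rintro (_ | i) (_ | j) hij
      · rfl
      · simp only [rep1, one_mul, ← map_inv, mapGL_mem_img] at hij
        exact absurd (inv_mem_iff.1 hij) (hnot j)
      · simp only [rep1, inv_one, mul_one, mapGL_mem_img] at hij
        exact absurd hij (hnot i)
      · simp only [rep1, ← map_inv, ← map_mul, mapGL_mem_img, mul_inv_rev, ← mul_assoc,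
          mul_inv_cancel_right] at hij
        have hd := dvd_of_mem_lift hij
        have he : (alFactor hA (i : ℕ) * (alFactor hA (j : ℕ))⁻¹) 1 0 =
            ((M : ℤ) * z) * ((M : ℤ) * z) * ((j : ℕ) - (i : ℕ)) := by
          rw [lowerLeft_mul_inv]
          simp [alFactor]
          ring
        rw [he] at hd
        have hd' := ((h.raise.prime_int.dvd_or_dvd hd).resolve_left fun h' =>
          (h.raise.prime_int.dvd_or_dvd h').elim hqz hqz)
        have := Int.eq_zero_of_abs_lt_dvd hd' (by rw [abs_lt]; omega)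
        exact congrArg some (Fin.ext (by omega))
  have hadm1 : Admissible (gammaH (M * q) (liftSub q K)) (gammaH (M * q) (liftSub q K)) rep1 :=
    hr1.admissible fun _ ht γ => mul_mem ht (mapGL_mem_img.2 (gammaH_lift_le γ.2))
  have hq0 : q ∣ M * q := dvd_mul_left q M
  -- the `U_q W_q` part
  let e0 : HIdx (M * q) q ≃ Fin q :=
    { toFun := fun i => i.1.get (Option.isSome_iff_ne_none.2 fun hn => i.2 hn hq0)
      invFun := fun j => ⟨some j, fun hn => absurd hn (Option.some_ne_none j)⟩
      left_inv := fun i => Subtype.ext (Option.some_get _)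
      right_inv := fun j => rfl }
  have hrep : ∀ j : Fin q,
      g * ModularForm.heckeMatrix q j * mapGL ℝ σ = rep1 (some j) * zS := by
    intro j
    have hgj : g * ModularForm.heckeMatrix q j = zS * mapGL ℝ (alFactor hA (j : ℕ)) := by
      have hzM : IsIntMat zS !![(q : ℤ), 0; 0, (q : ℤ)] := by
        convert (isIntMat_aRep h.raise).mul (isIntMat_sRep_some h.raise ⟨0, h.prime.pos⟩) using 1
        ext a b
        fin_cases a <;> fin_cases b <;> simp [Matrix.mul_apply, Fin.sum_univ_two]
      refine (hgA.mul (isIntMat_heckeMatrix (n := q) j)).ext ?_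
      convert hzM.mul (isIntMat_mapGL (alFactor hA (j : ℕ))) using 1
      ext a b
      fin_cases a <;> fin_cases b <;>
        simp [alMat, alFactor, Matrix.mul_apply, Fin.sum_univ_two] <;> ring
    show _ = mapGL ℝ (alFactor hA (j : ℕ) * σ) * zS
    rw [hgj, mul_assoc, map_mul, ← (hz _).eq]
  -- compare
  unfold resDeg corDeg hecke diamond wOp
  rw [opOf_comp, opOf_comp, opOf_comp]
  refine (LinearMap.congr_fun (opOf_eq_of_isReps _ hadm1
    ((isReps_cRep h.raise).of_card (rep' := fun p : Option (Fin q) × Unit => cRep h.raise p.1 * 1)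
      (fun p => by rw [mul_one]; exact (isReps_cRep h.raise).mem p.1)
      (fun p p' hp => Prod.ext ((isReps_cRep h.raise).inj _ _ (by simpa using hp)) rfl)
      (le_of_eq (Nat.card_congr (Equiv.prodUnique _ _).symm))) hr1) φ).trans ?_
  have hU : Admissible (gammaH (M * q) (liftSub q K)) (gammaH (M * q) (liftSub q K))
      fun j : Fin q => rep1 (some j) := fun γ => by
    obtain ⟨τ, hτ⟩ := hadm1 γ
    have hnone : τ none = none := by
      refine hr1.inj _ _ ?_
      have h1 : (1 : GLR) * mapGL ℝ (γ : SL(2, ℤ)) * (rep1 (τ none))⁻¹ ∈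
          img (gammaH (M * q) (liftSub q K)) := hτ.2 none
      have h2 := inv_mem (mul_mem (inv_mem (mapGL_mem_img.2 γ.2)) h1)
      simpa [rep1, mul_assoc] using h2
    have hsome : ∀ j : Fin q, (τ (some j)).isSome := fun j =>
      Option.isSome_iff_ne_none.2 fun hn =>
        Option.some_ne_none j (hτ.1.1 (hn.trans hnone.symm))
    refine ⟨fun j => (τ (some j)).get (hsome j), Finite.injective_iff_bijective.1 fun i j hij => ?_,
      fun j => ?_⟩
    · exact Option.some_inj.1 (hτ.1.1 (Option.get_inj.1 hij))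
    · simpa using hτ.2 (some j)
  refine (LinearMap.congr_fun (opOf_congr _ (admissible_id.sum hU)
    (({ toFun := fun o => o.elim (Sum.inl ()) Sum.inr
        invFun := Sum.elim (fun _ => none) some
        left_inv := fun o => by cases o <;> rfl
        right_inv := fun o => by rcases o with ⟨⟩ | _ <;> rfl } : Option (Fin q) ≃ Unit ⊕ Fin q))
    fun o => ?_) φ).trans ?_
  rotate_left
  · rw [opOf_sum admissible_id hU, LinearMap.add_apply, opOf_id, ← opOf_mul_central hz hU]
    refine congrArg (fun t => φ + t) (LinearMap.congr_fun ?_ φ)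
    let e1 : Fin q ≃ Unit × HIdx (M * q) q × Unit :=
      { toFun := fun j => ((), e0.symm j, ())
        invFun := fun p => e0 p.2.1
        left_inv := fun j => e0.apply_symm_apply j
        right_inv := fun p => by
          obtain ⟨⟨⟩, i, ⟨⟩⟩ := p
          simp }
    refine opOf_congr _ _ e1 fun j => ?_
    show rep1 (some j) * zS * (g * (ModularForm.heckeMatrix q (j : ℕ) * mapGL ℝ σ))⁻¹ ∈ _
    rw [← mul_assoc g, hrep, mul_inv_cancel]
    exact one_mem _
  · rcases o with _ | j
    · simp [rep1]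
    · show rep1 (some j) * (rep1 (some j))⁻¹ ∈ _
      rw [mul_inv_cancel]
      exact one_mem _

/-- A class killed by `corDeg` which is an eigenclass of `W_q` with eigenvalue `eps = ± 1` is an
eigenclass of the twisted `U_q` with eigenvalue `-eps`. -/
theorem twisted_heckeU_of_corDeg_eq_zero {A R : Type*} [AddCommGroup A] [CommRing R] [Module R A]
    (h : ALLevel (M * q) q M) (hK : TwistSub M K e) [Fact q.Prime] (u : (ZMod (M * q))ˣ)
    (hu : h.toM u = qUnit h.raise) {eps : R} (he : eps * eps = 1)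
    {φ : Additive (gammaH (M * q) (liftSub q K)) →+ A} (hcor : corDeg h.raise R K φ = 0)
    (hW : wOp R h (hK.liftSub h) φ = eps • φ) :
    diamond (M * q) (liftSub q K) R (u ^ e) (hecke (M * q) (liftSub q K) q R φ) = -(eps • φ) := by
  have h1 := resDeg_corDeg R h hK u hu φ
  rw [hcor, map_zero, hW, map_smul, map_smul] at h1
  have h2 := congrArg (eps • ·) (eq_neg_of_add_eq_zero_right h1.symm)
  simpa [smul_smul, he] using h2

end Fermat.Agent.Lifting.Eigen
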