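import Fermat.Agent.Lifting.Eigen.Degeneracy
import Fermat.Agent.Lifting.Eigen.UW

/-!
# The sign at a special prime

For a character trivial at `q`, a parabolic eigenclass of level `M q` with the system of a form
special at `q` is killed by both degeneracy maps; if it is an eigenclass of `W_q` with sign `eps`,
it is an eigenclass of the twisted `U_q` with eigenvalue `-eps`, which is the coefficient at `q` of
the form.
-/

set_option autoImplicit false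

noncomputable section

open CongruenceSubgroup ModularFormClass
open ModularCurve.Period
open scoped MatrixGroups ModularForm

namespace Fermat.Agent.Lifting.Eigen

open Fermat.Agent.RT.GammaH
open Fermat.Agent.RT.Lift (resDeg conjDeg corDeg starDeg liftSub qUnit)
open Fermat.Agent.Lifting.Degeneracy

variable {M q : ℕ} {K : Subgroup (ZMod M)ˣ}

theorem card_quotient_liftSub [NeZero (M * q)] :
    Nat.card ((ZMod (M * q))ˣ ⧸ liftSub q K) = Nat.card ((ZMod M)ˣ ⧸ K) :=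
  Subgroup.index_comap_of_surjective K (ZMod.unitsMap_surjective (dvd_mul_right M q))

theorem pow_eq_pow_of_pow_eq_one {G : Type*} [Monoid G] {x : G} {s t : ℕ}
    (hs : x ^ (2 * s + 1) = 1) (ht : x ^ (2 * t + 1) = 1) : x ^ s = x ^ t := by
  calc x ^ s = x ^ (s + (2 * s + 1) * t) := by rw [pow_add, pow_mul, hs, one_pow, mul_one]
    _ = x ^ (t + (2 * t + 1) * s) := by ring_nf
    _ = x ^ t := by rw [pow_add, pow_mul, ht, one_pow, mul_one]

variable [NeZero M] [NeZero (M * q)] {S : Finset ℕ} {χ : (ZMod (M * q))ˣ →* ℂˣ} {a : ℕ → ℂ}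
  {φ : Additive (gammaH (M * q) (liftSub q K)) →+ ℂ}
  {N₀ : ℕ} [NeZero N₀] {g : CuspForm (Gamma0 N₀) 2}

/-- A map to level `M` commuting with the operators kills the eigenclasses with the system of a
form special at `q`. -/
theorem map_eq_zero_of_special (h : ALLevel (M * q) q M) (hsq : Squarefree (M * q))
    (hneg : -1 ∈ K) (hodd : Odd (Nat.card ((ZMod M)ˣ ⧸ K)))
    (hS : ∀ v : ℕ, v.Prime → v ∣ M * q → v ∈ S) (hχ : ∀ u ∈ liftSub q K, χ u = 1)
    (D : (Additive (gammaH (M * q) (liftSub q K)) →+ ℂ) →ₗ[ℂ] (Additive (gammaH M K) →+ ℂ))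
    (hDdia : ∀ u x, D (diamond (M * q) (liftSub q K) ℂ u x) =
      diamond M K ℂ (ZMod.unitsMap (dvd_mul_right M q) u) (D x))
    (hDT : ∀ (ℓ : ℕ) [Fact ℓ.Prime], ℓ ∉ S → ∀ x,
      D (hecke (M * q) (liftSub q K) ℓ ℂ x) = hecke M K ℓ ℂ (D x))
    (hDpar : D φ ∈ parabolicHoms ℂ (gammaH M K) ℂ)
    (hdia : ∀ u, diamond (M * q) (liftSub q K) ℂ u φ = (χ u : ℂ) • φ)
    (hT : ∀ (ℓ : ℕ) [Fact ℓ.Prime], ℓ ∉ S → hecke (M * q) (liftSub q K) ℓ ℂ φ = a ℓ • φ)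
    (hg : g.IsNormalizedEigenform) (hsys : IsTwistedSystem (liftSub q K) χ a S g)
    (hqN : q ∣ N₀) (hq2 : ¬ q ^ 2 ∣ N₀) (h1 : qCoeff g q ^ 2 = 1) : D φ = 0 := by
  set π := ZMod.unitsMap (dvd_mul_right M q) with hπdef
  have hπ : Function.Surjective π := ZMod.unitsMap_surjective _
  set χ' : (ZMod M)ˣ →* ℂˣ := π.liftOfSurjective hπ ⟨χ, fun u hu => hχ u (by
    show π u ∈ K
    rw [MonoidHom.mem_ker.1 hu]
    exact one_mem K)⟩
  have hχ' : ∀ u, χ' (π u) = χ u := MonoidHom.liftOfRightInverse_comp_apply π _ _ _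
  have hdia' : ∀ v, diamond M K ℂ v (D φ) = (χ' v : ℂ) • D φ := fun v => by
    obtain ⟨u, rfl⟩ := hπ v
    rw [← hDdia, hdia, map_smul, hχ']
  refine eq_zero_of_special (a := a) (S := S) (Squarefree.squarefree_of_dvd (dvd_mul_right M q) hsq)
    hneg hodd (fun v hv hvM => hS v hv (hvM.mul_right q)) (fun v hv => ?_) hDpar hdia'
    (fun ℓ _ hℓ => by rw [← hDT ℓ hℓ, hT ℓ hℓ, map_smul]) hg ?_ h.prime h.not_dvd hqN hq2 h1
  · obtain ⟨u, rfl⟩ := hπ v
    rw [hχ']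
    exact hχ u hv
  · intro ℓ hℓ hℓS u' hu'
    have hu := (ZMod.isUnit_iff_coprime ℓ (M * q)).2
      (hℓ.coprime_iff_not_dvd.2 fun hd => hℓS (hS ℓ hℓ hd))
    have hπu : π hu.unit = u' := Units.ext (by
      rw [hu', hπdef, ZMod.unitsMap_def, Units.coe_map, IsUnit.unit_spec]
      exact map_natCast (ZMod.castHom (dvd_mul_right M q) (ZMod M)) ℓ)
    rw [hsys ℓ hℓ hℓS hu.unit hu.unit_spec, twistExp, twistExp, card_quotient_liftSub, ← hπu, hχ']

theorem corDeg_eq_zero_of_special (h : ALLevel (M * q) q M) (hsq : Squarefree (M * q))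
    (hneg : -1 ∈ K) (hodd : Odd (Nat.card ((ZMod M)ˣ ⧸ K)))
    (hS : ∀ v : ℕ, v.Prime → v ∣ M * q → v ∈ S) (hχ : ∀ u ∈ liftSub q K, χ u = 1)
    (hφ : φ ∈ parabolicHoms ℂ (gammaH (M * q) (liftSub q K)) ℂ)
    (hdia : ∀ u, diamond (M * q) (liftSub q K) ℂ u φ = (χ u : ℂ) • φ)
    (hT : ∀ (ℓ : ℕ) [Fact ℓ.Prime], ℓ ∉ S → hecke (M * q) (liftSub q K) ℓ ℂ φ = a ℓ • φ)
    (hg : g.IsNormalizedEigenform) (hsys : IsTwistedSystem (liftSub q K) χ a S g)
    (hqN : q ∣ N₀) (hq2 : ¬ q ^ 2 ∣ N₀) (h1 : qCoeff g q ^ 2 = 1) :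
    corDeg h.raise ℂ K φ = 0 ∧ starDeg h.raise ℂ K φ = 0 := by
  have hne : ∀ ℓ : ℕ, ℓ ∉ S → ℓ ≠ q := fun ℓ hℓ hq =>
    hℓ (hq ▸ hS q h.prime (dvd_mul_left q M))
  have hneg' : (-1 : (ZMod (M * q))ˣ) ∈ liftSub q K := by
    show ZMod.unitsMap (dvd_mul_right M q) (-1) ∈ K
    convert hneg
    exact Units.ext (by simp [ZMod.unitsMap])
  refine ⟨map_eq_zero_of_special h hsq hneg hodd hS hχ (corDeg h.raise ℂ K) ?_ ?_
      (corDeg_mem_parabolicHoms h.raise hneg' hφ) hdia hT hg hsys hqN hq2 h1,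
    map_eq_zero_of_special h hsq hneg hodd hS hχ (starDeg h.raise ℂ K) ?_ ?_
      (starDeg_mem_parabolicHoms h.raise hneg' hφ) hdia hT hg hsys hqN hq2 h1⟩
  · exact fun u x => RT.Lift.corDeg_diamond h.raise ℂ u x
  · exact fun ℓ _ hℓ x => RT.Lift.corDeg_hecke h.raise ℂ (hne ℓ hℓ) x
  · exact fun u x => RT.Lift.starDeg_diamond h.raise ℂ u x
  · exact fun ℓ _ hℓ x => RT.Lift.starDeg_hecke h.raise ℂ (hne ℓ hℓ) x

omit [NeZero M] in
/-- The form of level exactly divisible by `q` of a class killed by `corDeg`. -/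
theorem exists_eigenform_of_corDeg_eq_zero [Fact q.Prime] {e : ℕ} (h : ALLevel (M * q) q M)
    (hsq : Squarefree (M * q)) (hK : TwistSub M K e)
    (hodd : Odd (Nat.card ((ZMod M)ˣ ⧸ K)))
    (hS : ∀ v : ℕ, v.Prime → v ∣ M * q → v ∈ S) (hχ : ∀ u ∈ liftSub q K, χ u = 1)
    (hφ : φ ∈ parabolicHoms ℂ (gammaH (M * q) (liftSub q K)) ℂ) (hne : φ ≠ 0)
    (hdia : ∀ u, diamond (M * q) (liftSub q K) ℂ u φ = (χ u : ℂ) • φ)
    (hT : ∀ (ℓ : ℕ) [Fact ℓ.Prime], ℓ ∉ S → hecke (M * q) (liftSub q K) ℓ ℂ φ = a ℓ • φ)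
    (hcor : corDeg h.raise ℂ K φ = 0) {eps : ℂ} (he : eps * eps = 1)
    (hW : wOp ℂ h (hK.liftSub h) φ = eps • φ) :
    ∃ (N : ℕ) (G : CuspForm (Gamma0 N) 2), N ∣ (M * q) ^ 2 ∧ q ∣ N ∧ ¬ q ^ 2 ∣ N ∧
      G.IsNormalizedEigenform ∧ IsTwistedSystem (liftSub q K) χ a S G ∧ qCoeff G q = -eps := by
  set u := h.unit (qUnit h.raise) 1
  have hu : h.toM u = qUnit h.raise := h.toM_unit _ _
  have hK' := hK.liftSub h
  have hU' := twisted_heckeU_of_corDeg_eq_zero h hK u hu he hcor hW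
  set c := -eps * ((χ u : ℂ) ^ e)⁻¹ with hc
  have hU : hecke (M * q) (liftSub q K) q ℂ φ = c • φ := by
    have h2 := congrArg (diamond (M * q) (liftSub q K) ℂ (u ^ e)⁻¹) hU'
    rw [← diamond_mul, inv_mul_cancel, diamond_of_mem ℂ (one_mem _), map_neg, map_smul, hdia,
      map_inv, map_pow] at h2
    rw [h2, hc, smul_smul, neg_mul, neg_smul, Units.val_inv_eq_inv_val,
      Units.val_pow_eq_pow_val]
  have hodd' : Odd (Nat.card ((ZMod (M * q))ˣ ⧸ liftSub q K)) := by rwa [card_quotient_liftSub]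
  have hdiv : M * q / q = M := Nat.mul_div_cancel M h.prime.pos
  obtain ⟨N, G, hN, hqG, hqG2, hG, hGsys, hGq⟩ := exists_eigenform_heckeU hsq hK'.neg_one_mem hodd'
    hS hχ hφ hne hdia hT (dvd_mul_left q M) (fun v hv => hχ v (by
      show ZMod.unitsMap (dvd_mul_right M q) v ∈ K
      convert one_mem K
      refine Units.ext ?_
      rw [ZMod.unitsMap_val, Units.val_one]
      revert hv
      rw [hdiv]
      exact id)) hU
  refine ⟨N, G, hN, hqG, hqG2, hG, hGsys, ?_⟩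
  have hpow : (χ u) ^ e = (χ u) ^ twistExp (liftSub q K) := by
    refine pow_eq_pow_of_pow_eq_one ?_ ?_
    · rw [← map_pow]
      exact hχ _ (hK'.pow u)
    · have h2 := congrArg (fun f => f ((u : ZMod (M * q)))) (toDir_pow_eq_one hχ hodd')
      simp only [MulChar.pow_apply_coe, toDir_coe, MulChar.one_apply_coe] at h2
      exact Units.ext (by simpa using h2)
  rw [hGq u (by
      rw [hdiv, ← ZMod.unitsMap_val (dvd_mul_right M q)]
      exact (congrArg Units.val hu).trans (natCast_qUnit h).symm), hc,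
    ← Units.val_pow_eq_pow_val, ← hpow, Units.val_pow_eq_pow_val]
  field_simp

/-- **The sign at a special prime.** -/
theorem qCoeff_eq_neg_sign [Fact q.Prime] {e : ℕ} (h : ALLevel (M * q) q M)
    (hsq : Squarefree (M * q)) (hK : TwistSub M K e)
    (hodd : Odd (Nat.card ((ZMod M)ˣ ⧸ K)))
    (hS : ∀ v : ℕ, v.Prime → v ∣ M * q → v ∈ S) (hχ : ∀ u ∈ liftSub q K, χ u = 1)
    (hφ : φ ∈ parabolicHoms ℂ (gammaH (M * q) (liftSub q K)) ℂ) (hne : φ ≠ 0)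
    (hdia : ∀ u, diamond (M * q) (liftSub q K) ℂ u φ = (χ u : ℂ) • φ)
    (hT : ∀ (ℓ : ℕ) [Fact ℓ.Prime], ℓ ∉ S → hecke (M * q) (liftSub q K) ℓ ℂ φ = a ℓ • φ)
    (hg : g.IsNormalizedEigenform) (hsys : IsTwistedSystem (liftSub q K) χ a S g)
    (hqN : q ∣ N₀) (hq2 : ¬ q ^ 2 ∣ N₀) (h1 : qCoeff g q ^ 2 = 1)
    {eps : ℂ} (he : eps * eps = 1) (hW : wOp ℂ h (hK.liftSub h) φ = eps • φ) :
    qCoeff g q = -eps := by
  have hcor := (corDeg_eq_zero_of_special h hsq hK.neg_one_mem hodd hS hχ hφ hdia hT hg hsys hqN hq2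
    h1).1
  obtain ⟨N, G, hN, hqG, hqG2, hG, hGsys, hGq⟩ :=
    exists_eigenform_of_corDeg_eq_zero h hsq hK hodd hS hχ hφ hne hdia hT hcor he hW
  have : NeZero N := ⟨fun h0 => (pow_ne_zero 2 (NeZero.ne (M * q)))
    (Nat.eq_zero_of_zero_dvd (h0 ▸ hN))⟩
  have hsame : SameSystem g G S := fun ℓ hℓ hℓS => by
    have hv := (ZMod.isUnit_iff_coprime ℓ (M * q)).2
      (hℓ.coprime_iff_not_dvd.2 fun hd => hℓS (hS ℓ hℓ hd))
    rw [hsys ℓ hℓ hℓS hv.unit hv.unit_spec, hGsys ℓ hℓ hℓS hv.unit hv.unit_spec]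
  rw [hsame.qCoeff_special hg hG h.prime hqN hq2 hqG hqG2 h1, hGq]

end Fermat.Agent.Lifting.Eigen
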