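import Fermat.Agent.Lifting.Eigen.CommonEigen
import Fermat.Agent.Lifting.Eigen.Sign
import Fermat.Agent.Lifting.Assembly.WAlg
import Fermat.Agent.Lifting.Module.Parabolic

/-!
# The sign at a raised prime of the forms of the raised algebra

At a prime `q` of `T` whose component lies in `K`, a form special at `q` with the system of a
complex point of `WAlg` has coefficient `- eps q` at `q`.
-/

set_option autoImplicit false
set_option linter.overlappingInstances false
set_option linter.style.haveILetI false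

noncomputable section

namespace Fermat.Agent.Lifting.Eigen

open IsLocalRing MvPolynomial CongruenceSubgroup ModularFormClass
open ModularCurve.Period
open Fermat.Agent.RT.GammaH
open Fermat.Agent.RT.Lift (liftSub)
open Fermat.Agent.Lifting.Degeneracy
open Fermat.Agent.Lifting.Module (systemChar coe_systemChar systemChar_of_mem systemVal
  systemVal_eq mem_parabolicHoms_of_localizer)
open Fermat.Agent.Lifting.Assembly (WAlg twHom twHom_smul_mem coprime_level)

variable {O : Type} [CommRing O] [IsDomain O] [IsDiscreteValuationRing O] [Algebra O ℂ]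

omit [IsDomain O] [IsDiscreteValuationRing O] in
theorem toHomC_wOpH {N q M e : ℕ} {S : Finset ℕ} {K : Subgroup (ZMod N)ˣ} (h : ALLevel N q M)
    (hK : TwistSub N K e) (x : HomMod O S K O) :
    wOp ℂ h hK (toHomC x) = toHomC (wOpH O S h hK x) :=
  opOf_comp_coeff (R := O) (S := ℂ) (admissible_alSet h hK (wElt_mem h K e))
    (Algebra.linearMap O ℂ).toAddMonoidHom _

omit [IsDomain O] [IsDiscreteValuationRing O] in
/-- The involution commutes with the operators when the component at `q` lies in `K`. -/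
theorem wOp_opC {N q M e : ℕ} {S : Finset ℕ} {K : Subgroup (ZMod N)ˣ} (h : ALLevel N q M)
    (hK : TwistSub N K e) (hS : ∀ v : ℕ, v.Prime → v ∣ N → v ∈ S)
    (hfull : ∀ u : (ZMod N)ˣ, h.toM u = 1 → u ∈ K) (a : OpRing O N S) (φ : HomC K) :
    wOp ℂ h hK (opC O S K a φ) = opC O S K a (wOp ℂ h hK φ) := by
  have hdia : ∀ (u : (ZMod N)ˣ) (ψ : HomC K), wOp ℂ h hK (diamond N K ℂ u ψ) = diamond N K ℂ u (wOp ℂ h hK ψ) :=
    fun u ψ => by
      have hmem : u⁻¹ * h.iota u ∈ K :=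
        hfull _ (by rw [map_mul, map_inv, h.toM_iota, inv_mul_cancel])
      rw [wOp_diamond, show h.iota u = u * (u⁻¹ * h.iota u) by rw [mul_inv_cancel_left],
        diamond_mul, diamond_of_mem ℂ hmem]
  induction a using MvPolynomial.induction_on generalizing φ with
  | C c => rw [opC_C, Module.algebraMap_end_apply, map_smul, Module.algebraMap_end_apply]
  | add a b ha hb => rw [map_add, LinearMap.add_apply, map_add, ha, hb, LinearMap.add_apply]
  | mul_X a i ih =>
    rw [map_mul, Module.End.mul_apply, Module.End.mul_apply, ih]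
    congr 1
    rcases i with u | ℓ
    · rw [opC_inl, hdia]
    · have : Fact ℓ.1.Prime := ⟨ℓ.2.1⟩
      have hℓN : ℓ.1.Coprime N :=
        (ℓ.2.1.coprime_iff_not_dvd).2 fun hd => ℓ.2.2 (hS ℓ.1 ℓ.2.1 hd)
      have hh : ∀ ψ : HomC K, hecke N K ℓ.1 ℂ ψ =
          diamond N K ℂ (ZMod.unitOfCoprime ℓ.1 hℓN ^ e)⁻¹ (twHecke ℂ N K e hℓN ψ) := fun ψ => by
        rw [twHecke, Module.End.mul_apply, ← diamond_mul, inv_mul_cancel,
          diamond_of_mem ℂ (one_mem K)]
      rw [opC_inr, hh, hdia, wOp_twHecke, ← hh]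

omit [IsDomain O] [IsDiscreteValuationRing O] [Algebra O ℂ] in
/-- The two exponents of the twist agree on a character trivial on `K`. -/
theorem pow_twistExp_eq {N e : ℕ} {K : Subgroup (ZMod N)ˣ} (hK : TwistSub N K e)
    (hodd : Odd (Nat.card ((ZMod N)ˣ ⧸ K))) (χ : (ZMod N)ˣ →* ℂˣ) (hχ : ∀ u ∈ K, χ u = 1)
    (u : (ZMod N)ˣ) : χ u ^ e = χ u ^ twistExp K := by
  refine pow_eq_pow_of_pow_eq_one (by rw [← map_pow]; exact hχ _ (hK.pow u)) ?_
  obtain ⟨k, hk⟩ := hodd
  rw [← map_pow]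
  refine hχ _ ?_
  rw [show 2 * twistExp K + 1 = Nat.card ((ZMod N)ˣ ⧸ K) by rw [twistExp, hk]; omega,
    ← QuotientGroup.eq_one_iff, QuotientGroup.mk_pow, pow_card_eq_one']

variable [IsAdicComplete (maximalIdeal O) O] {N q M e : ℕ} [NeZero N]
  {S : Finset ℕ} (hS : ∀ v : ℕ, v.Prime → v ∣ N → v ∈ S) (abar : ℕ → ResidueField O)
  {K : Subgroup (ZMod N)ˣ} (hK : TwistSub N K e) (T : Finset ℕ) (eps : ℕ → O)

/-- A complex eigenclass with the system of a point of the raised algebra. -/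
theorem exists_eigenclass_of_point (hinj : Function.Injective (algebraMap O ℂ))
    (hsq : Squarefree N)
    (hEis : ∃ ℓ : ℕ, ℓ.Prime ∧ ℓ ∉ S ∧ abar ℓ ≠ 1 + (ℓ : ResidueField O))
    (hqT : q ∈ T) (h : ALLevel N q M) (hfull : ∀ u : (ZMod N)ˣ, h.toM u = 1 → u ∈ K)
    (y : WAlg hS abar hK T eps →ₐ[O] ℂ) :
    ∃ (χ : (ZMod N)ˣ →* ℂˣ) (a : ℕ → ℂ) (φ : HomC K), φ ≠ 0 ∧
      φ ∈ parabolicHoms ℂ (gammaH N K) ℂ ∧ (∀ u ∈ K, χ u = 1) ∧
      (∀ u, diamond N K ℂ u φ = (χ u : ℂ) • φ) ∧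
      (∀ (ℓ : ℕ) [Fact ℓ.Prime], ℓ ∉ S → hecke N K ℓ ℂ φ = a ℓ • φ) ∧
      wOp ℂ h hK φ = algebraMap O ℂ (eps q) • φ ∧
      ∀ ℓ : ℕ, ℓ.Prime → ℓ ∉ S → ∀ u : (ZMod N)ˣ, (u : ZMod N) = (ℓ : ZMod N) →
        y (WAlg.op hS abar hK T eps ℓ) = (χ u : ℂ) ^ e * a ℓ := by
  classical
  have : FaithfulSMul O ℂ := (faithfulSMul_iff_algebraMap_injective O ℂ).2 hinj
  set V := wEigen S abar hK T eps
  let bs := Module.Free.chooseBasis O V
  let toMat := LinearMap.toMatrixAlgEquiv bs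
  let r : WAlg hS abar hK T eps →ₐ[O] Matrix _ _ O :=
    toMat.toAlgHom.comp (WAlg.toEnd hS abar hK T eps)
  obtain ⟨z, hz0, hz⟩ := exists_eigvec_algHom hinj r
    (toMat.injective.comp (WAlg.toEnd_injective hS abar hK T eps)) y
  set vv : _ → HomC K := fun i => toHomC ((bs i : V) : HomMod O S K O) with hvv
  have hli : LinearIndependent ℂ vv := by
    obtain ⟨nc, γ, hγ⟩ := exists_coords (K := K)
    let ev : HomMod O S K O →ₗ[O] (Fin nc → O) :=
      { toFun := fun φ i => φ (γ i)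
        map_add' := fun _ _ => rfl
        map_smul' := fun _ _ => rfl }
    let evC : HomC K →ₗ[ℂ] (Fin nc → ℂ) :=
      { toFun := fun φ i => φ (γ i)
        map_add' := fun _ _ => rfl
        map_smul' := fun _ _ => rfl }
    have hev : Function.Injective ev := fun φ ψ h => hγ O φ ψ (congrFun h)
    exact LinearIndependent.of_comp evC ((linearIndependent_algebraMap_comp_iff (S := ℂ)).2
      (bs.linearIndependent.map' (ev.comp V.subtype)
        (LinearMap.ker_eq_bot.2 (hev.comp Subtype.val_injective))))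
  set w := ∑ i, z i • vv i
  have hw0 : w ≠ 0 := fun h0 =>
    hz0 (funext fun i => Fintype.linearIndependent_iff.1 hli z h0 i)
  have hwa : ∀ a : Assembly.TwRing O S,
      opC O S K (twHom O hS e a) w = y (Ideal.Quotient.mk _ a) • w := by
    intro a
    set t : WAlg hS abar hK T eps := Ideal.Quotient.mk _ a
    have hcol : ∀ j, opC O S K (twHom O hS e a) (vv j) =
        ∑ i, algebraMap O ℂ (r t i j) • vv i := fun j => by
      have hb : twHom O hS e a • ((bs j : V) : HomMod O S K O) =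
          ∑ i, r t i j • ((bs i : V) : HomMod O S K O) := by
        have hh := congrArg V.subtype (bs.sum_repr (t • bs j)).symm
        rw [map_sum] at hh
        refine hh.trans (Finset.sum_congr rfl fun i _ => ?_)
        rw [map_smul]
        exact congrArg (· • ((bs i : V) : HomMod O S K O))
          (LinearMap.toMatrixAlgEquiv_apply bs (WAlg.toEnd hS abar hK T eps t) i j).symm
      rw [hvv, ← toHomC_smul, hb, map_sum]
      refine Finset.sum_congr rfl fun i _ => ?_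
      rw [map_smul, smul_homC]
    calc opC O S K (twHom O hS e a) w
        = ∑ j, z j • ∑ i, algebraMap O ℂ (r t i j) • vv i := by simp only [w, map_sum, map_smul, hcol]
      _ = ∑ i, (∑ j, algebraMap O ℂ (r t i j) * z j) • vv i := by
          simp only [Finset.smul_sum, Finset.sum_smul, smul_smul]
          rw [Finset.sum_comm]
          simp only [mul_comm (z _)]
      _ = y t • w := by
          simp only [w, Finset.smul_sum, smul_smul]
          exact Finset.sum_congr rfl fun i _ => congrArg (· • vv i) (congrFun (hz t) i)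
  have hwW : wOp ℂ h hK w = algebraMap O ℂ (eps q) • w := by
    simp only [w, map_sum, Finset.smul_sum, map_smul, hvv, toHomC_wOpH]
    refine Finset.sum_congr rfl fun i _ => ?_
    rw [(bs i).2.2 q hqT M h, map_smul, smul_homC (eps q), smul_comm]
  have he := isLocalizer_locElt O S abar K
  have hwe : opC O S K (locElt O S abar K) w = w := by
    simp only [w, map_sum, map_smul, hvv, ← toHomC_smul]
    refine Finset.sum_congr rfl fun i _ => ?_
    rw [(bs i).2.1]
  have hneg := hK.neg_one_mem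
  have hwp : w ∈ parabolicHoms ℂ (gammaH N K) ℂ :=
    mem_parabolicHoms_of_localizer hsq hneg hS hEis he hwe
  -- the stable subspace
  let W : Submodule ℂ (parabolicHoms ℂ (gammaH N K) ℂ) :=
    { carrier := {v | wOp ℂ h hK v.1 = algebraMap O ℂ (eps q) • v.1 ∧
        ∀ a, opC O S K (twHom O hS e a) v.1 = y (Ideal.Quotient.mk _ a) • v.1}
      zero_mem' := ⟨by simp, fun a => by simp⟩
      add_mem' := fun {a b} ha hb => ⟨by simp [ha.1, hb.1], fun c => by simp [ha.2, hb.2]⟩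
      smul_mem' := fun c a ha => ⟨by simp [ha.1, smul_comm c],
        fun x => by simp [ha.2, smul_comm c]⟩ }
  let ρ : OpRing O N S →+* Module.End ℂ (parabolicHoms ℂ (gammaH N K) ℂ) :=
    { toFun := opPar hneg
      map_one' := LinearMap.ext fun v => Subtype.ext (by rw [coe_opPar, map_one]; rfl)
      map_mul' := fun a b => LinearMap.ext fun v => Subtype.ext (by rw [coe_opPar, map_mul]; rfl)
      map_zero' := LinearMap.ext fun v => Subtype.ext (by rw [coe_opPar, map_zero]; rfl)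
      map_add' := fun a b => LinearMap.ext fun v => Subtype.ext (by
        rw [coe_opPar, map_add]; rfl) }
  have := finiteDimensional_parabolicHoms (M := N) hneg
  obtain ⟨θ', v, hv, hv0, heig⟩ := HeckeDuality.exists_eigenCharacter ρ W
    (fun hbot => hw0 (by
      have : (⟨w, hwp⟩ : parabolicHoms ℂ (gammaH N K) ℂ) ∈ W := ⟨hwW, hwa⟩
      rw [hbot, Submodule.mem_bot] at this
      exact congrArg Subtype.val this))
    (fun a v hv => ⟨by
      show wOp ℂ h hK (opC O S K a v.1) = _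
      rw [wOp_opC h hK hS hfull, hv.1, map_smul]
      rfl, fun x => by
      show opC O S K _ (opC O S K a v.1) = _
      rw [← Module.End.mul_apply, ← map_mul, mul_comm, map_mul, Module.End.mul_apply, hv.2,
        map_smul]
      rfl⟩)
  have hφ0 : v.1 ≠ 0 := fun h0 => hv0 (Subtype.ext h0)
  have heig' : ∀ a, opC O S K a v.1 = θ' a • v.1 := fun a => congrArg Subtype.val (heig a)
  let θ : OpRing O N S →ₐ[O] ℂ := { θ' with
    commutes' := fun c => smul_left_injective ℂ hφ0 ((heig' (C c)).symm.trans (by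
      rw [opC_C, Module.algebraMap_end_apply])) }
  refine ⟨systemChar S θ hφ0 heig', systemVal S θ, v.1, hφ0, v.2,
    fun u hu => systemChar_of_mem S θ hφ0 heig' hu, fun u => ?_, fun ℓ hℓ hℓS => ?_, hv.1,
    fun ℓ hℓ hℓS u hu => ?_⟩
  · rw [coe_systemChar, ← opC_inl (O := O) (S := S)]
    exact heig' _
  · rw [systemVal_eq S θ ⟨ℓ, hℓ.out, hℓS⟩, ← opC_inr (O := O) (S := S) ⟨ℓ, hℓ.out, hℓS⟩]
    exact heig' _
  · have e1 := hv.2 (X ⟨ℓ, hℓ, hℓS⟩)
    rw [heig', twHom, aeval_X, ← WAlg.op_eq] at e1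
    have e2 : θ (twEl O N S e ⟨ℓ, hℓ, hℓS⟩ (coprime_level hS ⟨ℓ, hℓ, hℓS⟩)) =
        y (WAlg.op hS abar hK T eps ℓ) := smul_left_injective ℂ hφ0 e1
    rw [← e2, twEl, map_mul, systemVal_eq S θ ⟨ℓ, hℓ, hℓS⟩, ← Units.val_pow_eq_pow_val, ← map_pow,
      coe_systemChar]
    have hu' : ZMod.unitOfCoprime ℓ (coprime_level hS ⟨ℓ, hℓ, hℓS⟩) = u :=
      Units.ext (by rw [ZMod.coe_unitOfCoprime, hu])
    rw [hu']

/-- **The sign at a raised prime.** -/
theorem qCoeff_eq_neg_eps_of_point (hinj : Function.Injective (algebraMap O ℂ))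
    (hsq : Squarefree N) (hodd : Odd (Nat.card ((ZMod N)ˣ ⧸ K)))
    (hEis : ∃ ℓ : ℕ, ℓ.Prime ∧ ℓ ∉ S ∧ abar ℓ ≠ 1 + (ℓ : ResidueField O))
    (hqT : q ∈ T) (h : ALLevel N q M) (hfull : ∀ u : (ZMod N)ˣ, h.toM u = 1 → u ∈ K)
    (heps : eps q * eps q = 1) (y : WAlg hS abar hK T eps →ₐ[O] ℂ) {N₀ : ℕ} [NeZero N₀]
    {g : CuspForm (Gamma0 N₀) 2} (hg : g.IsNormalizedEigenform) (hqN : q ∣ N₀)
    (hq2 : ¬ q ^ 2 ∣ N₀) (h1 : qCoeff g q ^ 2 = 1)
    (hy : ∀ ℓ : ℕ, ℓ.Prime → ℓ ∉ S → qCoeff g ℓ = y (WAlg.op hS abar hK T eps ℓ)) :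
    qCoeff g q = -algebraMap O ℂ (eps q) := by
  obtain ⟨χ, a, φ, hφ0, hφ, hχ, hdia, hT, hW, hval⟩ :=
    exists_eigenclass_of_point hS abar hK T eps hinj hsq hEis hqT h hfull y
  have hsys : IsTwistedSystem K χ a S g := fun ℓ hℓ hℓS u hu => by
    rw [hy ℓ hℓ hℓS, hval ℓ hℓ hℓS u hu, ← Units.val_pow_eq_pow_val,
      pow_twistExp_eq hK hodd χ hχ u, Units.val_pow_eq_pow_val]
  obtain rfl : N = M * q := h.eq
  have : NeZero M := ⟨h.raise.level_ne_zero⟩
  have : Fact q.Prime := ⟨h.prime⟩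
  obtain ⟨K₁, hK₁, rfl⟩ : ∃ K₁ : Subgroup (ZMod M)ˣ, TwistSub M K₁ e ∧ K = liftSub q K₁ := by
    refine ⟨K.map h.toM, hK.map_toM h, le_antisymm (TwistSub.le_liftSub h) ?_⟩
    rintro u ⟨k, hk, hku⟩
    rw [show u = k * (k⁻¹ * u) by rw [mul_inv_cancel_left]]
    refine mul_mem hk (hfull _ ?_)
    rw [map_mul, map_inv, hku]
    exact inv_mul_cancel _
  exact qCoeff_eq_neg_sign h hsq hK₁ (by rwa [card_quotient_liftSub] at hodd) hS hχ hφ hφ0 hdia
    hT hg hsys hqN hq2 h1 (by rw [← map_mul, heps, map_one]) hW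

/-- The sign at a raised prime of the newform of a point. -/
theorem newform_qCoeff_eq_neg_eps (hinj : Function.Injective (algebraMap O ℂ))
    (hsq : Squarefree N) (hodd : Odd (Nat.card ((ZMod N)ˣ ⧸ K)))
    (hEis : ∃ ℓ : ℕ, ℓ.Prime ∧ ℓ ∉ S ∧ abar ℓ ≠ 1 + (ℓ : ResidueField O))
    (hqT : q ∈ T) (h : ALLevel N q M) (hfull : ∀ u : (ZMod N)ˣ, h.toM u = 1 → u ∈ K)
    (heps : eps q * eps q = 1) (y : WAlg hS abar hK T eps →ₐ[O] ℂ) {N₀ : ℕ} [NeZero N₀]
    {g : CuspForm (Gamma0 N₀) 2} (hg : g.IsNewform) (hqN : q ∣ N₀) (hq2 : ¬ q ^ 2 ∣ N₀)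
    (hy : ∀ ℓ : ℕ, ℓ.Prime → ℓ ∉ S → qCoeff g ℓ = y (WAlg.op hS abar hK T eps ℓ)) :
    qCoeff g q = -algebraMap O ℂ (eps q) :=
  qCoeff_eq_neg_eps_of_point hS abar hK T eps hinj hsq hodd hEis hqT h hfull heps y hg.1 hqN hq2
    (Newforms.qCoeff_sq_eq_one hg h.prime hqN hq2) hy

end Fermat.Agent.Lifting.Eigen
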