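import Fermat.Agent.Newforms.LevelRaiseEigen
import Fermat.Agent.RT.GammaH.Twist
import Fermat.Agent.RT.GammaH.EigenLevel

/-!
# Forms supported on the multiples of finitely many primes

A form on `Γ₀(q R)` supported on the multiples of `q` is the level raising of a form on `Γ₀(R)`;
for `q ∤ N` a form on `Γ₀(N)` with this property vanishes. Consequently the coefficients prime to
the level are determined by those prime to any bigger integer.
-/

set_option autoImplicit false

noncomputable section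

open CongruenceSubgroup UpperHalfPlane ModularFormClass Matrix.SpecialLinearGroup
open scoped MatrixGroups ModularForm

namespace Fermat.Agent.Lifting.Eigen

open Fermat.Agent.Newforms (hOp levelRaise levelIncl mkCusp mem_gamma0_iff_dvd)
open Fermat.Agent.RT.GammaH (IsNeb HasCoeff isNeb_cuspForm transl translQ exists_deplete)

variable {N R q : ℕ}

theorem hasCoeff_cuspForm [NeZero N] (f : CuspForm (Gamma0 N) 2) : HasCoeff f (qCoeff f) :=
  fun τ => Newforms.hasSum_qCoeff f τ

/-- A function supported on the multiples of `q` is periodic of period `1 / q`. -/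
theorem slash_transl_of_supported {f : ℍ → ℂ} {a : ℕ → ℂ} (hq : q ≠ 0) (ha : HasCoeff f a)
    (hsupp : ∀ n, ¬ q ∣ n → a n = 0) (j : ℤ) : f ∣[(2 : ℤ)] transl q j = f := by
  refine HasCoeff.ext (fun τ => ?_) ha
  rw [transl, translQ, DeligneSerre.slash_ratShift_apply]
  refine (ha _).congr_fun fun n => ?_
  by_cases hn : q ∣ n
  · obtain ⟨k, rfl⟩ := hn
    have hp : Function.Periodic.qParam 1 (((((j : ℚ) / q : ℚ) : ℝ) +ᵥ τ : ℍ) : ℂ) ^ (q * k) =
        Function.Periodic.qParam 1 (τ : ℂ) ^ (q * k) := by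
      rw [pow_mul, pow_mul]
      congr 1
      rw [Function.Periodic.qParam, Function.Periodic.qParam, ← Complex.exp_nat_mul,
        ← Complex.exp_nat_mul, Complex.exp_eq_exp_iff_exists_int]
      refine ⟨j, ?_⟩
      have hq0 : (q : ℂ) ≠ 0 := Nat.cast_ne_zero.2 hq
      rw [coe_vadd]
      push_cast
      field_simp
      ring
    rw [hp]
  · rw [hsupp n hn, zero_mul, zero_mul]

/-- `f|(1 0; 0 q)` is invariant under `Γ₀(R)`. -/
theorem slash_heckeMatrix_zero_inv [NeZero (q * R)] (hq : q.Prime) (f : CuspForm (Gamma0 (q * R)) 2)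
    (hsupp : ∀ n, ¬ q ∣ n → qCoeff f n = 0) {γ : SL(2, ℤ)} (hγ : γ ∈ Gamma0 R) :
    (⇑f ∣[(2 : ℤ)] ModularForm.heckeMatrix q 0) ∣[(2 : ℤ)] γ =
      ⇑f ∣[(2 : ℤ)] ModularForm.heckeMatrix q 0 := by
  set h := ⇑f ∣[(2 : ℤ)] ModularForm.heckeMatrix q 0 with hh
  have hq0 := hq.ne_zero
  have hV : ∀ (g : SL(2, ℤ)) (i j : Fin 2),
      ((mapGL ℝ g : GL (Fin 2) ℝ) : Matrix (Fin 2) (Fin 2) ℝ) i j = ((g i j : ℤ) : ℝ) :=
    fun g i j => by simp
  -- the translations
  have hT : ∀ i : ℤ, h ∣[(2 : ℤ)] ((ModularGroup.T ^ i : SL(2, ℤ))) = h := by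
    intro i
    have he : ModularForm.heckeMatrix q 0 * mapGL ℝ (ModularGroup.T ^ i) =
        transl q i * ModularForm.heckeMatrix q 0 := by
      refine Units.ext ?_
      rw [Units.val_mul, Units.val_mul, RT.GammaH.val_transl, ModularForm.val_heckeMatrix hq0]
      ext a b
      simp only [Matrix.mul_apply, Fin.sum_univ_two, hV, ModularGroup.coe_T_zpow]
      fin_cases a <;> fin_cases b <;> simp [hq0]
    rw [hh, ModularForm.SL_slash, ← SlashAction.slash_mul]
    show ⇑f ∣[(2 : ℤ)] (ModularForm.heckeMatrix q 0 * mapGL ℝ (ModularGroup.T ^ i)) = _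
    rw [he, SlashAction.slash_mul, slash_transl_of_supported hq0 (hasCoeff_cuspForm f) hsupp]
  -- matrices with `q ∣ b`
  have hB : ∀ δ : SL(2, ℤ), (R : ℤ) ∣ δ 1 0 → (q : ℤ) ∣ δ 0 1 → h ∣[(2 : ℤ)] δ = h := by
    rintro δ hc ⟨b, hb⟩
    have hdet := Matrix.det_fin_two (δ : Matrix (Fin 2) (Fin 2) ℤ)
    rw [δ.det_coe] at hdet
    let δ' : SL(2, ℤ) := ⟨!![δ 0 0, b; q * δ 1 0, δ 1 1], by
      rw [Matrix.det_fin_two_of]; rw [hb] at hdet; linear_combination -hdet⟩
    have he : ModularForm.heckeMatrix q 0 * mapGL ℝ δ =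
        mapGL ℝ δ' * ModularForm.heckeMatrix q 0 := by
      ext i j
      rw [Units.val_mul, Units.val_mul]
      simp only [Matrix.mul_apply, Fin.sum_univ_two, hV, ModularForm.val_heckeMatrix hq0]
      fin_cases i <;> fin_cases j <;> simp [δ', hb, mul_comm]
    rw [hh, ModularForm.SL_slash, ← SlashAction.slash_mul]
    show ⇑f ∣[(2 : ℤ)] (ModularForm.heckeMatrix q 0 * mapGL ℝ δ) = _
    rw [he, SlashAction.slash_mul]
    congr 1
    refine Newforms.slash_gamma0_eq f (mem_gamma0_iff_dvd.2 ?_)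
    simp only [δ', Matrix.of_apply, Matrix.cons_val', Matrix.cons_val_zero,
      Matrix.cons_val_one, Nat.cast_mul]
    exact mul_dvd_mul_left _ hc
  -- the decomposition
  set a := γ 0 0 with ha
  set c := γ 1 0 with hc
  have hdet := Matrix.det_fin_two (γ : Matrix (Fin 2) (Fin 2) ℤ)
  rw [γ.det_coe] at hdet
  obtain ⟨i, hi⟩ : ∃ i : ℤ, ¬ (q : ℤ) ∣ a + i * c := by
    by_cases hqa : (q : ℤ) ∣ a
    · refine ⟨1, fun hd => ?_⟩
      rw [one_mul] at hd
      have hqc : (q : ℤ) ∣ c := (dvd_add_right hqa).1 hd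
      refine (Nat.prime_iff_prime_int.1 hq).not_dvd_one ?_
      rw [hdet]
      exact dvd_sub (hqa.mul_right _) (hqc.mul_left _)
    · exact ⟨0, by simpa using hqa⟩
  obtain ⟨x, y, hxy⟩ := (Prime.coprime_iff_not_dvd (Nat.prime_iff_prime_int.1 hq)).2 hi
  set k : ℤ := -(y * (γ 0 1 + i * γ 1 1)) with hk
  set δ := ModularGroup.T ^ i * γ * ModularGroup.T ^ k with hδ
  have hδ10 : δ 1 0 = c := by
    rw [hδ, Matrix.SpecialLinearGroup.coe_mul, Matrix.SpecialLinearGroup.coe_mul]
    simp only [Matrix.mul_apply, Fin.sum_univ_two, ModularGroup.coe_T_zpow]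
    simp [hc]
  have hδ01 : (q : ℤ) ∣ δ 0 1 := by
    refine ⟨x * (γ 0 1 + i * γ 1 1), ?_⟩
    rw [hδ, Matrix.SpecialLinearGroup.coe_mul, Matrix.SpecialLinearGroup.coe_mul]
    simp only [Matrix.mul_apply, Fin.sum_univ_two, ModularGroup.coe_T_zpow]
    simp [← ha, ← hc, hk]
    linear_combination -(γ 0 1 + i * γ 1 1) * hxy
  have hγ' : γ = ModularGroup.T ^ (-i) * δ * ModularGroup.T ^ (-k) := by
    rw [hδ]; group
  rw [hγ', SlashAction.slash_mul, SlashAction.slash_mul, hT,
    hB δ (hδ10 ▸ mem_gamma0_iff_dvd.1 hγ) hδ01, hT]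

/-- A form on `Γ₀(q R)` supported on the multiples of `q` comes from level `R`. -/
theorem exists_form_of_supported [NeZero R] [NeZero (q * R)] (hq : q.Prime)
    (f : CuspForm (Gamma0 (q * R)) 2) (hsupp : ∀ n, ¬ q ∣ n → qCoeff f n = 0) :
    ∃ h : CuspForm (Gamma0 R) 2, (∀ n, qCoeff h n = qCoeff f (n * q)) ∧
      f = levelRaise q dvd_rfl h := by
  have hq0 := hq.ne_zero
  have hU : ModularForm.heckeU 2 q ⇑f = (q : ℂ) • (⇑f ∣[(2 : ℤ)] ModularForm.heckeMatrix q 0) := by
    have hterm : ∀ j : ℕ, ⇑f ∣[(2 : ℤ)] ModularForm.heckeMatrix q j =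
        ⇑f ∣[(2 : ℤ)] ModularForm.heckeMatrix q 0 := fun j => by
      have he : ModularForm.heckeMatrix q j =
          transl q (j : ℤ) * ModularForm.heckeMatrix q 0 := by
        refine Units.ext ?_
        rw [Units.val_mul, RT.GammaH.val_transl, ModularForm.val_heckeMatrix hq0,
          ModularForm.val_heckeMatrix hq0]
        ext a b
        fin_cases a <;> fin_cases b <;> simp [Matrix.mul_apply, Fin.sum_univ_two, hq0]
      rw [he, SlashAction.slash_mul, slash_transl_of_supported hq0 (hasCoeff_cuspForm f) hsupp]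
    unfold ModularForm.heckeU
    simp only [hterm, Finset.sum_const, Finset.card_range, ← Nat.cast_smul_eq_nsmul ℂ]
  let h : CuspForm (Gamma0 R) 2 := mkCusp
    ((q : ℂ) • (⇑f ∣[(2 : ℤ)] ModularForm.heckeMatrix q 0))
    (fun γ hγ => by rw [ModularForm.SL_smul_slash, slash_heckeMatrix_zero_inv hq f hsupp hγ])
    (((Newforms.heckeMatrix_eq_ratGL hq0 0) ▸ (Newforms.isCuspFn_cuspForm f).slash _).smul _)
  have hh : ∀ n, qCoeff h n = qCoeff f (n * q) := fun n => by
    refine Newforms.qCoeff_eq_of_hasSum h (c := fun n => qCoeff f (n * q)) (fun τ => ?_) n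
    have := (isNeb_cuspForm f).hasCoeff_heckeU (one_dvd _) (hasCoeff_cuspForm f) hq0 τ
    rw [hU] at this
    exact this
  refine ⟨h, hh, Newforms.eq_of_forall_qCoeff fun n => ?_⟩
  rw [Newforms.qCoeff_levelRaise, hh]
  split_ifs with hn
  · rw [Nat.div_mul_cancel hn]
  · exact hsupp n hn

/-- For `p ∤ N` a form supported on the multiples of `p` vanishes. -/
theorem eq_zero_of_supported_prime [NeZero N] {p : ℕ} (hp : p.Prime) (hpN : ¬ p ∣ N)
    (f : CuspForm (Gamma0 N) 2) (hsupp : ∀ n, ¬ p ∣ n → qCoeff f n = 0) : f = 0 := by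
  have := IntegralStructure.finiteDimensional_cuspForm N
  have : NeZero (p * N) := ⟨mul_ne_zero hp.ne_zero (NeZero.ne N)⟩
  let W : Submodule ℂ (CuspForm (Gamma0 N) 2) :=
    { carrier := {g | ∀ n, ¬ p ∣ n → qCoeff g n = 0}
      zero_mem' := fun n _ => (Newforms.coeffLin (N := N) (k := 2) n).map_zero
      add_mem' := fun {x y} hx hy n hn => by rw [Newforms.qCoeff_add, hx n hn, hy n hn, add_zero]
      smul_mem' := fun c x hx n hn => by rw [Newforms.qCoeff_smul, hx n hn, mul_zero] }
  have hex : ∀ g : W, ∃ g' : W, ∀ n,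
      qCoeff (g' : CuspForm (Gamma0 N) 2) n =
        if p ∣ n then qCoeff (g : CuspForm (Gamma0 N) 2) (n / p) else 0 := by
    rintro ⟨g, hg⟩
    obtain ⟨h, hh, -⟩ := exists_form_of_supported (R := N) hp (levelIncl (dvd_mul_left N p) g)
      fun n hn => by rw [Newforms.qCoeff_levelIncl, hg n hn]
    set g' := ((p : ℂ))⁻¹ • (hOp N hp g + (-1 : ℂ) • h) with hg'
    have hc : ∀ n, qCoeff g' n = if p ∣ n then qCoeff g (n / p) else 0 := fun n => by
      have hp0 : (p : ℂ) ≠ 0 := Nat.cast_ne_zero.2 hp.ne_zero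
      rw [hg', Newforms.qCoeff_smul, Newforms.qCoeff_add, Newforms.qCoeff_smul, hh,
        Newforms.qCoeff_levelIncl, HeckeDuality.coeff_heckeOp, HeckeDuality.eulerWeight,
        if_neg hpN]
      split_ifs
      · field_simp; ring
      · simp
    exact ⟨⟨g', fun n hn => by rw [hc, if_neg hn]⟩, hc⟩
  choose φ hφ using hex
  let φl : W →ₗ[ℂ] W :=
    { toFun := φ
      map_add' := fun x y => Subtype.ext (Newforms.eq_of_forall_qCoeff fun n => by
        simp only [Submodule.coe_add, Newforms.qCoeff_add, hφ]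
        split_ifs <;> simp)
      map_smul' := fun c x => Subtype.ext (Newforms.eq_of_forall_qCoeff fun n => by
        simp only [RingHom.id_apply, Submodule.coe_smul, Newforms.qCoeff_smul, hφ]
        split_ifs <;> simp) }
  have hinj : Function.Injective φl := fun x y hxy => Subtype.ext (Newforms.eq_of_forall_qCoeff
    fun n => by
      have h1 := congrArg (fun z : W => qCoeff (z : CuspForm (Gamma0 N) 2) (p * n)) hxy
      simpa [φl, hφ, Nat.mul_div_cancel_left _ hp.pos] using h1)
  have hsurj := LinearMap.surjective_of_injective hinj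
  have key : ∀ n, ∀ g : W, qCoeff (g : CuspForm (Gamma0 N) 2) n = 0 := by
    intro n
    induction n using Nat.strong_induction_on with
    | h n ih =>
      intro g
      rcases Nat.eq_zero_or_pos n with rfl | hn
      · exact Newforms.qCoeff_zero_eq _
      obtain ⟨g', rfl⟩ := hsurj g
      show qCoeff (φ g' : CuspForm (Gamma0 N) 2) n = 0
      rw [hφ]
      split_ifs
      · exact ih _ (Nat.div_lt_self hn hp.one_lt) g'
      · rfl
  exact Newforms.eq_of_forall_qCoeff fun n =>
    (key n ⟨f, hsupp⟩).trans ((Newforms.coeffLin (N := N) (k := 2) n).map_zero).symm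

/-- Removing the coefficients of index not prime to `r`. -/
theorem exists_deplete_form [NeZero N] {r : ℕ} [NeZero r] (hr : r ∣ N) [NeZero (N * r)]
    (f : CuspForm (Gamma0 N) 2) :
    ∃ F : CuspForm (Gamma0 (N * r)) 2,
      ∀ n, qCoeff F n = if n.Coprime r then qCoeff f n else 0 := by
  obtain ⟨F, hF, hFa, -⟩ := exists_deplete hr (one_dvd _) (isNeb_cuspForm f) (hasCoeff_cuspForm f)
  refine ⟨mkCusp F (fun γ hγ => hF.slash_eq_of_trivial hγ) hF.cusp, fun n => ?_⟩
  exact Newforms.qCoeff_eq_of_hasSum _ (c := fun n => if n.Coprime r then qCoeff f n else 0)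
    (fun τ => hFa τ) n

/-- A form whose coefficients vanish at the indices prime to a set of primes not dividing the
level vanishes. -/
theorem eq_zero_of_supported_primes (s : Finset ℕ) (hs : ∀ p ∈ s, p.Prime) :
    ∀ (N : ℕ) [NeZero N], (∀ p ∈ s, ¬ p ∣ N) → ∀ f : CuspForm (Gamma0 N) 2,
      (∀ n, (∀ p ∈ s, ¬ p ∣ n) → qCoeff f n = 0) → f = 0 := by
  classical
  induction s using Finset.induction_on with
  | empty =>
    intro N _ _ f hf
    exact Newforms.eq_of_forall_qCoeff fun n =>
      (hf n (by simp)).trans ((Newforms.coeffLin (N := N) (k := 2) n).map_zero).symm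
  | @insert p s hps ih =>
    intro N _ hN f hf
    have hp := hs p (Finset.mem_insert_self p s)
    have : NeZero p := ⟨hp.ne_zero⟩
    have : NeZero (p * N) := ⟨mul_ne_zero hp.ne_zero (NeZero.ne N)⟩
    have : NeZero (p * N * p) := ⟨mul_ne_zero (NeZero.ne _) hp.ne_zero⟩
    obtain ⟨F, hF⟩ := exists_deplete_form (r := p) (dvd_mul_right p N)
      (levelIncl (dvd_mul_left N p) f)
    have hF0 : F = 0 := ih (fun r hr => hs r (Finset.mem_insert_of_mem hr)) (p * N * p)
      (fun r hr => by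
        have hne : ¬ r ∣ p := fun h =>
          hps ((Nat.prime_dvd_prime_iff_eq (hs r (Finset.mem_insert_of_mem hr)) hp).1 h ▸ hr)
        exact (hs r (Finset.mem_insert_of_mem hr)).prime.not_dvd_mul
          ((hs r (Finset.mem_insert_of_mem hr)).prime.not_dvd_mul hne
            (hN r (Finset.mem_insert_of_mem hr))) hne) F fun n hn => by
        rw [hF, Newforms.qCoeff_levelIncl]
        split_ifs with hc
        · refine hf n fun r hr => ?_
          rcases Finset.mem_insert.1 hr with rfl | hr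
          · exact fun h => hp.not_dvd_one (hc ▸ Nat.dvd_gcd h dvd_rfl)
          · exact hn r hr
        · rfl
    refine eq_zero_of_supported_prime hp (hN p (Finset.mem_insert_self p s)) f fun n hn => ?_
    have h := hF n
    rw [hF0, if_pos ((hp.coprime_iff_not_dvd.2 hn).symm), Newforms.qCoeff_levelIncl] at h
    exact h.symm.trans (Newforms.coeffLin (N := p * N * p) (k := 2) n).map_zero

/-- If the coefficients vanish at the indices prime to `N D` they vanish at those prime to `N`. -/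
theorem qCoeff_eq_zero_of_coprime_mul [NeZero N] {D : ℕ} (hD : D ≠ 0)
    (f : CuspForm (Gamma0 N) 2) (hf : ∀ n : ℕ, n.Coprime (N * D) → qCoeff f n = 0) {n : ℕ}
    (hn : n.Coprime N) : qCoeff f n = 0 := by
  classical
  have : NeZero (N * N) := ⟨mul_ne_zero (NeZero.ne N) (NeZero.ne N)⟩
  obtain ⟨F, hF⟩ := exists_deplete_form (r := N) dvd_rfl f
  have hF0 : F = 0 := eq_zero_of_supported_primes (D.primeFactors.filter fun p => ¬ p ∣ N)
    (fun p hp => Nat.prime_of_mem_primeFactors (Finset.mem_filter.1 hp).1) (N * N)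
    (fun p hp h => ((Nat.prime_of_mem_primeFactors (Finset.mem_filter.1 hp).1).dvd_mul.1 h).elim
      (Finset.mem_filter.1 hp).2 (Finset.mem_filter.1 hp).2) F fun m hm => by
      rw [hF]
      split_ifs with hc
      · refine hf m (hc.mul_right (Nat.coprime_of_dvd fun p hp hpm hpD => hm p ?_ hpm))
        exact Finset.mem_filter.2 ⟨Nat.mem_primeFactors.2 ⟨hp, hpD, hD⟩,
          fun h => hp.not_dvd_one (hc ▸ Nat.dvd_gcd hpm h)⟩
      · rfl
  have h := hF n
  rw [hF0, if_pos hn] at h
  exact h.symm.trans (Newforms.coeffLin (N := N * N) (k := 2) n).map_zero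

end Fermat.Agent.Lifting.Eigen
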