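import Fermat.Agent.Lifting.Eigen.Compare
import Fermat.Agent.RT.GammaH.Eigen

/-!
# Parabolic eigenclasses read through the twisted operators

A parabolic eigenclass on `Γ_H` of squarefree level whose twisted system is that of a form of
squarefree level has trivial character; if its character is trivial at `q` and it is an eigenvector
of `U_q`, it gives an eigenform of level exactly divisible by `q`.
-/

set_option autoImplicit false

noncomputable section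

open CongruenceSubgroup ModularFormClass
open ModularCurve.Period
open scoped MatrixGroups ModularForm

namespace Fermat.Agent.Lifting.Eigen

open Fermat.Agent.RT.GammaH

variable {L : ℕ} [NeZero L] {K : Subgroup (ZMod L)ˣ}

/-- The exponent of the twist. -/
abbrev twistExp (K : Subgroup (ZMod L)ˣ) : ℕ := (Nat.card ((ZMod L)ˣ ⧸ K) - 1) / 2

/-- The twisted system of `(χ, a)` is that of `g`. -/
def IsTwistedSystem (K : Subgroup (ZMod L)ˣ) (χ : (ZMod L)ˣ →* ℂˣ) (a : ℕ → ℂ) (S : Finset ℕ)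
    {M : ℕ} (g : CuspForm (Gamma0 M) 2) : Prop :=
  ∀ ℓ : ℕ, ℓ.Prime → ℓ ∉ S → ∀ u : (ZMod L)ˣ, (u : ZMod L) = (ℓ : ZMod L) →
    qCoeff g ℓ = (χ u : ℂ) ^ twistExp K * a ℓ

variable {S : Finset ℕ} {χ : (ZMod L)ˣ →* ℂˣ} {a : ℕ → ℂ}
  {φ : Additive (gammaH L K) →+ ℂ}

theorem qCoeff_formH_prime {f : FormH L K} {lam : ℕ → ℂ} (h1 : qCoeff f 1 = 1)
    (hseq : HeckeDuality.SeqEigen (nebWeight (toDir χ)) lam (qCoeff f)) {p : ℕ} (hp : p.Prime) :
    qCoeff f p = lam p := by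
  have h := hseq p hp 1
  rw [if_neg hp.not_dvd_one, h1, one_mul, add_zero, mul_one] at h
  exact h

/-- The normalised twisted eigenform of an eigenclass. -/
theorem exists_twisted_eigenform (hL : Squarefree L) (hneg : -1 ∈ K)
    (hodd : Odd (Nat.card ((ZMod L)ˣ ⧸ K))) (hS : ∀ v : ℕ, v.Prime → v ∣ L → v ∈ S)
    (hχ : ∀ u ∈ K, χ u = 1) (hφ : φ ∈ parabolicHoms ℂ (gammaH L K) ℂ) (hne : φ ≠ 0)
    (hdia : ∀ u, diamond L K ℂ u φ = (χ u : ℂ) • φ)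
    (hT : ∀ (ℓ : ℕ) [Fact ℓ.Prime], ℓ ∉ S → hecke L K ℓ ℂ φ = a ℓ • φ) :
    ∃ (f : FormH L K) (G : CuspForm (Gamma0 (twistLevel (toDir χ))) 2),
      IsChiForm χ f ∧ G.IsNormalizedEigenform ∧
      (∀ n, qCoeff G n = etaSeq (toDir χ) (twistExp K) n * qCoeff f n) ∧
      IsTwistedSystem K χ a S G := by
  have he : toDir χ ^ (2 * twistExp K + 1) = 1 := toDir_pow_eq_one hχ hodd
  obtain ⟨f, lam, hf, hf1, hseq, -, hla⟩ := exists_eigenForm hneg hφ hne hdia hT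
  obtain ⟨G, hG, hGf⟩ := exists_twist_eigenForm hL he hf hf1 hseq
  refine ⟨f, G, hf, hG, hGf, fun ℓ hℓ hℓS u hu => ?_⟩
  rw [hGf, etaSeq_eq hL hu, toDir_coe, qCoeff_formH_prime hf1 hseq hℓ, hla ℓ hℓ hℓS]

/-- **Trivial nebentypus**: the twisted system of a form of squarefree level forces `χ = 1`. -/
theorem chi_eq_one_of_twistedSystem (hL : Squarefree L) (hneg : -1 ∈ K)
    (hodd : Odd (Nat.card ((ZMod L)ˣ ⧸ K))) (hS : ∀ v : ℕ, v.Prime → v ∣ L → v ∈ S)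
    (hχ : ∀ u ∈ K, χ u = 1) (hφ : φ ∈ parabolicHoms ℂ (gammaH L K) ℂ) (hne : φ ≠ 0)
    (hdia : ∀ u, diamond L K ℂ u φ = (χ u : ℂ) • φ)
    (hT : ∀ (ℓ : ℕ) [Fact ℓ.Prime], ℓ ∉ S → hecke L K ℓ ℂ φ = a ℓ • φ)
    {L₀ : ℕ} (hL₀ : L₀ ∣ L) {g₀ : CuspForm (Gamma0 L₀) 2} (hg₀ : g₀.IsNormalizedEigenform)
    (hsys : IsTwistedSystem K χ a S g₀) : χ = 1 := by
  classical
  have : NeZero L₀ := ⟨fun h => NeZero.ne L (Nat.eq_zero_of_zero_dvd (h ▸ hL₀))⟩
  obtain ⟨f, G, hf, hG, hGf, hGsys⟩ :=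
    exists_twisted_eigenform hL hneg hodd hS hχ hφ hne hdia hT
  have := neZero_twistLevel (χ := toDir χ)
  have he : toDir χ ^ (2 * twistExp K + 1) = 1 := toDir_pow_eq_one hχ hodd
  have hN : L₀ ∣ twistLevel (toDir χ) := hL₀.trans dvd_twistLevel
  have hsame : SameSystem g₀ G S := fun ℓ hℓ hℓS => by
    have hℓL : ¬ ℓ ∣ L := fun h => hℓS (hS ℓ hℓ h)
    have hu := ((ZMod.isUnit_iff_coprime ℓ L).2 (hℓ.coprime_iff_not_dvd.2 hℓL))
    rw [hsys ℓ hℓ hℓS hu.unit hu.unit_spec, hGsys ℓ hℓ hℓS hu.unit hu.unit_spec]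
  have hempty : badPrimes (toDir χ) = ∅ := by
    refine Finset.eq_empty_of_forall_notMem fun v hv => ?_
    obtain ⟨hvp, -, -⟩ := mem_badPrimes.1 hv
    refine hvp.not_isUnit (hL v ?_)
    rw [← pow_two]
    refine (sq_dvd_newform_level hL he hv hf hG hGf hN hg₀ fun ℓ hℓ hℓN => ?_).trans hL₀
    exact hsame.qCoeff_prime hg₀ hG hℓ (fun h => hℓN (h.trans hN)) hℓN
  have hone : toDir χ = 1 := eq_one_of_forall_ker hL (toDir χ) fun v hv hvL u hu => by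
    by_contra h
    exact absurd (mem_badPrimes.2 ⟨hv, hvL, u, (unitsMap_eq_one_iff (Nat.div_dvd_of_dvd hvL) u).1 hu, h⟩) (by simp [hempty])
  refine MonoidHom.ext fun u => Units.ext ?_
  rw [← toDir_coe, hone, MulChar.one_apply_coe]
  rfl

/-- For a character trivial at `q` the twisting sequence at `q` is the power of the value at the
unit congruent to `q` away from `q` and to `1` at `q`. -/
theorem etaSeq_at_prime (hL : Squarefree L) {q : ℕ} (hq : q.Prime) (hqL : q ∣ L)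
    (hqb : q ∉ badPrimes (toDir χ)) (e : ℕ) {u : (ZMod L)ˣ}
    (hu : ((u : ZMod L).cast : ZMod (L / q)) = q) :
    etaSeq (toDir χ) e q = (χ u : ℂ) ^ e := by
  have h : etaSeq (toDir χ) e q = etaSeq (toDir χ) e (u : ZMod L).val := by
    refine Finset.prod_congr rfl fun v hv => ?_
    obtain ⟨hvp, hvL, -⟩ := mem_badPrimes.1 hv
    have hvq : v ∣ L / q := by
      have hne : ¬ v ∣ q := fun h =>
        hqb (((Nat.prime_dvd_prime_iff_eq hvp hq).1 h) ▸ hv)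
      exact ((hvp.coprime_iff_not_dvd.2 hne)).dvd_of_dvd_mul_left
        (by rwa [Nat.mul_div_cancel' hqL])
    congr 1
    have h2 := congrArg (ZMod.castHom hvq (ZMod v)) hu
    rw [map_natCast, ← ZMod.castHom_apply (h := Nat.div_dvd_of_dvd hqL),
      ← RingHom.comp_apply, ZMod.castHom_comp, ZMod.castHom_apply] at h2
    rw [← h2, ZMod.cast_eq_val]
  rw [h, etaSeq_eq hL (u := u) (by rw [ZMod.natCast_val, ZMod.cast_id', id_eq]), toDir_coe]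

/-- **The eigenform of an eigenvector of `U_q`** at a prime `q` at which `χ` is trivial. -/
theorem exists_eigenform_heckeU (hL : Squarefree L) (hneg : -1 ∈ K)
    (hodd : Odd (Nat.card ((ZMod L)ˣ ⧸ K))) (hS : ∀ v : ℕ, v.Prime → v ∣ L → v ∈ S)
    (hχ : ∀ u ∈ K, χ u = 1) (hφ : φ ∈ parabolicHoms ℂ (gammaH L K) ℂ) (hne : φ ≠ 0)
    (hdia : ∀ u, diamond L K ℂ u φ = (χ u : ℂ) • φ)
    (hT : ∀ (ℓ : ℕ) [Fact ℓ.Prime], ℓ ∉ S → hecke L K ℓ ℂ φ = a ℓ • φ)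
    {q : ℕ} [Fact q.Prime] (hqL : q ∣ L)
    (hχq : ∀ u : (ZMod L)ˣ, ((u : ZMod L).cast : ZMod (L / q)) = 1 → χ u = 1)
    {c : ℂ} (hU : hecke L K q ℂ φ = c • φ) :
    ∃ (N : ℕ) (G : CuspForm (Gamma0 N) 2), N ∣ L ^ 2 ∧ q ∣ N ∧ ¬ q ^ 2 ∣ N ∧
      G.IsNormalizedEigenform ∧ IsTwistedSystem K χ a S G ∧
      ∀ u : (ZMod L)ˣ, ((u : ZMod L).cast : ZMod (L / q)) = q →
        qCoeff G q = (χ u : ℂ) ^ twistExp K * c := by
  classical
  have hq : q.Prime := Fact.out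
  set a' : ℕ → ℂ := Function.update a q c with ha'
  have hT' : ∀ (ℓ : ℕ) [Fact ℓ.Prime], ℓ ∉ S.erase q → hecke L K ℓ ℂ φ = a' ℓ • φ := by
    intro ℓ _ hℓ
    rcases eq_or_ne ℓ q with rfl | hne'
    · rw [ha', Function.update_self, hU]
    · rw [ha', Function.update_of_ne hne', hT ℓ fun h => hℓ (Finset.mem_erase.2 ⟨hne', h⟩)]
  have he : toDir χ ^ (2 * twistExp K + 1) = 1 := toDir_pow_eq_one hχ hodd
  obtain ⟨f, lam, hf, hf1, hseq, -, hla⟩ := exists_eigenForm hneg hφ hne hdia hT'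
  obtain ⟨G, hG, hGf⟩ := exists_twist_eigenForm hL he hf hf1 hseq
  have hqb : q ∉ badPrimes (toDir χ) := fun h => by
    obtain ⟨-, -, u, hu, hne'⟩ := mem_badPrimes.1 h
    exact hne' (by rw [toDir_coe, hχq u hu, Units.val_one])
  refine ⟨_, G, twistLevel_dvd_sq, hqL.trans dvd_twistLevel, fun h2 => ?_, hG,
    fun ℓ hℓ hℓS u hu => ?_, fun u hu => ?_⟩
  · have hc : ¬ q ∣ ∏ w ∈ badPrimes (toDir χ), w := by
      rw [hq.prime.dvd_finsetProd_iff]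
      rintro ⟨w, hw, hqw⟩
      exact hqb ((Nat.prime_dvd_prime_iff_eq hq (mem_badPrimes.1 hw).1).1 hqw ▸ hw)
    have h3 : q ^ 2 ∣ L := ((hq.coprime_iff_not_dvd.2 hc).pow_left 2).dvd_of_dvd_mul_right h2
    exact hq.not_isUnit (hL q (by rwa [← pow_two]))
  · rw [hGf, etaSeq_eq hL hu, toDir_coe, qCoeff_formH_prime hf1 hseq hℓ,
      hla ℓ hℓ fun h => hℓS (Finset.mem_of_mem_erase h), ha',
      Function.update_of_ne fun h : ℓ = q => hℓS (hS ℓ hℓ (h ▸ hqL))]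
  · rw [hGf, etaSeq_at_prime hL hq hqL hqb _ hu, qCoeff_formH_prime hf1 hseq hq,
      hla q hq (Finset.notMem_erase q S), ha', Function.update_self]

/-- A form special at `q` has its system at no level prime to `q`. -/
theorem eq_zero_of_special (hL : Squarefree L) (hneg : -1 ∈ K)
    (hodd : Odd (Nat.card ((ZMod L)ˣ ⧸ K))) (hS : ∀ v : ℕ, v.Prime → v ∣ L → v ∈ S)
    (hχ : ∀ u ∈ K, χ u = 1) (hφ : φ ∈ parabolicHoms ℂ (gammaH L K) ℂ)
    (hdia : ∀ u, diamond L K ℂ u φ = (χ u : ℂ) • φ)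
    (hT : ∀ (ℓ : ℕ) [Fact ℓ.Prime], ℓ ∉ S → hecke L K ℓ ℂ φ = a ℓ • φ)
    {M : ℕ} [NeZero M] {g : CuspForm (Gamma0 M) 2} (hg : g.IsNormalizedEigenform)
    (hsys : IsTwistedSystem K χ a S g) {q : ℕ} (hq : q.Prime) (hqL : ¬ q ∣ L) (hqM : q ∣ M)
    (hq2 : ¬ q ^ 2 ∣ M) (h1 : qCoeff g q ^ 2 = 1) : φ = 0 := by
  by_contra hne
  obtain ⟨f, G, -, hG, -, hGsys⟩ := exists_twisted_eigenform hL hneg hodd hS hχ hφ hne hdia hT
  have := neZero_twistLevel (χ := toDir χ)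
  have hsame : SameSystem g G S := fun ℓ hℓ hℓS => by
    have hℓL : ¬ ℓ ∣ L := fun h => hℓS (hS ℓ hℓ h)
    have hu := ((ZMod.isUnit_iff_coprime ℓ L).2 (hℓ.coprime_iff_not_dvd.2 hℓL))
    rw [hsys ℓ hℓ hℓS hu.unit hu.unit_spec, hGsys ℓ hℓ hℓS hu.unit hu.unit_spec]
  exact hsame.qCoeff_sq_ne_one hg hG hq hqM hq2
    (fun h => hqL ((prime_dvd_twistLevel_iff hq).1 h)) h1

end Fermat.Agent.Lifting.Eigen
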